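import Mathlib
import Fermat.Prelude.Def_AlgebraicCurve_IsCurveOver
import Fermat.Prelude.Def_AlgebraicCurve_Repartitions
import Fermat.Prelude.Def_AlgebraicCurve_CanonicalDivisor

set_option autoImplicit false

noncomputable section

namespace FLTAgent.RR

variable (K F : Type*) [Field K] [Field F] [Algebra K F]

/-- One-variable function field: finite over `K(x)` for some transcendental `x`. -/
class FnField : Prop where
  exists_transcendental : ∃ x : F, Transcendental K x ∧
    FiniteDimensional (IntermediateField.adjoin K ({x} : Set F)) F

variable {K F}

/-- The degree `[F : K(x)]`. -/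
def ndeg (K : Type*) {F : Type*} [Field K] [Field F] [Algebra K F] (x : F) : ℕ :=
  Module.finrank (IntermediateField.adjoin K ({x} : Set F)) F

end FLTAgent.RR
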