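import Fermat.Agent.RR.Forms
import Fermat.Agent.Genus.Places
import Fermat.Agent.Periods.EichlerShimura

/-! The dimension formula for weight two cusp forms. -/

set_option autoImplicit false

namespace FLTAgent.RR

theorem genusFormula_le_finrank_cuspForm (N : ℕ) [NeZero N] :
    ModularCurve.genusFormula N
      ≤ (Module.finrank ℂ (CuspForm (CongruenceSubgroup.Gamma0 N) 2) : ℚ) := by
  have := hasCanonicalDivisor (K := AlgebraicClosure ℚ)
    (F := ↥(ModularCurve.modularFunctionFieldBar N))
  have := Periods.finiteDimensional_cuspForm (N := N)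
  rw [← Genus.genusFF_eq]
  exact_mod_cast genusFF_le_finrank_cuspForm (N := N)

theorem finrank_cuspForm_eq_genusFormula (N : ℕ) [NeZero N] :
    (Module.finrank ℂ (CuspForm (CongruenceSubgroup.Gamma0 N) 2) : ℚ)
      = ModularCurve.genusFormula N :=
  le_antisymm Periods.finrank_cuspForm_le_genusFormula (genusFormula_le_finrank_cuspForm N)

end FLTAgent.RR
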