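import Fermat.Agent.RR.H1


set_option autoImplicit false

noncomputable section

open AlgebraicCurve KaehlerDifferential

namespace FLTAgent.RR

variable {K F : Type*} [Field K] [Field F] [Algebra K F] [IsAlgClosed K] [CharZero K]
  [hF : FnField K F]

/-- all of: principal divisors of degree zero, residue fields `K`, Kähler rank one -/
theorem isCurveOver : IsCurveOver K F := isCurveOver'

theorem hasCanonicalDivisor : HasCanonicalDivisor (K := K) (F := F) := hasCanonicalDivisor'

theorem deg_eq_one (v : Place K F) : v.deg = 1 := deg_place v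

theorem dCoordGenerates (v : Place K F) : v.DCoordGenerates := dCoordGenerates' v

theorem nontrivial_kaehler : Nontrivial Ω[F⁄K] := nontrivial_kaehler'

theorem D_ne_zero {x : F} (hx : Transcendental K x) : D K F x ≠ 0 := D_ne_zero' hx

theorem finiteDimensional_adjoin {x : F} (hx : Transcendental K x) :
    FiniteDimensional (IntermediateField.adjoin K ({x} : Set F)) F := finiteDimensional_KK hx

/-- residue at `v` of an element without a pole -/
theorem exists_const_ord_pos {v : Place K F} {f : F} (hf : 0 ≤ v.ord f) :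
    ∃ c : K, f = algebraMap K F c ∨ 0 < v.ord (f - algebraMap K F c) := by
  obtain ⟨c, hc⟩ := hasRes v f (bd_iff.mpr (Or.inr (by omega)))
  rw [bd_iff, sub_eq_zero] at hc
  exact ⟨c, hc.imp id fun h => by omega⟩

theorem finite_ord_ne_zero {f : F} (hf : f ≠ 0) : {v : Place K F | v.ord f ≠ 0}.Finite := finite_ord_ne hf

/-- number of zeros of `x - c`, with multiplicity, is `[F : K(x)]` -/
theorem sum_ord_sub_const {x : F} (hx : Transcendental K x) (c : K) (s : Finset (Place K F))
    (hs : ∀ v : Place K F, v ∈ s ↔ 0 < v.ord (x - algebraMap K F c)) :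
    ∑ v ∈ s, v.ord (x - algebraMap K F c) = ndeg K x := by
  rw [show s = zeros (x - algebraMap K F c) from Finset.ext fun v => (hs v).trans mem_zeros.symm,
    sum_zeros (transcendental_sub_const hx c), ndeg_congr (KK_sub_const x c)]

/-- number of poles of `x`, with multiplicity, is `[F : K(x)]` -/
theorem sum_ord_poles {x : F} (hx : Transcendental K x) (s : Finset (Place K F))
    (hs : ∀ v : Place K F, v ∈ s ↔ v.ord x < 0) :
    ∑ v ∈ s, -v.ord x = ndeg K x := by
  rw [show s = zeros x⁻¹ from Finset.ext fun v =>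
      (hs v).trans (by rw [mem_zeros, v.ord_inv]; omega),
    ← ndeg_congr (KK_inv x), ← sum_zeros (transcendental_inv hx)]
  exact Finset.sum_congr rfl fun v _ => (v.ord_inv x).symm

theorem ordDifferential_D_of_zero {x : F} (hx : Transcendental K x) {v : Place K F} {c : K}
    (h : 0 < v.ord (x - algebraMap K F c)) :
    v.ordDifferential (D K F x) = v.ord (x - algebraMap K F c) - 1 := by
  rw [(ordDifferential_D_eq hx v).2, kd_of_zero h]

theorem ordDifferential_D_of_pole {x : F} (hx : Transcendental K x) {v : Place K F}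
    (h : v.ord x < 0) :
    v.ordDifferential (D K F x) = v.ord x - 1 := by
  rw [(ordDifferential_D_eq hx v).2, kd_of_pole h]

/-- `ω = h • dx`: the divisor of any differential -/
theorem ordDifferential_smul_D {x : F} (hx : Transcendental K x) {h : F} (hh : h ≠ 0)
    (v : Place K F) :
    v.ordDifferential (h • D K F x) = v.ord h + v.ordDifferential (D K F x) := by
  rw [ordDifferential_smul_D' hx hh, (ordDifferential_D_eq hx v).2]

section Canonical

variable [HasCanonicalDivisor (K := K) (F := F)]

theorem canonical_eq {ω : Ω[F⁄K]} (hω : ω ≠ 0) :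
    ∃ (x : F) (hx : Transcendental K x) (E : Divisor K F) (h : F), h ≠ 0 ∧
      (∀ v, E v = v.ord h) ∧ canonicalDivisorOf hω = Kd hx + E := by
  obtain ⟨x, hx, -⟩ := hF.exists_transcendental
  obtain ⟨h, rfl⟩ := exists_eq_smul_D hx ω
  have hh : h ≠ 0 := fun h0 => hω (by simp [h0])
  obtain ⟨E, hE⟩ := exists_divisor (K := K) hh
  refine ⟨x, hx, E, h, hh, hE, Finsupp.ext fun v => ?_⟩
  rw [canonicalDivisorOf_apply, ordDifferential_smul_D' hx hh, Finsupp.add_apply, hE, Kd_apply,
    add_comm]

/-- degree of any canonical divisor -/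
theorem degree_canonicalDivisorOf {ω : Ω[F⁄K]} (hω : ω ≠ 0) :
    Divisor.degree (canonicalDivisorOf hω) = 2 * (genusFF K F : ℤ) - 2 := by
  obtain ⟨x, hx, E, h, h0, hE, he⟩ := canonical_eq hω
  rw [he, map_add, degree_divisor h0 hE, add_zero, degree_Kd, genusFF_eq hx]

theorem genus_eq_genusFF : AlgebraicCurve.genus K F = genusFF K F := by
  have hex : ∃ ω : Ω[F⁄K], ω ≠ 0 := by
    obtain ⟨x, hx, -⟩ := hF.exists_transcendental
    exact ⟨_, D_ne_zero' hx⟩
  rw [AlgebraicCurve.genus, dif_pos hex, degree_canonicalDivisorOf hex.choose_spec]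
  omega

theorem finrank_riemannRoch_canonical {ω : Ω[F⁄K]} (hω : ω ≠ 0) :
    Module.finrank K (riemannRochSpace (canonicalDivisorOf hω)) = genusFF K F := by
  obtain ⟨x, hx, E, h, h0, hE, he⟩ := canonical_eq hω
  rw [he, genusFF_eq hx]
  exact ell_add_principal _ h0 hE

/-- Riemann-Roch -/
theorem riemannRoch {ω : Ω[F⁄K]} (hω : ω ≠ 0) (D : Divisor K F) :
    (Module.finrank K (riemannRochSpace D) : ℤ)
      - Module.finrank K (riemannRochSpace (canonicalDivisorOf hω - D))
      = Divisor.degree D + 1 - genusFF K F := by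
  obtain ⟨x, hx, E, h, h0, hE, he⟩ := canonical_eq hω
  rw [he, genusFF_eq hx, ← rr hx D, show Kd hx + E - D = (Kd hx - D) + E by abel]
  show (ell D : ℤ) - (ell ((Kd hx - D) + E) : ℤ) = _
  rw [ell_add_principal _ h0 hE]

end Canonical

theorem finiteDimensional_riemannRochSpace (D : Divisor K F) :
    FiniteDimensional K (riemannRochSpace D) := finiteDimensional_rr D

theorem finiteDimensional_H1 (D : Divisor K F) : FiniteDimensional K (H1 D) := by
  obtain ⟨x, hx, -⟩ := hF.exists_transcendental
  exact (H1_finrank hx D).1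

end FLTAgent.RR
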