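import Fermat.Agent.RR.Fibre

/-! Globalisation: statements about an arbitrary transcendental element. -/

set_option autoImplicit false
set_option linter.unusedSectionVars false

noncomputable section

open AlgebraicCurve Polynomial
open IntermediateField (adjoin)

namespace FLTAgent.RR

variable {K F : Type*} [Field K] [Field F] [Algebra K F]

/-- `K(x)` -/
abbrev KK (K : Type*) {F : Type*} [Field K] [Field F] [Algebra K F] (x : F) :
    IntermediateField K F :=
  IntermediateField.adjoin K ({x} : Set F)

/-- trace to `K(x)`, with values in `F` -/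
def trF (K : Type*) {F : Type*} [Field K] [Field F] [Algebra K F] (x f : F) : F :=
  algebraMap (KK K x) F (Algebra.trace (KK K x) F f)

theorem self_mem_KK (x : F) : x ∈ KK K x :=
  IntermediateField.mem_adjoin_simple_self K x

theorem KK_sub_const (x : F) (c : K) : KK K (x - algebraMap K F c) = KK K x := by
  apply le_antisymm <;> rw [IntermediateField.adjoin_simple_le_iff]
  · exact sub_mem (self_mem_KK x) (IntermediateField.algebraMap_mem _ c)
  · simpa using add_mem (self_mem_KK (K := K) (x - algebraMap K F c))
      (IntermediateField.algebraMap_mem _ c)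

theorem KK_inv (x : F) : KK K x⁻¹ = KK K x := by
  apply le_antisymm <;> rw [IntermediateField.adjoin_simple_le_iff]
  · exact inv_mem (self_mem_KK x)
  · simpa using inv_mem (self_mem_KK (K := K) x⁻¹)

theorem trF_congr {x y : F} (h : KK K x = KK K y) (f : F) : trF K x f = trF K y f := by
  have key : ∀ E E' : IntermediateField K F, E = E' →
      algebraMap E F (Algebra.trace E F f) = algebraMap E' F (Algebra.trace E' F f) := by
    rintro E _ rfl; rfl
  exact key _ _ h

theorem trF_mem (x f : F) : trF K x f ∈ KK K x := SetLike.coe_mem _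

theorem trF_mul {x : F} {h : F} (hh : h ∈ KK K x) (f : F) :
    trF K x (h * f) = h * trF K x f := by
  have : h * f = (⟨h, hh⟩ : KK K x) • f := rfl
  rw [trF, this, map_smul, smul_eq_mul, map_mul]
  rfl

theorem trF_add (x f g : F) : trF K x (f + g) = trF K x f + trF K x g := by
  simp [trF]

theorem trF_sum {ι : Type*} (x : F) (s : Finset ι) (f : ι → F) :
    trF K x (∑ i ∈ s, f i) = ∑ i ∈ s, trF K x (f i) := by
  simp [trF]

theorem ndeg_congr {x y : F} (h : KK K x = KK K y) : ndeg K x = ndeg K y := by
  exact congrArg (fun E : IntermediateField K F => Module.finrank E F) h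

theorem transcendental_sub_const {x : F} (hx : Transcendental K x) (c : K) :
    Transcendental K (x - algebraMap K F c) := fun h => hx (by
  simpa using h.add (isAlgebraic_algebraMap c))

theorem transcendental_inv {x : F} (hx : Transcendental K x) : Transcendental K x⁻¹ :=
  fun h => hx (IsAlgebraic.inv_iff.mp h)

section Algebras

/-- the chart algebra -/
@[instance_reducible]
def polyAlg (x : F) : Algebra K[X] F := (Polynomial.aeval (R := K) x).toRingHom.toAlgebra

/-- the chart algebra, on rational functions -/
@[instance_reducible]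
def ratAlg {x : F} (hx : Transcendental K x) : Algebra (RatFunc K) F :=
  (((KK K x).val).comp (RatFunc.algEquivOfTranscendental x hx).toAlgHom).toRingHom.toAlgebra

theorem chart_tower_K (x : F) :
    @IsScalarTower K K[X] F _ (polyAlg x).toSMul _ :=
  letI := polyAlg (K := K) x
  IsScalarTower.of_algebraMap_eq fun a => ((Polynomial.aeval (R := K) x).commutes a).symm

theorem chart_tower_rat {x : F} (hx : Transcendental K x) :
    @IsScalarTower K[X] (RatFunc K) F _ (ratAlg hx).toSMul (polyAlg x).toSMul :=
  letI := polyAlg (K := K) x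
  letI := ratAlg hx
  IsScalarTower.of_algebraMap_eq fun p => by
    show Polynomial.aeval x p = ((RatFunc.algEquivOfTranscendental x hx
      (algebraMap K[X] (RatFunc K) p) : KK K x) : F)
    simp

theorem chart_finite {x : F} (hx : Transcendental K x) [FiniteDimensional (KK K x) F] :
    @FiniteDimensional (RatFunc K) F _ _ (ratAlg hx).toModule :=
  letI := ratAlg hx
  Module.Finite.of_equiv_equiv (RatFunc.algEquivOfTranscendental x hx).toRingEquiv.symm
    (RingEquiv.refl F) (by
      ext a
      show ((RatFunc.algEquivOfTranscendental x hx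
        ((RatFunc.algEquivOfTranscendental x hx).symm a) : KK K x) : F) = (a : F)
      simp)

theorem chart_trace {x : F} (hx : Transcendental K x) (f : F) :
    letI := ratAlg hx
    algebraMap (RatFunc K) F (Algebra.trace (RatFunc K) F f) = trF K x f := by
  letI := ratAlg hx
  have h := Algebra.trace_eq_of_equiv_equiv (A₁ := RatFunc K) (B₁ := F) (A₂ := KK K x) (B₂ := F)
    (RatFunc.algEquivOfTranscendental x hx).toRingEquiv (RingEquiv.refl F) (by ext a; rfl) f
  rw [h]
  show ((RatFunc.algEquivOfTranscendental x hx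
    ((RatFunc.algEquivOfTranscendental x hx).symm _) : KK K x) : F) = _
  rw [AlgEquiv.apply_symm_apply]
  rfl

theorem chart_finrank {x : F} (hx : Transcendental K x) :
    @Module.finrank (RatFunc K) F _ _ (ratAlg hx).toModule = ndeg K x :=
  letI := ratAlg hx
  Algebra.finrank_eq_of_equiv_equiv (RatFunc.algEquivOfTranscendental x hx).toRingEquiv
    (RingEquiv.refl F) (by ext a; rfl)

end Algebras

variable [hF : FnField K F]

theorem finiteDimensional_KK {y : F} (hy : Transcendental K y) :
    FiniteDimensional (KK K y) F := by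
  obtain ⟨x, hx, hfin⟩ := hF.exists_transcendental
  have halg : IsAlgebraic (KK K x) y := IsIntegral.isAlgebraic (IsIntegral.of_finite _ y)
  have hxa : IsAlgebraic (KK K y) x := by
    rw [IntermediateField.isAlgebraic_adjoin_iff]
    by_contra hc
    have hy' : AlgebraicIndependent K (fun _ : Unit => y) :=
      algebraicIndependent_unique_type_iff.mpr hy
    have hx' : AlgebraicIndependent K (fun _ : Unit => x) :=
      algebraicIndependent_unique_type_iff.mpr hx
    have h1 : AlgebraicIndependent K (fun o : Option Unit => o.elim x fun _ => y) :=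
      (hy'.option_iff_transcendental x).mpr (by rw [Set.range_const]; exact hc)
    have h2 : AlgebraicIndependent K (fun o : Option Unit => o.elim y fun _ => x) :=
      (algebraicIndependent_equiv' (Equiv.swap (none : Option Unit) (some ())) (by
        funext o
        rcases o with _ | ⟨⟩ <;> simp)).mpr h1
    have h3 := (hx'.option_iff_transcendental y).mp h2
    rw [Set.range_const, ← IntermediateField.transcendental_adjoin_iff] at h3
    exact h3 halg
  haveI : FiniteDimensional (KK K y) (IntermediateField.adjoin (KK K y) ({x} : Set F)) :=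
    IntermediateField.adjoin.finiteDimensional hxa.isIntegral
  set E := IntermediateField.adjoin (KK K y) ({x} : Set F)
  have hle : KK K x ≤ E.restrictScalars K := by
    rw [IntermediateField.adjoin_simple_le_iff]
    exact IntermediateField.mem_adjoin_simple_self _ x
  haveI : FiniteDimensional E F := by
    letI : Algebra (KK K x) E := (IntermediateField.inclusion hle).toRingHom.toAlgebra
    haveI : IsScalarTower (KK K x) E F := IsScalarTower.of_algebraMap_eq fun _ => rfl
    exact Module.Finite.of_restrictScalars_finite (KK K x) E F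
  exact Module.Finite.trans E F

variable [IsAlgClosed K] [CharZero K]

/-- run a proof inside the chart of `x` -/
theorem with_chart {P : Prop} {x : F} (hx : Transcendental K x)
    (h : ∀ [Algebra K[X] F] [IsScalarTower K K[X] F] [Algebra (RatFunc K) F]
      [IsScalarTower K[X] (RatFunc K) F] [FiniteDimensional (RatFunc K) F],
      (∀ p : K[X], algebraMap K[X] F p = Polynomial.aeval x p) →
      (∀ f : F, Chart.trR (K := K) f = trF K x f) →
      Module.finrank (RatFunc K) F = ndeg K x → P) : P := by
  letI := polyAlg (K := K) x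
  letI := ratAlg hx
  haveI := chart_tower_K (K := K) x
  haveI := chart_tower_rat hx
  haveI := finiteDimensional_KK hx
  haveI := chart_finite hx
  exact h (fun _ => rfl) (chart_trace hx) (chart_finrank hx)

theorem bd_inv_of_not_bd {v : Place K F} {x : F} (h : ¬ Bd v x 0) : Bd v x⁻¹ (-1) := by
  rw [not_bd_iff] at h
  rw [bd_iff_ord (inv_ne_zero h.1), v.ord_inv]
  omega

/-- some chart sees a given place -/
theorem exists_chart (v : Place K F) :
    ∃ z : F, Transcendental K z ∧ Bd v z 0 := by
  obtain ⟨x, hx, -⟩ := hF.exists_transcendental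
  by_cases h : Bd v x 0
  · exact ⟨x, hx, h⟩
  · exact ⟨x⁻¹, transcendental_inv hx, (bd_inv_of_not_bd h).mono (by omega)⟩

theorem hasRes (v : Place K F) : HasRes v := by
  obtain ⟨z, hz, hv⟩ := exists_chart v
  refine with_chart hz fun hp _ _ => Chart.hasRes_of_fin ?_
  show Bd v (algebraMap K[X] F Polynomial.X) 0
  rwa [hp, Polynomial.aeval_X]

theorem finite_ord_ne {f : F} (hf : f ≠ 0) : {v : Place K F | v.ord f ≠ 0}.Finite := by
  obtain ⟨x, hx, -⟩ := hF.exists_transcendental
  have key : ∀ z : F, Transcendental K z →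
      {v : Place K F | Bd v z 0 ∧ v.ord f ≠ 0}.Finite := by
    intro z hz
    refine with_chart hz fun hp _ _ => ?_
    refine (Chart.finite_ord (K := K) hf).subset fun v hv => ⟨?_, hv.2⟩
    show Bd v (algebraMap K[X] F Polynomial.X) 0
    rw [hp, Polynomial.aeval_X]; exact hv.1
  refine ((key x hx).union (key x⁻¹ (transcendental_inv hx))).subset fun v hv => ?_
  by_cases h : Bd v x 0
  · exact Or.inl ⟨h, hv⟩
  · exact Or.inr ⟨(bd_inv_of_not_bd h).mono (by omega), hv⟩

open scoped Classical in
/-- the zeros of `x` -/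
def zeros (x : F) : Finset (Place K F) :=
  if h : {v : Place K F | 0 < v.ord x}.Finite then h.toFinset else ∅

theorem mem_zeros {x : F} {v : Place K F} : v ∈ zeros x ↔ 0 < v.ord x := by
  have h : {v : Place K F | 0 < v.ord x}.Finite := by
    rcases eq_or_ne x 0 with rfl | hx
    · simp
    · exact (finite_ord_ne (K := K) hx).subset fun v (hv : 0 < v.ord x) => by
        show v.ord x ≠ 0; omega
  rw [zeros, dif_pos h, Set.Finite.mem_toFinset]; rfl

theorem ne_zero_of_transcendental {x : F} (hx : Transcendental K x) : x ≠ 0 :=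
  fun h => hx (h ▸ isAlgebraic_zero)

theorem sum_zeros {x : F} (hx : Transcendental K x) :
    ∑ v ∈ zeros (K := K) x, v.ord x = ndeg K x := by
  refine with_chart hx fun hp _ hn => ?_
  have hxv : Chart.xv K F = x := by show algebraMap K[X] F Polynomial.X = x; simp [hp]
  have hz : zeros (K := K) x = Chart.zset K F := by
    ext v; rw [mem_zeros, Chart.mem_zset_iff_ord, hxv]
  rw [hz, ← hn, ← Chart.sum_ord_zset, hxv]

theorem ndeg_pos {x : F} (hx : Transcendental K x) : 0 < ndeg K x :=
  haveI := finiteDimensional_KK hx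
  Module.finrank_pos

theorem exists_zero {x : F} (hx : Transcendental K x) : ∃ v : Place K F, 0 < v.ord x := by
  by_contra h
  push Not at h
  have he : zeros (K := K) x = ∅ := Finset.eq_empty_of_forall_notMem fun v hv =>
    absurd (mem_zeros.mp hv) (not_lt.mpr (h v))
  have := sum_zeros hx
  rw [he, Finset.sum_empty] at this
  have := ndeg_pos hx
  omega

theorem deg_place (v : Place K F) : v.deg = 1 := (hasRes v).deg_eq_one

theorem degree_eq_sum (D : Divisor K F) : Divisor.degree D = ∑ v ∈ D.support, D v := by
  simp [Divisor.degree, Finsupp.sum, deg_place]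

theorem exists_divisor {f : F} (hf : f ≠ 0) : ∃ D : Divisor K F, ∀ v, D v = v.ord f :=
  ⟨Finsupp.onFinset (finite_ord_ne (K := K) hf).toFinset (fun v => v.ord f)
    (fun v hv => (Set.Finite.mem_toFinset _).mpr hv), fun _ => rfl⟩

theorem hasPrincipalDivisors : HasPrincipalDivisors K F := ⟨fun f hf => by
  classical
  obtain ⟨D, hD⟩ := exists_divisor (K := K) hf
  refine ⟨D, hD, ?_⟩
  rw [degree_eq_sum]
  rcases exists_const_or_transcendental (K := K) f with ⟨a, rfl⟩ | htr
  · exact Finset.sum_eq_zero fun v _ => by rw [hD, ord_algebraMap]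
  · have hsupp : D.support = zeros f ∪ zeros f⁻¹ := by
      ext v
      rw [Finsupp.mem_support_iff, Finset.mem_union, mem_zeros, mem_zeros, hD, v.ord_inv]
      omega
    have hdisj : Disjoint (zeros (K := K) f) (zeros (K := K) f⁻¹) := by
      rw [Finset.disjoint_left]
      intro v hv hv'
      rw [mem_zeros] at hv hv'
      rw [v.ord_inv] at hv'
      omega
    have h1 := sum_zeros (transcendental_inv htr)
    rw [ndeg_congr (KK_inv f)] at h1
    simp only [Place.ord_inv, Finset.sum_neg_distrib] at h1
    rw [hsupp, Finset.sum_union hdisj, Finset.sum_congr rfl fun v _ => hD v,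
      Finset.sum_congr rfl fun v _ => hD v, sum_zeros htr]
    omega⟩

theorem degree_divisor {f : F} (hf : f ≠ 0) {D : Divisor K F} (hD : ∀ v, D v = v.ord f) :
    Divisor.degree D = 0 := by
  obtain ⟨D', hD', h0⟩ := (hasPrincipalDivisors (K := K) (F := F)).exists_divisor f hf
  rw [show D = D' from Finsupp.ext fun v => by rw [hD, hD']]
  exact h0

theorem trF_regular {x f : F} (hx : Transcendental K x)
    (hf : ∀ v : Place K F, 0 < v.ord x → Bd v f (v.ord x - 1)) :
    ∀ v : Place K F, 0 < v.ord x → Bd v (trF K x f) 0 := by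
  refine with_chart hx fun hp htr _ => ?_
  have hxv : Chart.xv K F = x := by show algebraMap K[X] F Polynomial.X = x; simp [hp]
  intro v hv
  rw [← htr]
  refine Chart.trR_regular (fun w hw => ?_) v (by rwa [Chart.mem_zset_iff_ord, hxv])
  rw [Chart.mem_zset_iff_ord, hxv] at hw
  rw [hxv]; exact hf w hw

theorem exists_trF_not_regular {x : F} (hx : Transcendental K x) {v : Place K F}
    (hv : 0 < v.ord x) (N : ℕ) :
    ∃ ε : F, ε ≠ 0 ∧ v.ord ε = 0 ∧ (∀ w : Place K F, Bd w x 0 → Bd w ε 0) ∧
      (∀ w : Place K F, 0 < w.ord x → w ≠ v → Bd w ε (-(N : ℤ))) ∧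
      ∀ w : Place K F, 0 < w.ord x → ¬ Bd w (trF K x (ε / x)) 0 := by
  refine with_chart hx fun hp htr _ => ?_
  have hxv : Chart.xv K F = x := by show algebraMap K[X] F Polynomial.X = x; simp [hp]
  have hm : ∀ w : Place K F, 0 < w.ord x → w ∈ Chart.zset K F := fun w hw => by
    rwa [Chart.mem_zset_iff_ord, hxv]
  obtain ⟨ε, h0, h1, h2, h3, h4⟩ := Chart.exists_trR_not_regular (hm v hv) N
  refine ⟨ε, h0, h1, fun w hw => h2 w ?_, fun w hw => h3 w (hm w hw), fun w hw => ?_⟩
  · show Bd w (Chart.xv K F) 0; rwa [hxv]
  · have := h4 w (hm w hw); rwa [htr, hxv] at this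

theorem exists_ord_eq {x : F} (hx : Transcendental K x) {v : Place K F} (hv : Bd v x 0)
    (D : Divisor K F) (m : ℤ) :
    ∃ f : F, f ≠ 0 ∧ v.ord f = m ∧
      ∀ w : Place K F, Bd w x 0 → w ≠ v → Bd w f (D w) := by
  refine with_chart hx fun hp _ _ => ?_
  have hxv : Chart.xv K F = x := by show algebraMap K[X] F Polynomial.X = x; simp [hp]
  obtain ⟨f, h0, h1, h2⟩ := Chart.exists_ord_eq (v := v) (by show Bd v (Chart.xv K F) 0; rwa [hxv])
    (fun w => D w)
    (D.support.finite_toSet.subset fun w hw => Finsupp.mem_support_iff.mpr hw.2) m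
  exact ⟨f, h0, h1, fun w hw => h2 w (by show Bd w (Chart.xv K F) 0; rwa [hxv])⟩

/-! ### polynomials and rational functions in `x` at places -/

theorem ord_aeval_at_zero {x : F} {v : Place K F} (hv : 0 < v.ord x) {p : K[X]}
    (hp : p.eval 0 ≠ 0) : Polynomial.aeval x p ≠ 0 ∧ v.ord (Polynomial.aeval x p) = 0 := by
  refine with_chart (transcendental_of_ord_ne_zero (x := x) (v := v) (by omega)) fun hp' _ _ => ?_
  have hxv : Chart.xv K F = x := by show algebraMap K[X] F Polynomial.X = x; simp [hp']
  rw [← hp']
  exact Chart.ord_poly_eq_zero (by rwa [Chart.mem_zset_iff_ord, hxv]) hp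

theorem ord_aeval_eq_zero {x : F} {v : Place K F} {c : K}
    (hv : 0 < v.ord (x - algebraMap K F c)) {p : K[X]} (hp : p.eval c ≠ 0) :
    Polynomial.aeval x p ≠ 0 ∧ v.ord (Polynomial.aeval x p) = 0 := by
  have h := ord_aeval_at_zero hv (p := p.comp (Polynomial.X + Polynomial.C c))
    (by simpa using hp)
  simpa [Polynomial.aeval_comp] using h

theorem bd_aeval {x : F} {v : Place K F} (hv : Bd v x 0) (p : K[X]) :
    Bd v (Polynomial.aeval x p) 0 := by
  induction p using Polynomial.induction_on' with
  | add p q hp hq => rw [map_add]; exact hp.add hq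
  | monomial n a =>
      rw [Polynomial.aeval_monomial]
      simpa using (Bd.of_algebraMap (v := v) a).mul (hv.pow n)

theorem ord_aeval_at_pole {x : F} {v : Place K F} (hv : v.ord x < 0) {p : K[X]} (hp : p ≠ 0) :
    Polynomial.aeval x p ≠ 0 ∧ v.ord (Polynomial.aeval x p) = p.natDegree * v.ord x := by
  have hx : x ≠ 0 := fun h => by simp [h] at hv
  have ht : v.ord (algebraMap K F p.leadingCoeff * x ^ p.natDegree) = p.natDegree * v.ord x := by
    rw [v.ord_mul ((_root_.map_ne_zero _).mpr (Polynomial.leadingCoeff_ne_zero.mpr hp)) (pow_ne_zero _ hx),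
      ord_algebraMap, ord_pow, zero_add]
  have hne : algebraMap K F p.leadingCoeff * x ^ p.natDegree ≠ 0 :=
    mul_ne_zero ((_root_.map_ne_zero _).mpr (Polynomial.leadingCoeff_ne_zero.mpr hp)) (pow_ne_zero _ hx)
  have hs : Bd v (∑ i ∈ Finset.range p.natDegree, algebraMap K F (p.coeff i) * x ^ i)
      (-(p.natDegree * v.ord x) - 1) := Bd.sum _ _ fun i hi => by
    rw [Finset.mem_range] at hi
    have h := (Bd.of_algebraMap (v := v) (p.coeff i)).mul ((bd_self (v := v) (f := x)).pow i)
    refine h.mono ?_
    have : ((i : ℤ) - p.natDegree + 1) * v.ord x ≥ 0 :=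
      mul_nonneg_of_nonpos_of_nonpos (by omega) (by omega)
    nlinarith
  rw [bd_iff] at hs
  have h := ord_add_eq v hne (g := ∑ i ∈ Finset.range p.natDegree, algebraMap K F (p.coeff i) * x ^ i)
    (hs.imp id fun h => by rw [ht]; omega)
  have e : Polynomial.aeval x p = algebraMap K F p.leadingCoeff * x ^ p.natDegree
      + ∑ i ∈ Finset.range p.natDegree, algebraMap K F (p.coeff i) * x ^ i := by
    rw [Polynomial.aeval_eq_sum_range, Finset.sum_range_succ, add_comm, Polynomial.coeff_natDegree]
    simp only [Algebra.smul_def]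
  rw [e]
  exact ⟨h.1, by rw [h.2, ht]⟩

theorem exists_num_den {x h : F} (hx : Transcendental K x) (hh : h ∈ KK K x) :
    ∃ p q : K[X], IsCoprime p q ∧ Polynomial.aeval x q ≠ 0 ∧
      h * Polynomial.aeval x q = Polynomial.aeval x p := by
  set r := (RatFunc.algEquivOfTranscendental x hx).symm ⟨h, hh⟩ with hr
  have hq : Polynomial.aeval x r.denom ≠ 0 := fun h0 =>
    r.denom_ne_zero ((transcendental_iff.mp hx) _ h0)
  refine ⟨r.num, r.denom, r.isCoprime_num_denom, hq, ?_⟩
  have := RatFunc.algEquivOfTranscendental_apply x hx r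
  rw [hr, AlgEquiv.apply_symm_apply] at this
  rw [← hr] at this
  rw [show h = Polynomial.aeval x r.num / Polynomial.aeval x r.denom from this,
    div_mul_cancel₀ _ hq]

/-- an element of `K(x)` regular at all finite places is a polynomial -/
theorem exists_aeval_eq {x h : F} (hx : Transcendental K x) (hh : h ∈ KK K x)
    (hb : ∀ (c : K) (v : Place K F), 0 < v.ord (x - algebraMap K F c) → Bd v h 0) :
    ∃ p : K[X], h = Polynomial.aeval x p := by
  obtain ⟨p, q, hco, hq, he⟩ := exists_num_den hx hh
  by_cases hdeg : q.natDegree = 0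
  · obtain ⟨a, rfl⟩ := Polynomial.natDegree_eq_zero.mp hdeg
    have ha : a ≠ 0 := fun h0 => hq (by simp [h0])
    refine ⟨Polynomial.C a⁻¹ * p, ?_⟩
    rw [map_mul, ← he, Polynomial.aeval_C, Polynomial.aeval_C, mul_left_comm, ← map_mul,
      inv_mul_cancel₀ ha, map_one, mul_one]
  exfalso
  obtain ⟨c, hc⟩ := IsAlgClosed.exists_root q (fun h0 => hdeg (Polynomial.natDegree_eq_of_degree_eq_some h0))
  obtain ⟨v, hv⟩ := exists_zero (transcendental_sub_const hx c)
  have hqv : Bd v (Polynomial.aeval x q) (-1) := by
    obtain ⟨r, rfl⟩ := Polynomial.dvd_iff_isRoot.mpr hc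
    rw [map_mul, map_sub, Polynomial.aeval_X, Polynomial.aeval_C]
    have hxv : Bd v x 0 := by
      have h1 : Bd v (x - algebraMap K F c) 0 := by
        rw [bd_iff]; right; omega
      simpa using h1.add (Bd.of_algebraMap (v := v) c)
    have h1 : Bd v (x - algebraMap K F c) (-1) := by rw [bd_iff]; right; omega
    simpa using h1.mul (bd_aeval hxv r)
  have hpv := (hb c v hv).mul hqv
  rw [he] at hpv
  have hpc : p.eval c ≠ 0 := by
    intro hp0
    obtain ⟨u, w, huw⟩ := hco
    have := congrArg (Polynomial.eval c) huw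
    simp [hp0, hc.eq_zero] at this
  obtain ⟨hp0, hp1⟩ := ord_aeval_eq_zero hv hpc
  rw [bd_iff_ord hp0, hp1] at hpv
  omega

end FLTAgent.RR
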