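import Fermat.Agent.RR.Defs

/-! Places: elementary lemmas on `ord`, bounds, residues, and bounded-pole spaces. -/

set_option autoImplicit false

noncomputable section

open AlgebraicCurve WithZero IsLocalRing

namespace FLTAgent.RR

variable {K F : Type*} [Field K] [Field F] [Algebra K F]

/-- `f` has valuation bound `exp n` at `v`, i.e. `f = 0` or `-n ≤ ord f`. -/
def Bd (v : Place K F) (f : F) (n : ℤ) : Prop := v.adicValuation f ≤ exp n

theorem bd_iff {v : Place K F} {f : F} {n : ℤ} : Bd v f n ↔ f = 0 ∨ -n ≤ v.ord f :=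
  v.adicValuation_le_exp_iff

theorem bd_iff_ord {v : Place K F} {f : F} {n : ℤ} (hf : f ≠ 0) : Bd v f n ↔ -n ≤ v.ord f := by
  rw [bd_iff, or_iff_right hf]

namespace Bd

variable {v : Place K F} {f g : F} {n m : ℤ}

theorem zero : Bd v (0 : F) n := by simp [bd_iff]

theorem mono (h : Bd v f n) (hnm : n ≤ m) : Bd v f m := le_trans h (exp_le_exp.mpr hnm)

theorem add (h : Bd v f n) (h' : Bd v g n) : Bd v (f + g) n :=
  (Valuation.map_add _ _ _).trans (max_le h h')

theorem neg (h : Bd v f n) : Bd v (-f) n := by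
  rw [Bd, Valuation.map_neg]; exact h

theorem sub (h : Bd v f n) (h' : Bd v g n) : Bd v (f - g) n := by
  rw [sub_eq_add_neg]; exact h.add h'.neg

theorem mul (h : Bd v f n) (h' : Bd v g m) : Bd v (f * g) (n + m) := by
  rw [Bd, map_mul, exp_add]
  exact mul_le_mul' h h'

theorem sum {ι : Type*} (s : Finset ι) (f : ι → F) (h : ∀ i ∈ s, Bd v (f i) n) :
    Bd v (∑ i ∈ s, f i) n := by
  classical
  induction s using Finset.induction with
  | empty => simpa using Bd.zero
  | insert a s ha ih =>
      rw [Finset.sum_insert ha]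
      exact (h a (by simp)).add (ih fun i hi => h i (by simp [hi]))

theorem of_algebraMap (a : K) : Bd v (algebraMap K F a) 0 := by
  rw [Bd, exp_zero]; exact v.adicValuation_algebraMap_le_one a

theorem pow (h : Bd v f n) (k : ℕ) : Bd v (f ^ k) (k * n) := by
  induction k with
  | zero => simpa [Bd] using (le_refl (1 : ℤᵐ⁰))
  | succ k ih =>
      rw [pow_succ, show ((k + 1 : ℕ) : ℤ) * n = k * n + n by push_cast; ring]
      exact ih.mul h

theorem smul (h : Bd v f n) (c : K) : Bd v (c • f) n := by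
  rw [Algebra.smul_def]; simpa using (Bd.of_algebraMap (v := v) c).mul h

end Bd

theorem bd_self {v : Place K F} {f : F} : Bd v f (-v.ord f) := by
  rw [bd_iff]; right; simp

theorem bd_mul_iff {v : Place K F} {f g : F} {n : ℤ} (hg : g ≠ 0) :
    Bd v (f * g) n ↔ Bd v f (n + v.ord g) := by
  rcases eq_or_ne f 0 with rfl | hf
  · simp [bd_iff]
  rw [bd_iff_ord (mul_ne_zero hf hg), bd_iff_ord hf, v.ord_mul hf hg]
  omega

theorem bd_div_iff {v : Place K F} {f g : F} {n : ℤ} (hg : g ≠ 0) :
    Bd v (f / g) n ↔ Bd v f (n - v.ord g) := by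
  rw [div_eq_mul_inv, bd_mul_iff (inv_ne_zero hg), v.ord_inv]
  rfl

theorem not_bd_iff {v : Place K F} {f : F} {n : ℤ} :
    ¬ Bd v f n ↔ f ≠ 0 ∧ v.ord f < -n := by
  rw [bd_iff, not_or, not_le]

theorem ord_eq_of_bd {v : Place K F} {f : F} {n : ℤ} (h : Bd v f n) (h' : ¬ Bd v f (n - 1)) :
    f ≠ 0 ∧ v.ord f = -n := by
  rw [not_bd_iff] at h'
  rw [bd_iff_ord h'.1] at h
  exact ⟨h'.1, by omega⟩

theorem mem_iff_bd {v : Place K F} {f : F} : f ∈ v.toValuationSubring ↔ Bd v f 0 := by
  constructor
  · intro h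
    rw [Bd, exp_zero]
    exact v.adicValuation_le_one_of_mem h
  · intro h
    by_contra hf
    have hf0 : f ≠ 0 := fun h0 => hf (h0 ▸ v.toValuationSubring.zero_mem)
    have hi : f⁻¹ ∈ v.toValuationSubring :=
      (v.toValuationSubring.mem_or_inv_mem f).resolve_left hf
    have hnu : ¬ IsUnit (⟨f⁻¹, hi⟩ : v.toValuationSubring) := by
      intro hu
      obtain ⟨w, hw⟩ := hu.exists_right_inv
      have hw' : f⁻¹ * (w : F) = 1 := by simpa using congrArg Subtype.val hw
      exact hf (by
        have : (w : F) = f := by field_simp at hw'; exact hw'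
        exact this ▸ w.2)
    have h1 : v.adicValuation f⁻¹ ≠ 1 := fun h1 =>
      hnu ((v.adicValuation_coe_eq_one_iff ⟨f⁻¹, hi⟩).mp h1)
    have h2 := v.adicValuation_le_one_of_mem hi
    rw [← exp_zero] at h2
    rcases (Place.adicValuation_le_exp_iff (v := v)).mp h2 with h3 | h3
    · exact inv_ne_zero hf0 h3
    rw [v.ord_inv] at h3
    rw [bd_iff_ord hf0] at h
    apply h1
    rw [v.adicValuation_eq_exp_neg_ord (inv_ne_zero hf0), v.ord_inv,
      show v.ord f = 0 by omega]
    simp

theorem mem_maximalIdeal_iff_bd {v : Place K F} {a : v.toValuationSubring} :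
    a ∈ maximalIdeal v.toValuationSubring ↔ Bd v (a : F) (-1) := by
  rw [IsLocalRing.mem_maximalIdeal, mem_nonunits_iff, ← v.adicValuation_coe_eq_one_iff]
  have h : Bd v (a : F) 0 := mem_iff_bd.mp a.2
  constructor
  · intro h1
    rcases eq_or_ne (a : F) 0 with h0 | h0
    · rw [h0]; exact Bd.zero
    rw [bd_iff_ord h0] at h ⊢
    by_contra h2
    apply h1
    rw [v.adicValuation_eq_exp_neg_ord h0, show v.ord (a : F) = 0 by omega]
    simp
  · intro h1 h2
    rw [Bd, h2, ← exp_zero, exp_le_exp] at h1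
    omega

theorem ord_algebraMap (v : Place K F) (a : K) : v.ord (algebraMap K F a) = 0 := by
  rcases eq_or_ne a 0 with rfl | ha
  · simp
  have h := (bd_iff_ord ((map_ne_zero _).mpr ha)).mp (Bd.of_algebraMap (v := v) a)
  have h' := (bd_iff_ord ((map_ne_zero _).mpr (inv_ne_zero ha))).mp
    (Bd.of_algebraMap (v := v) a⁻¹)
  rw [map_inv₀, v.ord_inv] at h'
  omega

theorem ord_pow (v : Place K F) (f : F) (n : ℕ) : v.ord (f ^ n) = n * v.ord f := by
  have := v.ord_zpow f (n : ℤ)
  simpa using this

theorem ord_prod {ι : Type*} (v : Place K F) (s : Finset ι) (f : ι → F)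
    (h : ∀ i ∈ s, f i ≠ 0) : v.ord (∏ i ∈ s, f i) = ∑ i ∈ s, v.ord (f i) := by
  classical
  induction s using Finset.induction with
  | empty => simp
  | insert a s ha ih =>
      rw [Finset.prod_insert ha, Finset.sum_insert ha, v.ord_mul (h a (by simp))
        (Finset.prod_ne_zero_iff.mpr fun i hi => h i (by simp [hi])),
        ih fun i hi => h i (by simp [hi])]

theorem ord_neg (v : Place K F) (f : F) : v.ord (-f) = v.ord f := by
  simp [Place.ord, Valuation.map_neg]

/-- the ultrametric inequality, sharp form -/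
theorem ord_add_eq (v : Place K F) {f g : F} (hf : f ≠ 0)
    (h : g = 0 ∨ v.ord f < v.ord g) : f + g ≠ 0 ∧ v.ord (f + g) = v.ord f := by
  have h1 : Bd v (f + g) (-v.ord f) := by
    refine bd_self.add ?_
    rw [bd_iff]
    rcases h with h | h
    · exact Or.inl h
    · right; omega
  have h2 : ¬ Bd v (f + g) (-v.ord f - 1) := by
    intro h2
    have h3 : Bd v g (-v.ord f - 1) := by
      rw [bd_iff]
      rcases h with h | h
      · exact Or.inl h
      · right; omega
    have := h2.sub h3
    rw [add_sub_cancel_right, bd_iff_ord hf] at this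
    omega
  simpa using ord_eq_of_bd h1 h2

theorem transcendental_of_ord_ne_zero [IsAlgClosed K] {v : Place K F} {x : F}
    (hx : v.ord x ≠ 0) : Transcendental K x := by
  intro halg
  obtain ⟨a, rfl⟩ : ∃ a : K, algebraMap K F a = x := by
    have hd := IsAlgClosed.degree_eq_one_of_irreducible K (minpoly.irreducible halg.isIntegral)
    exact minpoly.degree_eq_one_iff.mp hd
  exact hx (ord_algebraMap v a)

theorem exists_const_or_transcendental [IsAlgClosed K] (x : F) :
    (∃ a : K, algebraMap K F a = x) ∨ Transcendental K x := by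
  by_cases h : IsAlgebraic K x
  · exact Or.inl (minpoly.degree_eq_one_iff.mp
      (IsAlgClosed.degree_eq_one_of_irreducible K (minpoly.irreducible h.isIntegral)))
  · exact Or.inr h

/-- A place whose ring contains that of another place is equal to it. -/
theorem place_eq_of_le {w v : Place K F} (h : w.toValuationSubring ≤ v.toValuationSubring) :
    w = v := by
  apply Place.ext
  refine le_antisymm h fun f hf => ?_
  obtain ⟨π, hπ⟩ := IsDiscreteValuationRing.exists_irreducible w.toValuationSubring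
  have hπ0 : (π : F) ≠ 0 := by simpa [ZeroMemClass.coe_eq_zero] using hπ.ne_zero
  have hπord := w.ord_coe_irreducible hπ
  by_contra hfw
  rw [mem_iff_bd, not_bd_iff] at hfw
  obtain ⟨hf0, hneg⟩ := hfw
  -- `π` is a unit of the bigger ring
  have hπinv : (π : F)⁻¹ ∈ v.toValuationSubring := by
    obtain ⟨k, hk⟩ : ∃ k : ℕ, v.toValuationSubring.subtype.range = v.toValuationSubring.subtype.range
        ∧ (k : ℤ) = -w.ord f - 1 := ⟨(-w.ord f - 1).toNat, rfl, by omega⟩
    have hu : f * (π : F) ^ (k + 1) ≠ 0 := mul_ne_zero hf0 (pow_ne_zero _ hπ0)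
    have hmem : (f * (π : F) ^ (k + 1))⁻¹ ∈ w.toValuationSubring := by
      rw [mem_iff_bd, bd_iff_ord (inv_ne_zero hu), w.ord_inv, w.ord_mul hf0 (pow_ne_zero _ hπ0),
        ord_pow, hπord]
      push_cast; omega
    have := v.toValuationSubring.mul_mem _ _ (v.toValuationSubring.mul_mem _ _ hf
      (pow_mem (h π.2) k)) (h hmem)
    have e : f * (π : F) ^ k * (f * (π : F) ^ (k + 1))⁻¹ = (π : F)⁻¹ := by
      rw [pow_succ]; field_simp
    rwa [e] at this
  apply v.ne_top'
  refine SetLike.ext fun g => ⟨fun _ => ValuationSubring.mem_top g, fun _ => ?_⟩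
  rcases eq_or_ne g 0 with rfl | hg
  · exact zero_mem _
  set k := (-w.ord g).toNat
  have hgm : g * (π : F) ^ k ∈ v.toValuationSubring := by
    apply h
    rw [mem_iff_bd, bd_iff_ord (mul_ne_zero hg (pow_ne_zero _ hπ0)),
      w.ord_mul hg (pow_ne_zero _ hπ0), ord_pow, hπord]
    omega
  have := v.toValuationSubring.mul_mem _ _ hgm (pow_mem hπinv k)
  rwa [mul_assoc, ← mul_pow, mul_inv_cancel₀ hπ0, one_pow, mul_one] at this

/-- Residues at `v` are given by constants. -/
def HasRes (v : Place K F) : Prop :=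
  ∀ f : F, Bd v f 0 → ∃ c : K, Bd v (f - algebraMap K F c) (-1)

theorem HasRes.exists_sub_smul {v : Place K F} (hv : HasRes v) {f u : F} {n : ℤ}
    (hf : Bd v f n) (hu : u ≠ 0) (hun : v.ord u = -n) :
    ∃ c : K, Bd v (f - c • u) (n - 1) := by
  obtain ⟨c, hc⟩ := hv (f / u) ((bd_div_iff hu).mpr (by rw [hun]; simpa using hf))
  refine ⟨c, ?_⟩
  have := hc.mul (bd_self (v := v) (f := u))
  rw [sub_mul, div_mul_cancel₀ _ hu, ← Algebra.smul_def] at this
  exact this.mono (by omega)

theorem HasRes.res_unique {v : Place K F} {f : F} {c c' : K}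
    (hc : Bd v (f - algebraMap K F c) (-1)) (hc' : Bd v (f - algebraMap K F c') (-1)) :
    c = c' := by
  by_contra hne
  have := hc'.sub hc
  rw [sub_sub_sub_cancel_left, ← map_sub,
    bd_iff_ord ((map_ne_zero _).mpr (sub_ne_zero.mpr hne)), ord_algebraMap] at this
  omega

theorem HasRes.deg_eq_one {v : Place K F} (hv : HasRes v) : v.deg = 1 := by
  have hs : Function.Surjective (Algebra.linearMap K v.ResidueField) := by
    intro r
    obtain ⟨a, rfl⟩ := IsLocalRing.residue_surjective r
    obtain ⟨c, hc⟩ := hv a (mem_iff_bd.mp a.2)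
    refine ⟨c, ?_⟩
    show IsLocalRing.residue _ (algebraMap K v.toValuationSubring c) = _
    rw [← sub_eq_zero, ← map_sub, IsLocalRing.residue_eq_zero_iff, mem_maximalIdeal_iff_bd]
    have := hc.neg
    rw [neg_sub] at this
    simpa using this
  have : Function.Injective (Algebra.linearMap K v.ResidueField) :=
    (algebraMap K v.ResidueField).injective
  rw [Place.deg, ← (LinearEquiv.ofBijective _ ⟨this, hs⟩).finrank_eq, Module.finrank_self]

theorem HasRes.finite {v : Place K F} (hv : HasRes v) : Module.Finite K v.ResidueField :=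
  Module.finite_of_finrank_pos (by have := hv.deg_eq_one; rw [Place.deg] at this; omega)

/-! ### bounded spaces -/

/-- functions bounded by `D` on the places in `S`. -/
def boundedOn (S : Place K F → Prop) (D : Place K F → ℤ) : Submodule K F where
  carrier := {f | ∀ v, S v → Bd v f (D v)}
  zero_mem' := fun _ _ => Bd.zero
  add_mem' := fun hf hg v hv => (hf v hv).add (hg v hv)
  smul_mem' := fun c _ hf v hv => (hf v hv).smul c

theorem mem_boundedOn {S : Place K F → Prop} {D : Place K F → ℤ} {f : F} :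
    f ∈ boundedOn S D ↔ ∀ v, S v → Bd v f (D v) := Iff.rfl

theorem boundedOn_mono {S : Place K F → Prop} {D E : Place K F → ℤ}
    (h : ∀ v, S v → D v ≤ E v) : boundedOn S D ≤ boundedOn S E :=
  fun _ hf v hv => (hf v hv).mono (h v hv)

theorem riemannRochSpace_eq_boundedOn (D : Divisor K F) :
    riemannRochSpace D = boundedOn (fun _ => True) (fun v => D v) := by
  ext f
  exact ⟨fun h v _ => h v, fun h v => h v trivial⟩

/-- one step in a chain of bounded spaces -/
theorem boundedOn_step {S : Place K F → Prop} {v₀ : Place K F} (hv₀ : HasRes v₀) (hS : S v₀)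
    {D E : Place K F → ℤ} (hE : E v₀ = D v₀ + 1) (hne : ∀ w, S w → w ≠ v₀ → E w = D w)
    {u : F} (hu : u ∈ boundedOn S E) (hu' : u ∉ boundedOn S D) :
    boundedOn S E = boundedOn S D ⊔ K ∙ u := by
  have hDE : ∀ w, S w → D w ≤ E w := fun w hw => by
    rcases eq_or_ne w v₀ with rfl | h
    · omega
    · rw [hne w hw h]
  refine le_antisymm ?_ (sup_le (boundedOn_mono hDE)
    ((Submodule.span_singleton_le_iff_mem _ _).mpr hu))
  intro f hf
  have hu'' : ¬ Bd v₀ u (E v₀ - 1) := by
    intro h
    refine hu' fun w hw => ?_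
    rcases eq_or_ne w v₀ with rfl | h'
    · exact h.mono (by omega)
    · rw [← hne w hw h']; exact hu w hw
  obtain ⟨hu0, hun⟩ := ord_eq_of_bd (hu v₀ hS) hu''
  obtain ⟨c, hc⟩ := hv₀.exists_sub_smul (hf v₀ hS) hu0 hun
  rw [← sub_add_cancel f (c • u)]
  refine Submodule.add_mem_sup (fun w hw => ?_)
    (Submodule.smul_mem _ c (Submodule.mem_span_singleton_self u))
  rcases eq_or_ne w v₀ with rfl | h'
  · exact hc.mono (by omega)
  · rw [← hne w hw h']; exact (hf w hw).sub ((hu w hw).smul c)

end FLTAgent.RR
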