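import Fermat.Agent.RR.Basic

/-! The affine chart of a function field given by `K[X] → F`. -/

set_option autoImplicit false

noncomputable section

open AlgebraicCurve IsDedekindDomain Polynomial
open scoped nonZeroDivisors

namespace FLTAgent.RR.Chart

variable (K F : Type*) [Field K] [Field F] [Algebra K F] [Algebra K[X] F]

/-- the integral closure of `K[X]` in `F` -/
abbrev A : Type _ := integralClosure K[X] F

/-- the coordinate -/
abbrev xv : F := algebraMap K[X] F Polynomial.X

variable {K F}

/-- places with no pole of the coordinate -/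
def Fin' (v : Place K F) : Prop := Bd v (xv K F) 0

variable [IsScalarTower K K[X] F]

theorem algebraMap_C (a : K) : algebraMap K[X] F (Polynomial.C a) = algebraMap K F a := by
  rw [IsScalarTower.algebraMap_apply K K[X] F a]; rfl

theorem bd_poly {v : Place K F} (hv : Fin' v) (p : K[X]) : Bd v (algebraMap K[X] F p) 0 := by
  induction p using Polynomial.induction_on' with
  | add p q hp hq => rw [map_add]; exact hp.add hq
  | monomial n a =>
      rw [← Polynomial.C_mul_X_pow_eq_monomial, map_mul, map_pow, algebraMap_C]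
      simpa using (Bd.of_algebraMap (v := v) a).mul (hv.pow n)

/-- `K[X] → O_v` -/
def toVal (v : Place K F) (hv : Fin' v) : K[X] →+* v.toValuationSubring :=
  (algebraMap K[X] F).codRestrict v.toValuationSubring.toSubring
    fun p => mem_iff_bd.mpr (bd_poly hv p)

theorem bd_of_isIntegral {v : Place K F} (hv : Fin' v) {f : F} (hf : IsIntegral K[X] f) :
    Bd v f 0 := by
  obtain ⟨P, hP, hPf⟩ := hf
  have h : IsIntegral v.toValuationSubring f := by
    refine ⟨P.map (toVal v hv), hP.map _, ?_⟩
    rw [Polynomial.eval₂_map]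
    exact hPf
  obtain ⟨y, hy⟩ := IsIntegrallyClosed.isIntegral_iff.mp h
  rw [← hy]
  exact mem_iff_bd.mp y.2

theorem A_bd {v : Place K F} (hv : Fin' v) (a : A K F) : Bd v (a : F) 0 :=
  bd_of_isIntegral hv a.2

instance [CharZero K] : CharZero (RatFunc K) :=
  charZero_of_injective_algebraMap (algebraMap K (RatFunc K)).injective

variable [Algebra (RatFunc K) F] [IsScalarTower K[X] (RatFunc K) F]
  [FiniteDimensional (RatFunc K) F] [Algebra.IsSeparable (RatFunc K) F]

instance : IsFractionRing (A K F) F :=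
  integralClosure.isFractionRing_of_finite_extension (RatFunc K) F

instance : IsDedekindDomain (A K F) :=
  integralClosure.isDedekindDomain K[X] (RatFunc K) F

instance : Module.Finite K[X] (A K F) :=
  IsIntegralClosure.finite K[X] (RatFunc K) F (A K F)

theorem algebraMap_injective : Function.Injective (algebraMap K[X] F) := by
  rw [IsScalarTower.algebraMap_eq K[X] (RatFunc K) F]
  exact (algebraMap (RatFunc K) F).injective.comp (IsFractionRing.injective K[X] (RatFunc K))

instance : Module.IsTorsionFree K[X] F :=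
  Module.isTorsionFree_iff_algebraMap_injective.mpr algebraMap_injective

instance : Module.Free K[X] (A K F) :=
  IsIntegralClosure.module_free K[X] (RatFunc K) F (A K F)

theorem finrank_A : Module.finrank K[X] (A K F) = Module.finrank (RatFunc K) F :=
  IsIntegralClosure.rank K[X] (RatFunc K) F (A K F)

theorem exists_div (f : F) : ∃ a b : A K F, (b : F) ≠ 0 ∧ f = (a : F) / b := by
  obtain ⟨a, b, hb, h⟩ := IsFractionRing.div_surjective (A K F) f
  refine ⟨a, b, ?_, h.symm⟩
  intro h0
  exact nonZeroDivisors.ne_zero hb (Subtype.ext h0)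

/-- the center of a finite place -/
def center (v : Place K F) (hv : Fin' v) : Ideal (A K F) :=
  (IsLocalRing.maximalIdeal v.toValuationSubring).comap
    ((algebraMap (A K F) F).codRestrict v.toValuationSubring.toSubring
      fun a => mem_iff_bd.mpr (A_bd hv a))

theorem mem_center {v : Place K F} {hv : Fin' v} {a : A K F} :
    a ∈ center v hv ↔ Bd v (a : F) (-1) :=
  Ideal.mem_comap.trans mem_maximalIdeal_iff_bd

theorem ord_eq_zero_of_not_mem_center {v : Place K F} {hv : Fin' v} {a : A K F}
    (ha : a ∉ center v hv) : (a : F) ≠ 0 ∧ v.ord (a : F) = 0 := by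
  rw [mem_center] at ha
  simpa using ord_eq_of_bd (A_bd hv a) (by simpa using ha)

instance center_isPrime (v : Place K F) (hv : Fin' v) : (center v hv).IsPrime :=
  Ideal.IsPrime.comap _

theorem center_ne_bot (v : Place K F) (hv : Fin' v) : center v hv ≠ ⊥ := by
  intro h
  apply v.ne_top'
  refine SetLike.ext fun f => ⟨fun _ => ValuationSubring.mem_top f, fun _ => ?_⟩
  obtain ⟨a, b, hb, rfl⟩ := exists_div (K := K) f
  have hb' : b ∉ center v hv := by
    rw [h]; intro h0; exact hb (by rw [Ideal.mem_bot] at h0; rw [h0]; rfl)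
  obtain ⟨-, hb0⟩ := ord_eq_zero_of_not_mem_center hb'
  rw [mem_iff_bd, bd_div_iff hb, hb0]
  simpa using A_bd hv a

/-- the height one prime of a finite place -/
def toHeightOne (v : Place K F) (hv : Fin' v) : HeightOneSpectrum (A K F) :=
  ⟨center v hv, inferInstance, center_ne_bot v hv⟩

instance : IsScalarTower K (A K F) F := IsScalarTower.of_algebraMap_eq fun a => by
  show algebraMap K F a = algebraMap (A K F) F (algebraMap K (A K F) a)
  simp [Algebra.algebraMap_eq_smul_one]

/-- the place of a height one prime -/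
def ofPrime (P : HeightOneSpectrum (A K F)) : Place K F :=
  Place.ofHeightOneSpectrum (K := K) (F := F) P

theorem fin_ofPrime (P : HeightOneSpectrum (A K F)) : Fin' (ofPrime P) :=
  mem_iff_bd.mp (show xv K F ∈ (P.valuation F).valuationSubring from
    P.valuation_le_one (algebraMap K[X] (A K F) Polynomial.X))

theorem exists_frac_of_bd {v : Place K F} (hv : Fin' v) {f : F} (hf : Bd v f 0) :
    ∃ a s : A K F, s ∉ center v hv ∧ f * (s : F) = (a : F) := by
  have key : ∀ g : F, g ∈ (ofPrime (toHeightOne v hv)).toValuationSubring →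
      ∃ a s : A K F, s ∉ center v hv ∧ g * (s : F) = (a : F) := by
    intro g hg
    obtain ⟨a, s, h⟩ := (toHeightOne v hv).exists_primeCompl_mul_eq_of_integer g hg
    exact ⟨a, s, s.2, h⟩
  have h := place_eq_of_le (w := ofPrime (toHeightOne v hv)) (v := v) (fun g hg => by
    obtain ⟨a, s, hs, h⟩ := key g hg
    obtain ⟨hs0, hs1⟩ := ord_eq_zero_of_not_mem_center hs
    rw [mem_iff_bd]
    have := A_bd hv a
    rw [← h, bd_mul_iff hs0, hs1] at this
    simpa using this)
  exact key f (by rw [h]; exact mem_iff_bd.mpr hf)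

theorem eq_of_center_le {v w : Place K F} {hv : Fin' v} {hw : Fin' w}
    (h : center v hv ≤ center w hw) : v = w := by
  have he : center v hv = center w hw :=
    ((center_isPrime v hv).isMaximal (center_ne_bot v hv)).eq_of_le
      (center_isPrime w hw).ne_top h
  refine place_eq_of_le fun f hf => ?_
  obtain ⟨a, s, hs, hfs⟩ := exists_frac_of_bd hv (mem_iff_bd.mp hf)
  rw [he] at hs
  obtain ⟨hs0, hs1⟩ := ord_eq_zero_of_not_mem_center hs
  have := A_bd hw a
  rw [← hfs, bd_mul_iff hs0, hs1] at this
  exact mem_iff_bd.mpr (by simpa using this)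

theorem mem_A_of_bd {f : F} (h : ∀ v : Place K F, Fin' v → Bd v f 0) : IsIntegral K[X] f := by
  obtain ⟨a, ha⟩ := HeightOneSpectrum.mem_integers_of_valuation_le_one (R := A K F) F f
    (fun P => mem_iff_bd.mpr (h (ofPrime P) (fin_ofPrime P)))
  rw [← ha]
  exact a.2

theorem finite_zeros {a : A K F} (ha : (a : F) ≠ 0) :
    {v : Place K F | Fin' v ∧ Bd v (a : F) (-1)}.Finite := by
  classical
  have hI : Ideal.span {a} ≠ (0 : Ideal (A K F)) := by
    rw [Ne, Ideal.zero_eq_bot, Ideal.span_singleton_eq_bot]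
    rintro rfl; exact ha rfl
  have hfin := Ideal.finite_factors hI
  refine Set.Finite.of_finite_image (f := fun v => if h : Fin' v then center v h else ⊥) ?_ ?_
  · refine (hfin.image (fun P : HeightOneSpectrum (A K F) => P.asIdeal)).subset ?_
    rintro I ⟨v, ⟨hv, hb⟩, rfl⟩
    simp only [dif_pos hv]
    refine ⟨toHeightOne v hv, ?_, rfl⟩
    show center v hv ∣ Ideal.span {a}
    rw [Ideal.dvd_span_singleton]
    exact mem_center.mpr hb
  · rintro v ⟨hv, -⟩ w ⟨hw, -⟩ h
    simp only [dif_pos hv, dif_pos hw] at h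
    exact eq_of_center_le h.le

theorem finite_ord {f : F} (hf : f ≠ 0) :
    {v : Place K F | Fin' v ∧ v.ord f ≠ 0}.Finite := by
  obtain ⟨a, b, hb, rfl⟩ := exists_div (K := K) f
  have ha : (a : F) ≠ 0 := fun h => hf (by simp [h])
  refine ((finite_zeros ha).union (finite_zeros hb)).subset fun v hv => ?_
  obtain ⟨hv, hne⟩ := hv
  rw [div_eq_mul_inv, v.ord_mul ha (inv_ne_zero hb), v.ord_inv] at hne
  have h1 := (bd_iff_ord ha).mp (A_bd hv a)
  have h2 := (bd_iff_ord hb).mp (A_bd hv b)
  by_cases h : 1 ≤ v.ord (a : F)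
  · exact Or.inl ⟨hv, (bd_iff_ord ha).mpr (by omega)⟩
  · exact Or.inr ⟨hv, (bd_iff_ord hb).mpr (by omega)⟩

variable [IsAlgClosed K]

theorem prime_mem_linear {Q : Ideal K[X]} [hQ : Q.IsPrime] {q : K[X]} (hq0 : q ≠ 0)
    (hq : q ∈ Q) : ∃ c : K, Polynomial.X - Polynomial.C c ∈ Q := by
  have hs := (IsAlgClosed.splits q).eq_prod_roots
  rw [hs] at hq
  rcases hQ.mem_or_mem hq with h | h
  · exact absurd (Ideal.eq_top_of_isUnit_mem _ h
      (Polynomial.isUnit_C.mpr (Ne.isUnit (Polynomial.leadingCoeff_ne_zero.mpr hq0)))) hQ.ne_top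
  · obtain ⟨y, hy, hr⟩ := (hQ.multiset_prod_mem_iff_exists_mem _).mp h
    obtain ⟨r, -, rfl⟩ := Multiset.mem_map.mp hy
    exact ⟨r, hr⟩

theorem exists_xv_sub {v : Place K F} (hv : Fin' v) :
    ∃ c : K, Bd v (xv K F - algebraMap K F c) (-1) := by
  obtain ⟨a, ha, ha0⟩ := Submodule.exists_mem_ne_zero_of_ne_bot (center_ne_bot v hv)
  have hne := Ideal.comap_ne_bot_of_integral_mem ha0 ha
    (Algebra.IsIntegral.isIntegral (R := K[X]) a)
  obtain ⟨q, hq, hq0⟩ := Submodule.exists_mem_ne_zero_of_ne_bot hne
  obtain ⟨c, hc⟩ := prime_mem_linear hq0 hq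
  refine ⟨c, ?_⟩
  have h := mem_center.mp (Ideal.mem_comap.mp hc)
  have e : ((algebraMap K[X] (A K F) (Polynomial.X - Polynomial.C c) : A K F) : F)
      = xv K F - algebraMap K F c := by
    rw [← algebraMap_C (F := F) c, ← map_sub]; rfl
  rwa [e] at h

theorem hasRes_of_fin {v : Place K F} (hv : Fin' v) : HasRes v := by
  obtain ⟨c, hc⟩ := exists_xv_sub hv
  -- a polynomial in the coordinate is congruent to its value at `c`
  have hpol : ∀ p : K[X], Bd v (algebraMap K[X] F p - algebraMap K F (p.eval c)) (-1) := by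
    intro p
    obtain ⟨r, hr⟩ := Polynomial.X_sub_C_dvd_sub_C_eval (a := c) (p := p)
    have e : algebraMap K[X] F p - algebraMap K F (p.eval c)
        = (xv K F - algebraMap K F c) * algebraMap K[X] F r := by
      rw [← algebraMap_C (F := F), ← map_sub, hr, map_mul, map_sub, algebraMap_C]
    rw [e]
    simpa using hc.mul (bd_poly hv r)
  have hA : ∀ a : A K F, ∃ r : K, Bd v ((a : F) - algebraMap K F r) (-1) := by
    intro a
    obtain ⟨P, hP, hPa⟩ := Algebra.IsIntegral.isIntegral (R := K[X]) a
    let φ : K →+* A K F := algebraMap K (A K F)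
    let P0 : K[X] := P.map (Polynomial.evalRingHom c)
    have h0 : P0.eval₂ φ a ∈ center v hv := by
      have : P0.eval₂ φ a - P.eval₂ (algebraMap K[X] (A K F)) a ∈ center v hv := by
        rw [Polynomial.eval₂_map, Polynomial.eval₂_eq_sum_range, Polynomial.eval₂_eq_sum_range,
          ← Finset.sum_sub_distrib]
        refine Ideal.sum_mem _ fun i _ => ?_
        rw [← sub_mul]
        refine Ideal.mul_mem_right _ _ ?_
        rw [mem_center]
        have := (hpol (P.coeff i)).neg
        rw [neg_sub] at this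
        convert this using 1
        show ((algebraMap K (A K F) ((P.coeff i).eval c) : A K F) : F)
          - ((algebraMap K[X] (A K F) (P.coeff i) : A K F) : F) = _
        congr 1
      rwa [hPa, sub_zero] at this
    have hs := (IsAlgClosed.splits P0).eq_prod_roots_of_monic (hP.map _)
    rw [hs, ← Polynomial.coe_eval₂RingHom, map_multiset_prod, Multiset.map_map] at h0
    obtain ⟨y, hy, hr⟩ := ((center_isPrime v hv).multiset_prod_mem_iff_exists_mem _).mp h0
    obtain ⟨r, -, rfl⟩ := Multiset.mem_map.mp hy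
    refine ⟨r, ?_⟩
    rw [mem_center] at hr
    convert hr using 1
    simp only [Function.comp_apply, Polynomial.coe_eval₂RingHom, Polynomial.eval₂_sub,
      Polynomial.eval₂_X, Polynomial.eval₂_C]
    show _ = (a : F) - ((φ r : A K F) : F)
    congr 1
  intro f hf
  obtain ⟨a, s, hs, hfs⟩ := exists_frac_of_bd hv hf
  obtain ⟨ra, hra⟩ := hA a
  obtain ⟨rs, hrs⟩ := hA s
  have hrs0 : rs ≠ 0 := by
    rintro rfl
    exact hs (mem_center.mpr (by simpa using hrs))
  refine ⟨ra / rs, ?_⟩
  obtain ⟨hs0, hs1⟩ := ord_eq_zero_of_not_mem_center hs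
  have : Bd v ((f - algebraMap K F (ra / rs)) * (s : F)) (-1) := by
    have e : (f - algebraMap K F (ra / rs)) * (s : F) =
        ((a : F) - algebraMap K F ra) - algebraMap K F (ra / rs) * ((s : F) - algebraMap K F rs) := by
      have h1 : algebraMap K F (ra / rs) * algebraMap K F rs = algebraMap K F ra := by
        rw [← map_mul, div_mul_cancel₀ _ hrs0]
      rw [← hfs, mul_sub, h1]; ring
    rw [e]
    refine hra.sub ?_
    simpa using (Bd.of_algebraMap (v := v) (ra / rs)).mul hrs
  rwa [bd_mul_iff hs0, hs1, add_zero] at this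

end FLTAgent.RR.Chart
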