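import Fermat.Agent.RR.Chart

/-! The fibre over `x = 0` in a chart: approximation, fundamental identity, trace. -/

set_option autoImplicit false
set_option linter.unusedSectionVars false

noncomputable section

open AlgebraicCurve IsDedekindDomain Polynomial
open scoped nonZeroDivisors

namespace FLTAgent.RR.Chart

variable {K F : Type*} [Field K] [Field F] [Algebra K F] [Algebra K[X] F]
  [IsScalarTower K K[X] F] [IsAlgClosed K] [Algebra (RatFunc K) F]
  [IsScalarTower K[X] (RatFunc K) F] [FiniteDimensional (RatFunc K) F]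
  [Algebra.IsSeparable (RatFunc K) F]

theorem exists_unif {v : Place K F} (hv : Fin' v) :
    ∃ π : A K F, (π : F) ≠ 0 ∧ v.ord (π : F) = 1 := by
  obtain ⟨ϖ, hϖ⟩ := IsDiscreteValuationRing.exists_irreducible v.toValuationSubring
  obtain ⟨a, s, hs, h⟩ := exists_frac_of_bd hv (mem_iff_bd.mp ϖ.2)
  obtain ⟨hs0, hs1⟩ := ord_eq_zero_of_not_mem_center hs
  have hϖ0 : (ϖ : F) ≠ 0 := by simpa [ZeroMemClass.coe_eq_zero] using hϖ.ne_zero
  refine ⟨a, by rw [← h]; exact mul_ne_zero hϖ0 hs0, ?_⟩
  rw [← h, v.ord_mul hϖ0 hs0, hs1, v.ord_coe_irreducible hϖ, add_zero]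

theorem exists_sep {v : Place K F} (hv : Fin' v) (W : Finset (Place K F))
    (hW : ∀ w ∈ W, Fin' w) (N : ℕ) :
    ∃ g : A K F, (g : F) ≠ 0 ∧ v.ord (g : F) = 0 ∧
      ∀ w ∈ W, w ≠ v → Bd w (g : F) (-(N : ℤ)) := by
  classical
  have hp : ∀ w : Place K F, ∃ p : A K F, (p : F) ≠ 0 ∧ v.ord (p : F) = 0 ∧
      (Fin' w → w ≠ v → Bd w (p : F) (-1)) := by
    intro w
    by_cases h : Fin' w ∧ w ≠ v
    · obtain ⟨hw, hne⟩ := h
      obtain ⟨p, hpw, hpv⟩ : ∃ p, p ∈ center w hw ∧ p ∉ center v hv := by
        by_contra hc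
        push Not at hc
        exact hne (eq_of_center_le (hv := hw) (hw := hv) fun p hp => hc p hp)
      obtain ⟨h0, h1⟩ := ord_eq_zero_of_not_mem_center hpv
      exact ⟨p, h0, h1, fun _ _ => mem_center.mp hpw⟩
    · exact ⟨1, one_ne_zero, v.ord_one, fun h1 h2 => absurd ⟨h1, h2⟩ h⟩
  choose p hp0 hp1 hp2 using hp
  refine ⟨∏ w ∈ W, p w ^ N, ?_, ?_, ?_⟩
  · push_cast
    exact Finset.prod_ne_zero_iff.mpr fun w _ => pow_ne_zero _ (hp0 w)
  · push_cast
    rw [ord_prod v _ _ fun w _ => pow_ne_zero _ (hp0 w)]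
    exact Finset.sum_eq_zero fun w _ => by rw [ord_pow, hp1]; simp
  · intro w hw hne
    rw [← Finset.mul_prod_erase _ _ hw]
    push_cast
    have h := ((hp2 w (hW w hw) hne).pow N).mul
      (A_bd (hW w hw) (∏ i ∈ W.erase w, p i ^ N))
    push_cast at h
    exact h.mono (by omega)

/-- prescribed order at one finite place, bounds at all other finite places -/
theorem exists_ord_eq {v : Place K F} (hv : Fin' v) (D : Place K F → ℤ)
    (hD : {w : Place K F | Fin' w ∧ D w ≠ 0}.Finite) (m : ℤ) :
    ∃ f : F, f ≠ 0 ∧ v.ord f = m ∧ ∀ w, Fin' w → w ≠ v → Bd w f (D w) := by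
  classical
  obtain ⟨π, hπ0, hπ1⟩ := exists_unif hv
  have hWfin := (finite_ord (K := K) hπ0).union hD
  set W := hWfin.toFinset with hWdef
  set N := ∑ w ∈ W, (|m * w.ord (π : F)| + |D w|).toNat with hN
  obtain ⟨g, hg0, hg1, hg2⟩ := exists_sep hv W
    (fun w hw => by
      rw [hWdef, Set.Finite.mem_toFinset] at hw
      rcases hw with h | h <;> exact h.1) N
  refine ⟨(π : F) ^ m * g, mul_ne_zero (zpow_ne_zero _ hπ0) hg0, ?_, ?_⟩
  · rw [v.ord_mul (zpow_ne_zero _ hπ0) hg0, v.ord_zpow, hπ1, hg1]; ring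
  · intro w hw hne
    rw [bd_iff_ord (mul_ne_zero (zpow_ne_zero _ hπ0) hg0),
      w.ord_mul (zpow_ne_zero _ hπ0) hg0, w.ord_zpow]
    by_cases hwW : w ∈ W
    · have h1 := (bd_iff_ord hg0).mp (hg2 w hwW hne)
      have h2 : (|m * w.ord (π : F)| + |D w|).toNat ≤ N :=
        Finset.single_le_sum (f := fun w => (|m * w.ord (π : F)| + |D w|).toNat)
          (fun i _ => Nat.zero_le _) hwW
      have h3 := Int.self_le_toNat (|m * w.ord (π : F)| + |D w|)
      have h4 := neg_abs_le (m * w.ord (π : F))
      have h5 := neg_abs_le (D w)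
      omega
    · rw [hWdef, Set.Finite.mem_toFinset] at hwW
      simp only [Set.mem_union, Set.mem_setOf_eq, not_or, not_and, not_not] at hwW
      rw [hwW.1 hw, hwW.2 hw]
      have h1 := (bd_iff_ord hg0).mp (A_bd hw g)
      simpa using h1

/-- an approximate idempotent -/
theorem exists_idem {v : Place K F} (hv : Fin' v) (W : Finset (Place K F))
    (hW : ∀ w ∈ W, Fin' w) (N : ℕ) (hN : 1 ≤ N) :
    ∃ ε : A K F, Bd v ((ε : F) - 1) (-(N : ℤ)) ∧
      ∀ w ∈ W, w ≠ v → Bd w (ε : F) (-(N : ℤ)) := by
  obtain ⟨g, hg0, hg1, hg2⟩ := exists_sep hv W hW N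
  obtain ⟨c, hc⟩ := hasRes_of_fin hv (g : F) (A_bd hv g)
  have hc0 : c ≠ 0 := by
    rintro rfl
    rw [map_zero, sub_zero, bd_iff_ord hg0, hg1] at hc
    omega
  set g' : A K F := algebraMap K (A K F) c⁻¹ * g with hg'
  have hg'F : (g' : F) = algebraMap K F c⁻¹ * (g : F) := by
    rw [hg', MulMemClass.coe_mul]
    congr 1
  refine ⟨g' * ∑ i ∈ Finset.range N, (1 - g') ^ i, ?_, ?_⟩
  · have e : (g' * ∑ i ∈ Finset.range N, (1 - g') ^ i : A K F) = 1 - (1 - g') ^ N := by
      have := mul_geom_sum (1 - g') N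
      linear_combination -this
    rw [e]
    push_cast
    have h1 : Bd v (1 - (g' : F)) (-1) := by
      have := ((Bd.of_algebraMap (v := v) c⁻¹).mul hc).neg
      rw [mul_sub, ← map_mul, inv_mul_cancel₀ hc0, map_one, neg_sub, ← hg'F] at this
      simpa using this
    have := (h1.pow N).neg
    simpa using this
  · intro w hw hne
    rw [MulMemClass.coe_mul, hg'F]
    simpa using ((Bd.of_algebraMap (v := w) c⁻¹).mul (hg2 w hw hne)).mul
      (A_bd (hW w hw) (∑ i ∈ Finset.range N, (1 - g') ^ i))

variable (K F) in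
theorem xv_ne_zero : xv K F ≠ 0 := fun h =>
  Polynomial.X_ne_zero (algebraMap_injective (F := F) (h.trans (map_zero _).symm))

variable (K F) in
/-- places over `x = 0` -/
def zset : Finset (Place K F) :=
  (finite_zeros (K := K) (F := F) (a := algebraMap K[X] (A K F) Polynomial.X)
    (xv_ne_zero K F)).toFinset

theorem mem_zset {v : Place K F} : v ∈ zset K F ↔ Fin' v ∧ Bd v (xv K F) (-1) := by
  rw [zset, Set.Finite.mem_toFinset]; rfl

theorem mem_zset_iff_ord {v : Place K F} : v ∈ zset K F ↔ 0 < v.ord (xv K F) := by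
  rw [mem_zset, Fin', bd_iff_ord (xv_ne_zero K F), bd_iff_ord (xv_ne_zero K F)]
  omega

theorem ord_xv_pos {v : Place K F} (hv : v ∈ zset K F) : 1 ≤ v.ord (xv K F) :=
  mem_zset_iff_ord.mp hv

theorem fin_of_mem {v : Place K F} (hv : v ∈ zset K F) : Fin' v := (mem_zset.mp hv).1

theorem ord_xv_eq_zero {v : Place K F} (hv : Fin' v) (hz : v ∉ zset K F) :
    v.ord (xv K F) = 0 := by
  rw [mem_zset_iff_ord] at hz
  have := (bd_iff_ord (xv_ne_zero K F)).mp hv
  omega

theorem exists_eq_X_mul {a : A K F}
    (h : ∀ v ∈ zset K F, Bd v (a : F) (-v.ord (xv K F))) :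
    ∃ b : A K F, a = algebraMap K[X] (A K F) Polynomial.X * b := by
  have hb : IsIntegral K[X] ((a : F) / xv K F) := mem_A_of_bd fun v hv => by
    rw [bd_div_iff (xv_ne_zero K F)]
    by_cases hz : v ∈ zset K F
    · simpa using h v hz
    · rw [ord_xv_eq_zero hv hz]; simpa using A_bd hv a
  refine ⟨⟨_, hb⟩, Subtype.ext ?_⟩
  show (a : F) = xv K F * ((a : F) / xv K F)
  rw [mul_div_cancel₀ _ (xv_ne_zero K F)]

variable (K F) in
abbrev Idx : Type _ := Module.Free.ChooseBasisIndex K[X] (A K F)

variable (K F) in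
abbrev bA : Module.Basis (Idx K F) K[X] (A K F) := Module.Free.chooseBasis K[X] (A K F)

/-- coordinates mod `x` -/
def red : A K F →ₗ[K] (Idx K F → K) where
  toFun a i := ((bA K F).repr a i).eval 0
  map_add' a b := by funext i; simp
  map_smul' c a := by
    funext i
    have : c • a = (Polynomial.C c) • a := by
      rw [← IsScalarTower.algebraMap_smul K[X] c a]; rfl
    simp [this]

theorem red_surjective : Function.Surjective (red (K := K) (F := F)) := fun f =>
  ⟨∑ i, Polynomial.C (f i) • bA K F i, funext fun i => by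
    classical
    simp [red, Module.Basis.repr_self, Finsupp.single_apply, apply_ite (Polynomial.eval (0 : K))]⟩

theorem red_X_mul (b : A K F) : red (algebraMap K[X] (A K F) Polynomial.X * b) = 0 := by
  funext i
  simp [red, ← Algebra.smul_def]

theorem exists_eq_X_mul_of_red_eq_zero {a : A K F} (h : red a = 0) :
    ∃ b : A K F, a = algebraMap K[X] (A K F) Polynomial.X * b := by
  have hd : ∀ i, ∃ q, (bA K F).repr a i = Polynomial.X * q := fun i => by
    rw [← dvd_def, Polynomial.X_dvd_iff, Polynomial.coeff_zero_eq_eval_zero]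
    exact congrFun h i
  choose q hq using hd
  refine ⟨∑ i, q i • bA K F i, ?_⟩
  rw [← Algebra.smul_def, Finset.smul_sum]
  conv_lhs => rw [← (bA K F).sum_repr a]
  exact Finset.sum_congr rfl fun i _ => by rw [hq, mul_smul]

/-- `{a ∈ A | Bd v a (-e v) on the zero set}` -/
def sub0 (e : Place K F → ℤ) : Submodule K (A K F) :=
  (boundedOn (fun v => v ∈ zset K F) (fun v => -e v)).comap
    ((integralClosure K[X] F).restrictScalars K).toSubmodule.subtype

theorem mem_sub0 {e : Place K F → ℤ} {a : A K F} :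
    a ∈ sub0 e ↔ ∀ v ∈ zset K F, Bd v (a : F) (-e v) := Iff.rfl

theorem finrank_image (n : ℕ) : ∀ e : Place K F → ℤ, (∀ v, 0 ≤ e v) →
    (∀ v, v ∉ zset K F → e v = 0) → (∀ v ∈ zset K F, e v ≤ v.ord (xv K F)) →
    ∑ v ∈ zset K F, e v = n →
    (Module.finrank K (Submodule.map red (sub0 e)) : ℤ) + n = Fintype.card (Idx K F) := by
  classical
  induction n with
  | zero =>
      intro e he _ _ hs
      have h0 : ∀ v ∈ zset K F, e v = 0 :=
        (Finset.sum_eq_zero_iff_of_nonneg fun v _ => he v).mp (by simpa using hs)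
      have : Submodule.map red (sub0 e) = (⊤ : Submodule K (Idx K F → K)) := by
        rw [eq_top_iff]
        intro f _
        obtain ⟨a, rfl⟩ := red_surjective f
        exact ⟨a, fun v hv => by
          show Bd v (a : F) (-e v)
          rw [h0 v hv]; simpa using A_bd (fin_of_mem hv) a, rfl⟩
      rw [this, finrank_top, Module.finrank_fintype_fun_eq_card]; simp
  | succ n ih =>
      intro e he hoff hle hs
      obtain ⟨v, hv, hev⟩ : ∃ v ∈ zset K F, 1 ≤ e v := by
        by_contra hc
        push Not at hc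
        have : ∑ v ∈ zset K F, e v ≤ 0 := Finset.sum_nonpos fun v hv => by
          have := hc v hv; omega
        omega
      set e' := Function.update e v (e v - 1) with he'
      have hne : ∀ w, w ≠ v → e' w = e w := fun w hw => Function.update_of_ne hw _ _
      have hev' : e' v = e v - 1 := Function.update_self ..
      have ihe := ih e'
        (fun w => by
          rcases eq_or_ne w v with rfl | h
          · omega
          · rw [hne w h]; exact he w)
        (fun w hw => by rw [hne w (fun h => hw (h ▸ hv))]; exact hoff w hw)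
        (fun w hw => by
          rcases eq_or_ne w v with rfl | h
          · have := hle w hw; omega
          · rw [hne w h]; exact hle w hw)
        (by
          rw [← Finset.add_sum_erase _ _ hv, hev', Finset.sum_congr rfl
            (fun w hw => hne w (Finset.ne_of_mem_erase hw))]
          rw [← Finset.add_sum_erase _ _ hv] at hs
          push_cast at hs
          linarith)
      obtain ⟨u, hu0, hu1, hu2⟩ := exists_ord_eq (fin_of_mem hv) (fun w => -e w)
        ((zset K F).finite_toSet.subset fun w hw => by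
          by_contra hz
          have hz' : e w ≠ 0 := by simpa using hw.2
          exact hz' (hoff w hz)) (e v - 1)
      have huA : IsIntegral K[X] u := mem_A_of_bd fun w hw => by
        rcases eq_or_ne w v with rfl | h
        · rw [bd_iff_ord hu0, hu1]; omega
        · exact (hu2 w hw h).mono (by have := he w; omega)
      set uA : A K F := ⟨u, huA⟩
      have huE : uA ∈ sub0 e' := fun w hw => by
        rcases eq_or_ne w v with rfl | h
        · show Bd w u (-e' w); rw [bd_iff_ord hu0, hu1, hev']; omega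
        · show Bd w u (-e' w); rw [hne w h]; exact hu2 w (fin_of_mem hw) h
      have hmono : sub0 e ≤ sub0 e' := fun a ha w hw => (ha w hw).mono (by
        rcases eq_or_ne w v with rfl | h
        · show -e w ≤ -e' w; omega
        · show -e w ≤ -e' w; rw [hne w h])
      have hstep : sub0 e' ≤ sub0 e ⊔ K ∙ uA := by
        intro a ha
        obtain ⟨c, hc⟩ := (hasRes_of_fin (fin_of_mem hv)).exists_sub_smul (f := (a : F))
          (n := -e' v) (ha v hv) hu0 (by rw [hu1, hev']; ring)
        rw [← sub_add_cancel a (c • uA)]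
        refine Submodule.add_mem_sup (fun w hw => ?_)
          (Submodule.smul_mem _ c (Submodule.mem_span_singleton_self uA))
        show Bd w ((a : F) - c • u) (-e w)
        rcases eq_or_ne w v with rfl | h
        · exact hc.mono (by omega)
        · rw [← hne w h]; exact (ha w hw).sub ((huE w hw).smul c)
      have hnot : red uA ∉ Submodule.map red (sub0 e) := by
        rintro ⟨a, ha, hau⟩
        obtain ⟨b, hb⟩ := exists_eq_X_mul_of_red_eq_zero (a := uA - a)
          (by rw [map_sub, hau, sub_self])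
        have h1 : Bd v ((uA : F) - (a : F)) (-e v) := by
          have := congrArg Subtype.val hb
          push_cast at this
          rw [this]
          exact ((bd_self (v := v) (f := xv K F)).mul (A_bd (fin_of_mem hv) b)).mono
            (by have := hle v hv; omega)
        have h2 := h1.add (show Bd v (a : F) (-e v) from ha v hv)
        rw [sub_add_cancel] at h2
        rw [bd_iff_ord hu0, hu1] at h2
        omega
      have heq : Submodule.map red (sub0 e') = Submodule.map red (sub0 e) ⊔ K ∙ red uA := by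
        rw [le_antisymm hstep (sup_le hmono ((Submodule.span_singleton_le_iff_mem _ _).mpr huE)),
          Submodule.map_sup, Submodule.map_span, Set.image_singleton]
      have hr0 : red uA ≠ 0 := fun h => hnot (h ▸ zero_mem _)
      have hfr := Submodule.finrank_sup_add_finrank_inf_eq (Submodule.map red (sub0 e))
        (K ∙ red uA)
      have hinf : Submodule.map red (sub0 e) ⊓ (K ∙ red uA) = ⊥ :=
        (Submodule.disjoint_span_singleton' hr0).mpr hnot |>.eq_bot
      rw [← heq, hinf, finrank_bot, finrank_span_singleton hr0] at hfr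
      push_cast
      omega

/-- the fundamental identity -/
theorem sum_ord_zset : ∑ v ∈ zset K F, v.ord (xv K F) = Module.finrank (RatFunc K) F := by
  classical
  let e : Place K F → ℤ := fun v => if v ∈ zset K F then v.ord (xv K F) else 0
  have hnn : 0 ≤ ∑ v ∈ zset K F, v.ord (xv K F) :=
    Finset.sum_nonneg fun v hv => by have := ord_xv_pos hv; omega
  obtain ⟨n, hn⟩ := Int.eq_ofNat_of_zero_le hnn
  have h := finrank_image n e
    (fun v => by
      by_cases hv : v ∈ zset K F
      · have := ord_xv_pos hv; simp [e, hv]; omega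
      · simp [e, hv])
    (fun v hv => by simp [e, hv]) (fun v hv => by simp [e, hv])
    (by rw [← hn]; exact Finset.sum_congr rfl fun v hv => by simp [e, hv])
  have hbot : Submodule.map red (sub0 e) = ⊥ := by
    rw [eq_bot_iff]
    rintro _ ⟨a, ha, rfl⟩
    obtain ⟨b, rfl⟩ := exists_eq_X_mul (a := a) fun v hv => by
      have h' : Bd v (a : F) (-e v) := ha v hv
      simpa [e, hv] using h'
    simp [red_X_mul]
  rw [hbot, finrank_bot, ← Module.finrank_eq_card_chooseBasisIndex, finrank_A] at h
  simpa [hn] using h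

/-! ### trace -/

variable [CharZero K]

open scoped Classical in
/-- multiplication matrix mod `x` -/
def psi : A K F →+* Matrix (Idx K F) (Idx K F) K :=
  (Polynomial.evalRingHom (0 : K)).mapMatrix.comp (Algebra.leftMulMatrix (bA K F)).toRingHom

open scoped Classical in
theorem psi_X_mul (b : A K F) : psi (algebraMap K[X] (A K F) Polynomial.X * b) = 0 := by
  have : psi (algebraMap K[X] (A K F) Polynomial.X) = 0 := by
    simp [psi, Matrix.algebraMap_eq_diagonal]
  rw [map_mul, this, zero_mul]

open scoped Classical in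
theorem psi_mulVec (a b : A K F) : Matrix.mulVec (psi a) (red b) = red (a * b) := by
  funext i
  have := congrArg (Polynomial.evalRingHom (0 : K))
    (congrFun (Algebra.leftMulMatrix_mulVec_repr (bA K F) a b) i)
  rw [Matrix.mulVec, dotProduct, map_sum] at this
  simpa [psi, red, Matrix.mulVec, dotProduct] using this

open scoped Classical in
theorem eval_trace (a : A K F) :
    (Algebra.trace K[X] (A K F) a).eval 0 = (psi a).trace := by
  rw [Algebra.trace_eq_matrix_trace (bA K F)]
  simp [psi, Matrix.trace, Polynomial.eval_finset_sum]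

theorem eval_trace_eq_zero {a : A K F} (h : ∀ v ∈ zset K F, Bd v (a : F) (-1)) :
    (Algebra.trace K[X] (A K F) a).eval 0 = 0 := by
  classical
  set N := ∑ v ∈ zset K F, (v.ord (xv K F)).toNat
  obtain ⟨b, hb⟩ := exists_eq_X_mul (a := a ^ N) fun v hv => by
    push_cast
    refine ((h v hv).pow N).mono ?_
    have h2 : (v.ord (xv K F)).toNat ≤ N :=
      Finset.single_le_sum (f := fun v => (v.ord (xv K F)).toNat)
        (fun i _ => Nat.zero_le _) hv
    have := Int.self_le_toNat (v.ord (xv K F))
    omega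
  rw [eval_trace]
  exact (Matrix.isNilpotent_trace_of_isNilpotent
    ⟨N, by rw [← map_pow, hb, psi_X_mul]⟩).eq_zero

theorem exists_idem_trace {v : Place K F} (hv : v ∈ zset K F) (N : ℕ) :
    ∃ ε : A K F, (ε : F) ≠ 0 ∧ v.ord (ε : F) = 0 ∧
      (∀ w ∈ zset K F, w ≠ v → Bd w (ε : F) (-(N : ℤ))) ∧
      (Algebra.trace K[X] (A K F) ε).eval 0 ≠ 0 := by
  classical
  set M := N + 1 + ∑ w ∈ zset K F, (w.ord (xv K F)).toNat
  obtain ⟨ε, h1, h2⟩ := exists_idem (fin_of_mem hv) (zset K F) (fun w hw => fin_of_mem hw) M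
    (by omega)
  have h0 : ¬ Bd v (ε : F) (-1) := by
    intro h
    have h' := h.sub (h1.mono (show -(M : ℤ) ≤ -1 by omega))
    rw [sub_sub_cancel, bd_iff_ord one_ne_zero, v.ord_one] at h'
    omega
  obtain ⟨hne, hord⟩ := ord_eq_of_bd (A_bd (fin_of_mem hv) ε) (by simpa using h0)
  have hM : ∀ w ∈ zset K F, w.ord (xv K F) ≤ M := fun w hw => by
    have h2 : (w.ord (xv K F)).toNat ≤ ∑ w ∈ zset K F, (w.ord (xv K F)).toNat :=
      Finset.single_le_sum (f := fun v => (v.ord (xv K F)).toNat)
        (fun i _ => Nat.zero_le _) hw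
    have := Int.self_le_toNat (w.ord (xv K F))
    omega
  refine ⟨ε, hne, by simpa using hord,
    fun w hw hwv => (h2 w hw hwv).mono (by omega), ?_⟩
  obtain ⟨b, hb⟩ := exists_eq_X_mul (a := ε * ε - ε) fun w hw => by
    push_cast
    have e : (ε : F) * ε - ε = (ε : F) * ((ε : F) - 1) := by ring
    rw [e]
    rcases eq_or_ne w v with rfl | hwv
    · exact ((A_bd (fin_of_mem hw) ε).mul h1).mono (by have := hM w hw; omega)
    · have hB : Bd w ((ε : F) - 1) 0 :=
        (A_bd (fin_of_mem hw) ε).sub (by simpa using Bd.of_algebraMap (v := w) (1 : K))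
      exact ((h2 w hw hwv).mul hB).mono (by have := hM w hw; omega)
  have hidem : IsIdempotentElem (psi ε) := by
    show psi ε * psi ε = psi ε
    rw [← map_mul, ← sub_eq_zero, ← map_sub, hb, psi_X_mul]
  have hred : red ε ≠ 0 := by
    intro h
    obtain ⟨b', hb'⟩ := exists_eq_X_mul_of_red_eq_zero h
    refine h0 ?_
    rw [hb', MulMemClass.coe_mul]
    exact ((bd_self (v := v) (f := xv K F)).mul (A_bd (fin_of_mem hv) b')).mono
      (by have := ord_xv_pos hv; omega)
  rw [eval_trace, ← Matrix.trace_toLin'_eq]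
  have hid : IsIdempotentElem (Matrix.toLin' (psi ε)) := by
    show Matrix.toLin' (psi ε) * Matrix.toLin' (psi ε) = _
    rw [Module.End.mul_eq_comp, ← Matrix.toLin'_mul, hidem.eq]
  rw [(LinearMap.IsIdempotentElem.isProj_range _ hid).trace, Nat.cast_ne_zero]
  intro h
  rw [Submodule.finrank_eq_zero, LinearMap.range_eq_bot] at h
  refine hred ?_
  have := psi_mulVec ε 1
  rw [mul_one, ← Matrix.toLin'_apply, h] at this
  simpa using this.symm

/-- trace, with values in `F` -/
def trR (f : F) : F := algebraMap (RatFunc K) F (Algebra.trace (RatFunc K) F f)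

theorem trR_coe (a : A K F) :
    trR (K := K) (a : F) = algebraMap K[X] F (Algebra.trace K[X] (A K F) a) := by
  have : IsLocalization (Algebra.algebraMapSubmonoid (A K F) (K[X]⁰)) F :=
    IsIntegralClosure.isLocalization K[X] (RatFunc K) F (A K F)
  rw [trR, show (a : F) = algebraMap (A K F) F a from rfl,
    Algebra.trace_localization K[X] K[X]⁰ a, ← IsScalarTower.algebraMap_apply]

theorem trR_algebraMap_mul (p : K[X]) (f : F) :
    trR (K := K) (algebraMap K[X] F p * f) = algebraMap K[X] F p * trR (K := K) f := by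
  rw [IsScalarTower.algebraMap_apply K[X] (RatFunc K) F p, ← Algebra.smul_def, trR, trR,
    map_smul, smul_eq_mul, map_mul]

theorem ord_poly_eq_zero {v : Place K F} (hv : v ∈ zset K F) {p : K[X]} (hp : p.eval 0 ≠ 0) :
    algebraMap K[X] F p ≠ 0 ∧ v.ord (algebraMap K[X] F p) = 0 := by
  obtain ⟨q, hq⟩ := Polynomial.X_sub_C_dvd_sub_C_eval (a := (0 : K)) (p := p)
  rw [Polynomial.C_0, sub_zero] at hq
  have e : algebraMap K[X] F p = algebraMap K F (p.eval 0) + xv K F * algebraMap K[X] F q := by
    rw [← algebraMap_C (F := F), ← map_mul, ← map_add, ← hq]; congr 1; ring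
  have hb : Bd v (xv K F * algebraMap K[X] F q) (-1) := by
    simpa using (mem_zset.mp hv).2.mul (bd_poly (fin_of_mem hv) q)
  rw [bd_iff] at hb
  have := ord_add_eq v ((map_ne_zero (algebraMap K F)).mpr hp) (g := xv K F * algebraMap K[X] F q)
    (hb.imp id fun h => by rw [ord_algebraMap]; omega)
  rw [← e, ord_algebraMap] at this
  exact this

/-- regularity of the trace -/
theorem trR_regular {f : F} (hf : ∀ v ∈ zset K F, Bd v f (v.ord (xv K F) - 1)) :
    ∀ v ∈ zset K F, Bd v (trR (K := K) f) 0 := by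
  classical
  have hx := xv_ne_zero K F
  have hh1 : ∀ v ∈ zset K F, Bd v (f * xv K F) (-1) := fun v hv =>
    (bd_mul_iff hx).mpr ((hf v hv).mono (by omega))
  rcases eq_or_ne f 0 with rfl | hf0
  · intro v _; simp [trR, Bd.zero]
  have hf' : f * xv K F ≠ 0 := mul_ne_zero hf0 hx
  have hfin := (finite_ord (K := K) hf').inter_of_left {v | v.ord (f * xv K F) < 0}
  set P := hfin.toFinset with hP
  have hc : ∀ w : Place K F, ∃ c : K, c ≠ 0 ∧
      (w ∈ P → Bd w (xv K F - algebraMap K F c) (-1)) := by
    intro w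
    by_cases hw : w ∈ P
    · have hw' := (Set.Finite.mem_toFinset hfin).mp hw
      obtain ⟨c, hc⟩ := exists_xv_sub hw'.1.1
      refine ⟨c, ?_, fun _ => hc⟩
      rintro rfl
      have hz : w ∈ zset K F := mem_zset.mpr ⟨hw'.1.1, by simpa using hc⟩
      have := (bd_iff_ord hf').mp (hh1 w hz)
      have := hw'.2
      simp only [Set.mem_setOf_eq] at this
      omega
    · exact ⟨1, one_ne_zero, fun h => absurd h hw⟩
  choose c hc0 hc1 using hc
  set p : K[X] := ∏ w ∈ P, (Polynomial.X - Polynomial.C (c w)) ^ (-w.ord (f * xv K F)).toNat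
    with hp
  have hp0 : p.eval 0 ≠ 0 := by
    rw [hp, Polynomial.eval_prod]
    exact Finset.prod_ne_zero_iff.mpr fun w _ => by simp [hc0 w]
  have hint : IsIntegral K[X] (algebraMap K[X] F p * (f * xv K F)) := mem_A_of_bd fun v hv => by
    by_cases hvP : v ∈ P
    · rw [hp, ← Finset.mul_prod_erase _ _ hvP, map_mul, map_pow, map_sub, algebraMap_C]
      have h1 := (((hc1 v hvP).pow (-v.ord (f * xv K F)).toNat).mul
        (bd_poly hv (∏ w ∈ P.erase v, (Polynomial.X - Polynomial.C (c w))
          ^ (-w.ord (f * xv K F)).toNat))).mul (bd_self (v := v) (f := f * xv K F))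
      exact h1.mono (by have := Int.self_le_toNat (-v.ord (f * xv K F)); omega)
    · have h1 : Bd v (f * xv K F) 0 := by
        rw [bd_iff_ord hf']
        by_contra hneg
        exact hvP ((Set.Finite.mem_toFinset hfin).mpr ⟨⟨hv, by omega⟩, show _ < (0 : ℤ) by omega⟩)
      simpa using (bd_poly hv p).mul h1
  set a : A K F := ⟨_, hint⟩
  have ha : ∀ v ∈ zset K F, Bd v (a : F) (-1) := fun v hv => by
    simpa using (bd_poly (fin_of_mem hv) p).mul (hh1 v hv)
  obtain ⟨r, hr⟩ : ∃ r, Algebra.trace K[X] (A K F) a = Polynomial.X * r := by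
    rw [← dvd_def, Polynomial.X_dvd_iff, Polynomial.coeff_zero_eq_eval_zero]
    exact eval_trace_eq_zero ha
  have key : algebraMap K[X] F p * trR (K := K) f = algebraMap K[X] F r := by
    have h := trR_coe a
    rw [show (a : F) = algebraMap K[X] F (p * Polynomial.X) * f by
      show algebraMap K[X] F p * (f * xv K F) = _
      rw [map_mul]; ring, trR_algebraMap_mul, hr, map_mul, map_mul] at h
    exact mul_left_cancel₀ hx (by linear_combination h)
  intro v hv
  obtain ⟨hp0', hp1⟩ := ord_poly_eq_zero hv hp0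
  have := bd_poly (fin_of_mem hv) r
  rw [← key, mul_comm, bd_mul_iff hp0', hp1] at this
  simpa using this

/-- maximality -/
theorem exists_trR_not_regular {v : Place K F} (hv : v ∈ zset K F) (N : ℕ) :
    ∃ ε : F, ε ≠ 0 ∧ v.ord ε = 0 ∧ (∀ w : Place K F, Fin' w → Bd w ε 0) ∧
      (∀ w ∈ zset K F, w ≠ v → Bd w ε (-(N : ℤ))) ∧
      ∀ w ∈ zset K F, ¬ Bd w (trR (K := K) (ε / xv K F)) 0 := by
  obtain ⟨ε, h0, h1, h2, h3⟩ := exists_idem_trace hv N
  refine ⟨ε, h0, h1, fun w hw => A_bd hw ε, h2, fun w hw h => ?_⟩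
  have e : xv K F * trR (K := K) ((ε : F) / xv K F)
      = algebraMap K[X] F (Algebra.trace K[X] (A K F) ε) := by
    rw [← trR_algebraMap_mul, mul_div_cancel₀ _ (xv_ne_zero K F), trR_coe]
  obtain ⟨hq0, hq1⟩ := ord_poly_eq_zero hw h3
  have := (mem_zset.mp hw).2.mul h
  rw [e, bd_iff_ord hq0, hq1] at this
  omega

end FLTAgent.RR.Chart
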