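import Mathlib

/-! Orders of holomorphic functions on the upper half plane. -/

set_option autoImplicit false
set_option linter.unusedSectionVars false

noncomputable section

open UpperHalfPlane Filter Topology
open scoped Manifold

namespace FLTAgent.RR

/-- order of vanishing -/
def ordH (f : ℍ → ℂ) (τ : ℍ) : ℕ∞ := analyticOrderAt (f ∘ ofComplex) (τ : ℂ)

theorem analyticOnNhd_of_mdiff {f : ℍ → ℂ} (hf : MDiff f) :
    AnalyticOnNhd ℂ (f ∘ ofComplex) upperHalfPlaneSet :=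
  (UpperHalfPlane.mdifferentiable_iff.mp hf).analyticOnNhd isOpen_upperHalfPlaneSet

theorem analyticAt_of_mdiff {f : ℍ → ℂ} (hf : MDiff f) (τ : ℍ) :
    AnalyticAt ℂ (f ∘ ofComplex) (τ : ℂ) :=
  analyticOnNhd_of_mdiff hf τ τ.im_pos

theorem eq_zero_of_eventually {f : ℍ → ℂ} (hf : MDiff f) {τ : ℍ}
    (h : ∀ᶠ z in 𝓝 (τ : ℂ), (f ∘ ofComplex) z = 0) : f = 0 := by
  funext σ
  have h' := (analyticOnNhd_of_mdiff hf).eqOn_zero_of_preconnected_of_eventuallyEq_zero
    (Convex.isPreconnected (convex_halfSpace_im_gt 0)) τ.im_pos h σ.im_pos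
  simpa [UpperHalfPlane.ofComplex_apply] using h'

theorem ordH_ne_top {f : ℍ → ℂ} (hf : MDiff f) (h0 : f ≠ 0) (τ : ℍ) : ordH f τ ≠ ⊤ := fun h =>
  h0 (eq_zero_of_eventually hf (analyticOrderAt_eq_top.mp h))

theorem ordH_zero (τ : ℍ) : ordH (0 : ℍ → ℂ) τ = ⊤ :=
  analyticOrderAt_eq_top.mpr (Eventually.of_forall fun _ => rfl)

theorem ordH_mul {f g : ℍ → ℂ} (hf : MDiff f) (hg : MDiff g) (τ : ℍ) :
    ordH (f * g) τ = ordH f τ + ordH g τ :=
  analyticOrderAt_mul (analyticAt_of_mdiff hf τ) (analyticAt_of_mdiff hg τ)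

theorem ordH_pow {f : ℍ → ℂ} (hf : MDiff f) (n : ℕ) (τ : ℍ) :
    ordH (f ^ n) τ = n • ordH f τ :=
  analyticOrderAt_pow (analyticAt_of_mdiff hf τ) n

theorem ordH_eq_zero {f : ℍ → ℂ} {τ : ℍ} (h : f τ ≠ 0) : ordH f τ = 0 :=
  analyticOrderAt_eq_zero.mpr (Or.inr (by simpa [UpperHalfPlane.ofComplex_apply] using h))

theorem ordH_const {c : ℂ} (hc : c ≠ 0) (τ : ℍ) : ordH (fun _ => c) τ = 0 := ordH_eq_zero hc

theorem mdiff_mul_eq_zero {f g : ℍ → ℂ} (hf : MDiff f) (hg : MDiff g) (h : f * g = 0) :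
    f = 0 ∨ g = 0 := by
  by_contra hc
  push Not at hc
  have h1 := ordH_mul hf hg UpperHalfPlane.I
  rw [h, ordH_zero] at h1
  rcases WithTop.add_eq_top.mp h1.symm with h2 | h2
  · exact ordH_ne_top hf hc.1 _ h2
  · exact ordH_ne_top hg hc.2 _ h2

theorem mdiff_mul_cancel {f g g' : ℍ → ℂ} (hf : MDiff f) (hf0 : f ≠ 0) (hg : MDiff g)
    (hg' : MDiff g') (h : g * f = g' * f) : g = g' := by
  rcases mdiff_mul_eq_zero (hg.sub hg') hf (by rw [sub_mul, h, sub_self]) with h' | h'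
  · exact sub_eq_zero.mp h'
  · exact absurd h' hf0

/-- a quotient with enough zeros in the numerator is holomorphic -/
theorem exists_quot_of_order {R D : ℍ → ℂ} (hR : MDiff R) (hD : MDiff D) (hD0 : D ≠ 0)
    (hord : ∀ τ, ordH D τ ≤ ordH R τ) : ∃ h : ℍ → ℂ, MDiff h ∧ h * D = R := by
  let q : ℂ → ℂ := fun z => (R ∘ ofComplex) z / (D ∘ ofComplex) z
  let h : ℂ → ℂ := fun z => limUnder (𝓝[≠] z) q
  have key : ∀ τ : ℍ, ∃ g : ℂ → ℂ, AnalyticAt ℂ g (τ : ℂ) ∧
      (∀ᶠ z in 𝓝[≠] (τ : ℂ), q z = g z) ∧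
      (R ∘ ofComplex) (τ : ℂ) = g τ * (D ∘ ofComplex) (τ : ℂ) := by
    intro τ
    obtain ⟨d, hd⟩ := ENat.ne_top_iff_exists.mp (ordH_ne_top hD hD0 τ)
    obtain ⟨gD, hgD, hgD0, hDeq⟩ :=
      (analyticAt_of_mdiff hD τ).analyticOrderAt_eq_natCast.mp hd.symm
    obtain ⟨gR, hgR, hReq⟩ := (natCast_le_analyticOrderAt (n := d) (analyticAt_of_mdiff hR τ)).mp
      (le_trans (le_of_eq hd) (hord τ))
    refine ⟨fun z => gR z / gD z, hgR.div hgD hgD0, ?_, ?_⟩
    · filter_upwards [nhdsWithin_le_nhds hDeq, nhdsWithin_le_nhds hReq, self_mem_nhdsWithin]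
        with z h1 h2 hz
      simp only [q, h1, h2, smul_eq_mul]
      rw [mul_div_mul_left]
      exact pow_ne_zero _ (sub_ne_zero.mpr hz)
    · rw [hDeq.self_of_nhds, hReq.self_of_nhds, smul_eq_mul, smul_eq_mul]
      field_simp
  have hh : ∀ τ : ℍ, ∀ g : ℂ → ℂ, AnalyticAt ℂ g (τ : ℂ) →
      (∀ᶠ z in 𝓝[≠] (τ : ℂ), q z = g z) → h τ = g τ := by
    intro τ g hg hqg
    exact ((hg.continuousAt.tendsto.mono_left nhdsWithin_le_nhds).congr'
      (hqg.mono fun z hz => hz.symm)).limUnder_eq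
  refine ⟨fun τ => h τ, ?_, ?_⟩
  · rw [UpperHalfPlane.mdifferentiable_iff]
    intro z hz
    obtain ⟨g, hg, hqg, -⟩ := key ⟨z, hz⟩
    refine (hg.differentiableAt.congr_of_eventuallyEq ?_).differentiableWithinAt
    obtain ⟨s, hs, hso, hzs⟩ := eventually_nhds_iff.mp ((eventually_nhdsWithin_iff.mp hqg).and
      ((isOpen_upperHalfPlaneSet.eventually_mem hz).and hg.eventually_analyticAt))
    filter_upwards [hso.mem_nhds hzs] with w hw
    simp only [Function.comp_apply, ofComplex_apply_of_im_pos (hs w hw).2.1]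
    refine hh ⟨w, (hs w hw).2.1⟩ g (hs w hw).2.2 ?_
    by_cases hwz : w = z
    · subst hwz; exact hqg
    · filter_upwards [nhdsWithin_le_nhds (hso.mem_nhds hw),
        nhdsWithin_le_nhds (isOpen_ne.mem_nhds hwz)] with u hu hu'
      exact (hs u hu).1 hu'
  · funext τ
    obtain ⟨g, hg, hqg, heq⟩ := key τ
    show h τ * D τ = R τ
    rw [hh τ g hg hqg]
    simpa [UpperHalfPlane.ofComplex_apply] using heq.symm

/-- in a monic homogeneous relation the top variable has order at least the other -/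
theorem ord_le_of_relation {z₀ : ℂ} {X Y : ℂ → ℂ} {m : ℕ} {c : ℕ → ℂ → ℂ}
    (hX : AnalyticAt ℂ X z₀) (hY : AnalyticAt ℂ Y z₀) (hc : ∀ i, AnalyticAt ℂ (c i) z₀)
    (hrel : ∀ᶠ z in 𝓝 z₀, X z ^ m + ∑ i ∈ Finset.range m, c i z * (X z ^ i * Y z ^ (m - i)) = 0) :
    analyticOrderAt Y z₀ ≤ analyticOrderAt X z₀ := by
  by_contra hlt
  rw [not_le] at hlt
  obtain ⟨a, ha⟩ := ENat.ne_top_iff_exists.mp (ne_top_of_lt hlt)
  rw [← ha] at hlt
  have hterm : ∀ i, AnalyticAt ℂ (fun z => c i z * (X z ^ i * Y z ^ (m - i))) z₀ := fun i => by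
    have := hc i
    fun_prop
  have key : ∀ s : Finset ℕ, s ⊆ Finset.range m →
      ((m * a + 1 : ℕ) : ℕ∞) ≤
        analyticOrderAt (fun z => ∑ i ∈ s, c i z * (X z ^ i * Y z ^ (m - i))) z₀ := by
    classical
    intro s hs
    induction s using Finset.induction with
    | empty =>
        refine le_of_le_of_eq le_top (analyticOrderAt_eq_top.mpr ?_).symm
        exact Eventually.of_forall fun _ => Finset.sum_empty
    | insert i s hi ih =>
        have e : (fun z => ∑ j ∈ insert i s, c j z * (X z ^ j * Y z ^ (m - j))) =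
            (fun z => c i z * (X z ^ i * Y z ^ (m - i))) +
              fun z => ∑ j ∈ s, c j z * (X z ^ j * Y z ^ (m - j)) := by
          funext z; rw [Finset.sum_insert hi]; rfl
        rw [e]
        refine le_trans (le_min ?_ (ih ((Finset.subset_insert i s).trans hs))) le_analyticOrderAt_add
        have him : i < m := Finset.mem_range.mp (hs (Finset.mem_insert_self i s))
        rw [show (fun z => c i z * (X z ^ i * Y z ^ (m - i))) = c i * (X ^ i * Y ^ (m - i)) from rfl,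
          analyticOrderAt_mul (hc i) ((hX.pow i).mul (hY.pow (m - i))),
          analyticOrderAt_mul (hX.pow i) (hY.pow (m - i)), analyticOrderAt_pow hX,
          analyticOrderAt_pow hY, ← ha]
        rcases eq_or_ne (analyticOrderAt Y z₀) ⊤ with hY' | hY'
        · rw [hY', nsmul_eq_mul (n := m - i), ENat.mul_top (Nat.cast_ne_zero.mpr (by omega))]
          simp
        · obtain ⟨b, hb⟩ := ENat.ne_top_iff_exists.mp hY'
          rw [← hb] at hlt ⊢
          have hab : a + 1 ≤ b := ENat.coe_lt_coe.mp hlt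
          refine le_trans ?_ (le_add_self)
          rw [nsmul_eq_mul, nsmul_eq_mul]
          show ((m * a + 1 : ℕ) : ℕ∞) ≤ (i : ℕ∞) * (a : ℕ∞) + ((m - i : ℕ) : ℕ∞) * (b : ℕ∞)
          rw [← Nat.cast_mul, ← Nat.cast_mul, ← Nat.cast_add, ENat.coe_le_coe]
          have h1 : (m - i) * (a + 1) ≤ (m - i) * b := Nat.mul_le_mul_left _ hab
          rw [Nat.mul_add, Nat.mul_one, Nat.sub_mul] at h1
          have : i * a ≤ m * a := Nat.mul_le_mul_right _ him.le
          omega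
  set S := fun z => ∑ i ∈ Finset.range m, c i z * (X z ^ i * Y z ^ (m - i))
  have hS : AnalyticAt ℂ S z₀ := Finset.analyticAt_fun_sum _ fun i _ => hterm i
  have hlt' : analyticOrderAt (X ^ m) z₀ < analyticOrderAt S z₀ := by
    refine lt_of_lt_of_le ?_ (key _ (Finset.Subset.refl _))
    rw [analyticOrderAt_pow hX, ← ha, nsmul_eq_mul]
    show (m : ℕ∞) * (a : ℕ∞) < ((m * a + 1 : ℕ) : ℕ∞)
    rw [← Nat.cast_mul, ENat.coe_lt_coe]; omega
  have h1 := analyticOrderAt_add_eq_left_of_lt hlt'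
  rw [analyticOrderAt_eq_top.mpr (hrel.mono fun z hz => by simpa [S] using hz)] at h1
  rw [← h1] at hlt'
  exact not_top_lt hlt'

end FLTAgent.RR
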