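import Fermat.Agent.RR.API
import Fermat.Agent.RR.UHP
import Fermat.Agent.ModFun.API

/-!
Holomorphic differentials of the modular function field give cusp forms of weight two.
-/

set_option autoImplicit false
set_option linter.unusedSectionVars false

noncomputable section

open UpperHalfPlane CongruenceSubgroup ModularCurve Filter Topology AlgebraicCurve ModularForm EisensteinSeries
open scoped MatrixGroups Manifold

namespace FLTAgent.RR

open ModFun (jFun scale jBar)

local notation "Qb" => AlgebraicClosure ℚ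

variable (N : ℕ) [NeZero N]

/-- divisors of the level -/
abbrev DN : Type := {d : ℕ // d ∈ N.divisors}

instance neZeroDN (d : DN N) : NeZero (d : ℕ) := ⟨(Nat.pos_of_mem_divisors d.2).ne'⟩


variable {N}

/-- `q`-expansion of `j(dτ)` -/
def genL (d : DN N) : LaurentSeries Qb := coeffEmb Qb (qExpand ℚ (d : ℕ) jq)

theorem genL_mem (d : DN N) : genL d ∈ modularFunctionFieldBar N :=
  coeffEmb_mem_laurentBaseChange _ (jqd_mem_full N (Nat.dvd_of_mem_divisors d.2))

/-- `j(dτ)` in the function field -/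
def genF (d : DN N) : ↥(modularFunctionFieldBar N) := ⟨genL d, genL_mem d⟩

/-- evaluation of polynomials in the `j(dτ)` -/
def evF : MvPolynomial (DN N) Qb →ₐ[Qb] ↥(modularFunctionFieldBar N) := MvPolynomial.aeval genF

theorem coe_evF (P : MvPolynomial (DN N) Qb) :
    (evF P : LaurentSeries Qb) = MvPolynomial.aeval genL P := by
  have : (modularFunctionFieldBar N).val.comp (evF (N := N)) = MvPolynomial.aeval genL :=
    MvPolynomial.algHom_ext fun d => by simp [evF, genF]
  exact AlgHom.congr_fun this P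

theorem adjoin_genL : IntermediateField.adjoin Qb (Set.range (genL (N := N)))
    = modularFunctionFieldBar N := by
  apply le_antisymm
  · rw [IntermediateField.adjoin_le_iff]
    rintro _ ⟨d, rfl⟩
    exact genL_mem d
  · show IntermediateField.adjoin _ (⇑(coeffEmb (AlgebraicClosure ℚ)) '' ((modularFunctionFieldFull N : Set (LaurentSeries ℚ)))) ≤ _
    rw [IntermediateField.adjoin_le_iff]
    rintro _ ⟨x, hx, rfl⟩
    induction hx using IntermediateField.adjoin_induction with
    | mem y hy =>
        obtain ⟨d, hd, hdvd, rfl⟩ := hy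
        exact IntermediateField.subset_adjoin _ _
          ⟨⟨d, Nat.mem_divisors.mpr ⟨hdvd, NeZero.ne N⟩⟩, rfl⟩
    | algebraMap c =>
        rw [show coeffEmb Qb (algebraMap ℚ (LaurentSeries ℚ) c)
            = algebraMap Qb (LaurentSeries Qb) (algebraMap ℚ Qb c) by
          rw [ModularCurve.algebraMap_apply_eq_single, coeffEmb, coeffMap_single,
            algebraMap_laurentSeries_eq_single]]
        exact IntermediateField.algebraMap_mem _ _
    | add a b _ _ ha hb => rw [map_add]; exact add_mem ha hb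
    | inv a _ ha => rw [map_inv₀]; exact inv_mem ha
    | mul a b _ _ ha hb => rw [map_mul]; exact mul_mem ha hb

set_option maxHeartbeats 1000000 in
set_option synthInstance.maxHeartbeats 200000 in
theorem exists_frac (h : ↥(modularFunctionFieldBar N)) :
    ∃ A B : MvPolynomial (DN N) Qb, evF B ≠ 0 ∧ h * evF B = evF A := by
  have hh : (h : LaurentSeries Qb) ∈ IntermediateField.adjoin Qb (Set.range (genL (N := N))) := by
    rw [adjoin_genL]; exact h.2
  rw [IntermediateField.mem_adjoin_iff_div] at hh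
  obtain ⟨r, hr, s, hs, he⟩ := hh
  rw [Algebra.adjoin_range_eq_range_aeval] at hr hs
  obtain ⟨A, rfl⟩ := hr
  obtain ⟨B, rfl⟩ := hs
  by_cases hB : (MvPolynomial.aeval genL B : LaurentSeries Qb) = 0
  · refine ⟨0, 1, by simp, ?_⟩
    have h0 : h = 0 := Subtype.ext (by rw [he]; simp [hB])
    simp [h0]
  · refine ⟨A, B, fun h0 => hB ?_, Subtype.ext ?_⟩
    · rw [← coe_evF, h0]; rfl
    · rw [MulMemClass.coe_mul, coe_evF, coe_evF, he, div_mul_eq_mul_div, mul_div_assoc]
      simp [hB]

/-- the divisor `1` -/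
def oneDN : DN N := ⟨1, Nat.one_mem_divisors.mpr (NeZero.ne N)⟩

/-- the variable for `j` -/
abbrev Xj : MvPolynomial (DN N) Qb := MvPolynomial.X oneDN

theorem evF_Xj : evF (Xj : MvPolynomial (DN N) Qb) = jBar N := by
  refine Subtype.ext ?_
  rw [coe_evF, MvPolynomial.aeval_X]
  show coeffEmb Qb (qExpand ℚ 1 jq) = coeffEmb Qb jq
  rw [qExpand_one_apply]

theorem evF_aeval_Xj (p : Polynomial Qb) :
    evF (Polynomial.aeval (Xj : MvPolynomial (DN N) Qb) p) = Polynomial.aeval (jBar N) p := by
  rw [← Polynomial.aeval_algHom_apply, evF_Xj]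

variable (e : Qb →+* ℂ)

/-- polynomials as functions on `ℍ` -/
def theta : MvPolynomial (DN N) Qb →+* (ℍ → ℂ) :=
  RingHom.pi fun τ => MvPolynomial.eval₂Hom e fun d => jFun (scale (d : ℕ) τ)

theorem theta_apply (P : MvPolynomial (DN N) Qb) (τ : ℍ) :
    theta e P τ = MvPolynomial.eval₂ e (fun d : DN N => jFun (scale (d : ℕ) τ)) P := rfl

theorem theta_eq_zero_iff (P : MvPolynomial (DN N) Qb) : theta e P = 0 ↔ evF P = 0 := by
  have h := ModFun.transferBar e (fun d : DN N => (d : ℕ)) P
  rw [funext_iff, ← (Subtype.coe_injective).eq_iff, coe_evF]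
  simp only [theta_apply, Pi.zero_apply, ← MvPolynomial.eval_map]
  exact h.symm

theorem mdiff_theta (P : MvPolynomial (DN N) Qb) : MDiff (theta e P) := by
  induction P using MvPolynomial.induction_on with
  | C a =>
      have : theta e (MvPolynomial.C a : MvPolynomial (DN N) Qb) = fun _ => e a := by
        funext τ; simp [theta_apply]
      rw [this]; exact mdifferentiable_const
  | add p q hp hq => rw [map_add]; exact hp.add hq
  | mul_X p d hp =>
      rw [map_mul]
      refine hp.mul ?_
      have : theta e (MvPolynomial.X d : MvPolynomial (DN N) Qb) = ModFun.dil (d : ℕ) jFun := by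
        funext τ; simp [theta_apply, ModFun.dil]
      rw [this]
      exact ModFun.mdiff_dil ModFun.mdiff_jFun _

theorem theta_invariant {γ : SL(2, ℤ)} (hγ : γ ∈ Gamma0 N) (P : MvPolynomial (DN N) Qb) (τ : ℍ) :
    theta e P (γ • τ) = theta e P τ := by
  rw [theta_apply, theta_apply]
  suffices hh : (fun d : DN N => jFun (scale (d : ℕ) (γ • τ))) =
      fun d : DN N => jFun (scale (d : ℕ) τ) by rw [hh]
  funext d
  have h := (ModFun.jFun_scale_conj_eq_iff (d : ℕ) γ 1).mpr (by
    rw [inv_one, mul_one]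
    rw [Gamma0_mem] at hγ ⊢
    exact ((ZMod.intCast_zmod_eq_zero_iff_dvd _ _).mpr
      ((Int.natCast_dvd_natCast.mpr (Nat.dvd_of_mem_divisors d.2)).trans
        ((ZMod.intCast_zmod_eq_zero_iff_dvd _ _).mp hγ)))) τ
  rw [one_smul] at h
  exact h

theorem theta_Xj (τ : ℍ) : theta e (Xj : MvPolynomial (DN N) Qb) τ = jFun τ := by
  simp only [theta_apply, MvPolynomial.eval₂_X]
  congr 1
  ext
  simp [oneDN, ModFun.coe_scale]

theorem theta_C (a : Qb) (τ : ℍ) : theta e (MvPolynomial.C a : MvPolynomial (DN N) Qb) τ = e a := by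
  simp [theta_apply]

theorem theta_aeval_Xj (p : Polynomial Qb) (τ : ℍ) :
    theta e (Polynomial.aeval (Xj : MvPolynomial (DN N) Qb) p) τ = p.eval₂ e (jFun τ) := by
  induction p using Polynomial.induction_on' with
  | add p q hp hq => simp [hp, hq]
  | monomial n a =>
      rw [Polynomial.aeval_monomial, map_mul, map_pow, Pi.mul_apply, Pi.pow_apply,
        MvPolynomial.algebraMap_eq, theta_C, theta_Xj, Polynomial.eval₂_monomial]

/-- an element regular away from the poles of `x` satisfies a monic relation over `K[x]` -/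
theorem exists_relation {K F : Type*} [Field K] [Field F] [Algebra K F] [FnField K F]
    [IsAlgClosed K] [CharZero K] {x w : F} (hx : Transcendental K x)
    (hw : ∀ v : Place K F, Bd v x 0 → Bd v w 0) :
    ∃ (m : ℕ) (c : ℕ → Polynomial K),
      w ^ m + ∑ i ∈ Finset.range m, Polynomial.aeval x (c i) * w ^ i = 0 := by
  refine with_chart hx fun hp _ _ => ?_
  have hxv : Chart.xv K F = x := by show algebraMap _ F Polynomial.X = x; simp [hp]
  obtain ⟨P, hP, hP0⟩ := Chart.mem_A_of_bd (K := K) (f := w) fun v hv => hw v (by rw [← hxv]; exact hv)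
  refine ⟨P.natDegree, P.coeff, ?_⟩
  rw [Polynomial.eval₂_eq_sum_range, Finset.sum_range_succ, Polynomial.coeff_natDegree,
    hP.leadingCoeff, map_one, one_mul, add_comm] at hP0
  rw [← hP0]
  simp [hp]

theorem norm_le_of_root {m : ℕ} {c : ℕ → ℂ} {C : ℕ → ℝ} (hC : ∀ i, ‖c i‖ ≤ C i) {y : ℂ}
    (h : y ^ m + ∑ i ∈ Finset.range m, c i * y ^ i = 0) :
    ‖y‖ ≤ 1 + ∑ i ∈ Finset.range m, C i := by
  have hC0 : ∀ i, 0 ≤ C i := fun i => (norm_nonneg _).trans (hC i)
  have hS : 0 ≤ ∑ i ∈ Finset.range m, C i := Finset.sum_nonneg fun i _ => hC0 i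
  rcases le_or_gt ‖y‖ 1 with h1 | h1
  · linarith
  rcases Nat.eq_zero_or_pos m with rfl | hm
  · simp at h
  have h2 : ‖y‖ ^ m ≤ (∑ i ∈ Finset.range m, C i) * ‖y‖ ^ (m - 1) := by
    rw [← norm_pow, eq_neg_of_add_eq_zero_left h, norm_neg, Finset.sum_mul]
    refine (norm_sum_le _ _).trans (Finset.sum_le_sum fun i hi => ?_)
    rw [norm_mul, norm_pow]
    have := Finset.mem_range.mp hi
    exact mul_le_mul (hC i) (pow_le_pow_right₀ h1.le (by omega)) (by positivity) (hC0 i)
  rw [show m = (m - 1) + 1 by omega, pow_succ'] at h2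
  simp only [Nat.add_sub_cancel] at h2
  have := le_of_mul_le_mul_right h2 (by positivity)
  rw [show m - 1 + 1 = m by omega] at this
  linarith

/-- `E₄² E₆` -/
def J2 : ℍ → ℂ := (E₄ : ℍ → ℂ) * (E₄ : ℍ → ℂ) * (E₆ : ℍ → ℂ)

theorem mdiff_E4 : MDiff (E₄ : ℍ → ℂ) := ModularFormClass.holo E₄
theorem mdiff_E6 : MDiff (E₆ : ℍ → ℂ) := ModularFormClass.holo E₆
theorem mdiff_J2 : MDiff J2 := (mdiff_E4.mul mdiff_E4).mul mdiff_E6

theorem mdiff_discriminant : MDiff ModularForm.discriminant := (ModFun.RatMF.isMF ModFun.delta_mem).holo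

theorem discriminant_smul (γ : SL(2, ℤ)) (τ : ℍ) :
    ModularForm.discriminant (γ • τ)
      = denom (γ : GL (Fin 2) ℝ) τ ^ (12 : ℤ) * ModularForm.discriminant τ :=
  ModFun.apply_smul_of_levelOne (ModFun.RatMF.isMF ModFun.delta_mem) γ τ

theorem J2_smul (γ : SL(2, ℤ)) (τ : ℍ) :
    J2 (γ • τ) = denom (γ : GL (Fin 2) ℝ) τ ^ (14 : ℤ) * J2 τ := by
  simp only [J2, Pi.mul_apply, ModFun.apply_smul_of_levelOne (ModFun.isMF_levelOne E₄) γ τ,
    ModFun.apply_smul_of_levelOne (ModFun.isMF_levelOne E₆) γ τ]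
  rw [show (14 : ℤ) = 4 + 4 + 6 by norm_num, zpow_add₀ (denom_ne_zero _ τ),
    zpow_add₀ (denom_ne_zero _ τ)]
  push_cast
  ring

theorem ordH_jFun_le (τ : ℍ) : ordH (fun σ => jFun σ - jFun τ) τ ≤ ordH J2 τ + 1 := by
  have hd : ∀ σ, ModularForm.discriminant σ ≠ 0 := ModularForm.discriminant_ne_zero
  rw [J2, ordH_mul (mdiff_E4.mul mdiff_E4) mdiff_E6, ordH_mul mdiff_E4 mdiff_E4]
  have hj : ∀ c : ℂ, MDiff (fun σ => jFun σ - c) := fun c =>
    ModFun.mdiff_jFun.sub mdifferentiable_const
  by_cases h0 : jFun τ = 0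
  · obtain ⟨γ, rfl⟩ := ModFun.jFun_eq_iff.mp (ModFun.jFun_rho.trans h0.symm)
    rw [h0]
    have h3 : ordH (fun σ => jFun σ - 0) (γ • UpperHalfPlane.ρ) = 3 := by
      simp only [sub_zero]
      exact ModFun.analyticOrderAt_jFun_sub_rho γ
    have e : (fun σ => jFun σ - 0) * ModularForm.discriminant = (E₄ : ℍ → ℂ) ^ 3 := by
      funext σ; simp [jFun, hd σ]
    have h4 := congrArg (fun f => ordH f (γ • UpperHalfPlane.ρ)) e
    rw [ordH_mul (hj 0) mdiff_discriminant, ordH_pow mdiff_E4, h3, ordH_eq_zero (hd _)] at h4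
    rw [h3]
    generalize ordH (E₄ : ℍ → ℂ) (γ • UpperHalfPlane.ρ) = a at h4 ⊢
    generalize ordH (E₆ : ℍ → ℂ) (γ • UpperHalfPlane.ρ) = b at ⊢
    induction a using ENat.recTopCoe with
    | top => simp
    | coe a =>
      induction b using ENat.recTopCoe with
      | top => simp
      | coe b =>
        have : (3 : ℕ) = 3 * a := by
          rw [nsmul_eq_mul, add_zero] at h4; exact_mod_cast h4
        have : 3 ≤ a + a + b + 1 := by omega
        exact_mod_cast this
  by_cases h1 : jFun τ = 1728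
  · obtain ⟨γ, rfl⟩ := ModFun.jFun_eq_iff.mp (ModFun.jFun_I.trans h1.symm)
    rw [h1]
    have h3 : ordH (fun σ => jFun σ - 1728) (γ • UpperHalfPlane.I) = 2 :=
      ModFun.analyticOrderAt_jFun_sub_I γ
    have e : (fun σ => jFun σ - 1728) * ModularForm.discriminant = (E₆ : ℍ → ℂ) ^ 2 := by
      funext σ
      have := ModularForm.discriminant_eq_E₄_cube_sub_E₆_sq σ
      simp only [Pi.mul_apply, Pi.pow_apply, jFun]
      rw [sub_mul, div_mul_cancel₀ _ (hd σ), this]
      ring
    have h4 := congrArg (fun f => ordH f (γ • UpperHalfPlane.I)) e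
    rw [ordH_mul (hj _) mdiff_discriminant, ordH_pow mdiff_E6, h3, ordH_eq_zero (hd _)] at h4
    rw [h3]
    generalize ordH (E₄ : ℍ → ℂ) (γ • UpperHalfPlane.I) = a at ⊢
    generalize ordH (E₆ : ℍ → ℂ) (γ • UpperHalfPlane.I) = b at h4 ⊢
    induction a using ENat.recTopCoe with
    | top => simp
    | coe a =>
      induction b using ENat.recTopCoe with
      | top => simp
      | coe b =>
        have : (2 : ℕ) = 2 * b := by
          rw [nsmul_eq_mul, add_zero] at h4; exact_mod_cast h4
        have : 2 ≤ a + a + b + 1 := by omega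
        exact_mod_cast this
  · have h3 : ordH (fun σ => jFun σ - jFun τ) τ = 1 :=
      ModFun.analyticOrderAt_jFun_sub_generic h0 h1
    rw [h3]
    exact le_add_self

theorem tendsto_of_good {f : ℍ → ℂ} (hf : ModFun.Good f) :
    Tendsto f atImInfty (𝓝 ((qExpansion 1 f).coeff 0)) := by
  have hper : Function.Periodic (f ∘ ofComplex) 1 := hf.per
  have hc : cuspFunction 1 f 0 = (qExpansion 1 f).coeff 0 := by
    rw [qExpansion_coeff_zero one_pos hf.analytic (by simpa using hper),
      cuspFunction_apply_zero one_pos hf.analytic (by simpa using hper)]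
  rw [← hc]
  exact (hf.analytic.continuousAt.tendsto.comp (qParam_tendsto_atImInfty one_pos)).congr
    fun τ => eq_cuspFunction τ one_ne_zero (by simpa using hper)

theorem tendsto_E6_div_E4 : Tendsto (fun τ => (E₆ : ℍ → ℂ) τ / (E₄ : ℍ → ℂ) τ) atImInfty (𝓝 1) := by
  have h4 := tendsto_of_good (ModFun.isMF_levelOne E₄).good
  have h6 := tendsto_of_good (ModFun.isMF_levelOne E₆).good
  rw [E_qExpansion_coeff_zero _ ⟨2, rfl⟩] at h4
  rw [E_qExpansion_coeff_zero _ ⟨3, rfl⟩] at h6
  have := h6.div h4 one_ne_zero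
  rwa [one_div_one] at this

theorem tendsto_jFun_inv : Tendsto (fun τ => (jFun τ)⁻¹) atImInfty (𝓝 0) := by
  obtain ⟨u, hu, hu0, he⟩ := ModFun.jFun_atImInfty
  have hq := qParam_tendsto_atImInfty (h := 1) one_pos
  have h1 : Tendsto (fun τ : ℍ => u (Function.Periodic.qParam 1 (τ : ℂ))) atImInfty (𝓝 1) :=
    hu0 ▸ hu.continuousAt.tendsto.comp hq
  have h2 := hq.div h1 one_ne_zero
  rw [zero_div] at h2
  refine h2.congr' ?_
  filter_upwards [he] with τ hτ
  rw [hτ, inv_div]
  rfl

/-- regularity relations for a holomorphic differential `h dx` -/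
theorem exists_relations {K F : Type*} [Field K] [Field F] [Algebra K F] [FnField K F]
    [IsAlgClosed K] [CharZero K] {j h : F} (hx : Transcendental K j)
    (hh : h ∈ riemannRochSpace (Kd hx)) :
    ∃ (n : ℕ) (S : Finset K) (m : ℕ) (c : ℕ → Polynomial K) (m' : ℕ) (c' : ℕ → Polynomial K),
      (h ^ (n + 1) * Polynomial.aeval j (∏ c ∈ S, (Polynomial.X - Polynomial.C c)) ^ n) ^ m
        + ∑ i ∈ Finset.range m, Polynomial.aeval j (c i) *
          (h ^ (n + 1) * Polynomial.aeval j (∏ c ∈ S, (Polynomial.X - Polynomial.C c)) ^ n) ^ i = 0 ∧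
      (h ^ (n + 1) * Polynomial.aeval j (∏ c ∈ S, (Polynomial.X - Polynomial.C c)) ^ n
          * j ^ (n + 2) / j ^ (S.card * n)) ^ m'
        + ∑ i ∈ Finset.range m', Polynomial.aeval j⁻¹ (c' i) *
          (h ^ (n + 1) * Polynomial.aeval j (∏ c ∈ S, (Polynomial.X - Polynomial.C c)) ^ n
            * j ^ (n + 2) / j ^ (S.card * n)) ^ i = 0 := by
  classical
  have hj0 : j ≠ 0 := ne_zero_of_transcendental hx
  have hkd : ∀ v, Bd v h (kd j v) := fun v => by
    rw [riemannRochSpace_eq_boundedOn] at hh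
    simpa using hh v trivial
  set S := ((Kd hx).support.filter fun v => Bd v j 0).image (res j) with hS
  set P : Polynomial K := ∏ c ∈ S, (Polynomial.X - Polynomial.C c) with hP
  obtain ⟨n, hn⟩ : ∃ n, ndeg K j = n + 1 := ⟨ndeg K j - 1, by have := ndeg_pos hx; omega⟩
  -- bounds on ramification
  have hle : ∀ v : Place K F, ∀ c, 0 < v.ord (j - algebraMap K F c) →
      v.ord (j - algebraMap K F c) ≤ (n : ℤ) + 1 := by
    intro v c hv
    have h1 := sum_zeros (transcendental_sub_const hx c)
    rw [ndeg_congr (KK_sub_const j c), hn] at h1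
    have h2 : v.ord (j - algebraMap K F c) ≤
        ∑ w ∈ zeros (j - algebraMap K F c), w.ord (j - algebraMap K F c) :=
      Finset.single_le_sum (f := fun w : Place K F => w.ord (j - algebraMap K F c))
        (fun w hw => (mem_zeros.mp hw).le) (mem_zeros.mpr hv)
    push_cast at h1
    omega
  -- finite regularity
  set W := h ^ (n + 1) * Polynomial.aeval j P ^ n with hW
  have hWreg : ∀ v : Place K F, Bd v j 0 → Bd v W 0 := by
    intro v hv
    have hc := ord_res_pos hx hv
    have hk := hkd v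
    rw [kd_of_zero hc] at hk
    by_cases hcS : res j v ∈ S
    · have hPv : Bd v (Polynomial.aeval j P) (-v.ord (j - algebraMap K F (res j v))) := by
        rw [hP, ← Finset.mul_prod_erase _ _ hcS, map_mul, map_sub, Polynomial.aeval_X,
          Polynomial.aeval_C]
        exact ((bd_self (v := v)).mul (bd_aeval hv _)).mono (by omega)
      refine ((hk.pow (n + 1)).mul (hPv.pow n)).mono ?_
      have := hle v _ hc
      push_cast
      nlinarith
    · have h0 : kd j v = 0 := by
        by_contra hne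
        exact hcS (Finset.mem_image.mpr
          ⟨v, Finset.mem_filter.mpr ⟨Finsupp.mem_support_iff.mpr hne, hv⟩, rfl⟩)
      rw [← kd_of_zero hc, h0] at hk
      simpa using (hk.pow (n + 1)).mul ((bd_aeval hv P).pow n)
  obtain ⟨m, c, hrel⟩ := exists_relation hx hWreg
  set W2 := W * j ^ (n + 2) / j ^ (S.card * n) with hW2
  have hj0 : j ≠ 0 := ne_zero_of_transcendental hx
  have hu := transcendental_inv hx
  have hW2reg : ∀ v : Place K F, Bd v j⁻¹ 0 → Bd v W2 0 := by
    intro v hv
    rw [hW2, bd_div_iff (pow_ne_zero _ hj0), ord_pow, zero_sub]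
    by_cases hvj : Bd v j 0
    · have h0 : v.ord j = 0 := by
        have h1 := (bd_iff_ord hj0).mp hvj
        have h2 := (bd_iff_ord (inv_ne_zero hj0)).mp hv
        rw [v.ord_inv] at h2; omega
      refine ((hWreg v hvj).mul (hvj.pow (n + 2))).mono ?_
      rw [h0]; simp
    · have hneg := ord_neg_of_not_bd hvj
      have hk := hkd v
      rw [kd_of_pole hneg] at hk
      have hPdeg : P.natDegree = S.card := by
        rw [hP]; exact Polynomial.natDegree_finsetProd_X_sub_C_eq_card S id
      have hP0 : P ≠ 0 := Finset.prod_ne_zero_iff.mpr fun c _ => Polynomial.X_sub_C_ne_zero c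
      obtain ⟨-, hPord⟩ := ord_aeval_at_pole hneg hP0
      have hPb : Bd v (Polynomial.aeval j P) (-(S.card * v.ord j)) := by
        rw [← hPdeg, ← hPord]; exact bd_self
      refine (((hk.pow (n + 1)).mul (hPb.pow n)).mul ((bd_self (v := v) (f := j)).pow (n + 2))).mono ?_
      have := sum_zeros hu
      have h2 : -v.ord j ≤ (n : ℤ) + 1 := by
        rw [ndeg_congr (KK_inv j), hn] at this
        have h3 : v.ord j⁻¹ ≤ ∑ w ∈ zeros j⁻¹, w.ord j⁻¹ :=
          Finset.single_le_sum (f := fun w : Place K F => w.ord j⁻¹)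
            (fun w hw => (mem_zeros.mp hw).le) (mem_zeros.mpr (by rw [v.ord_inv]; omega))
        rw [this, v.ord_inv] at h3
        push_cast at h3; omega
      push_cast
      nlinarith
  obtain ⟨m', c', hrel'⟩ := exists_relation hu hW2reg
  exact ⟨n, S, m, c, m', c', hrel, hrel'⟩

set_option maxHeartbeats 1000000 in
set_option synthInstance.maxHeartbeats 200000 in
/-- the main construction -/
theorem exists_cuspForm {h : ↥(modularFunctionFieldBar N)}
    (hh : h ∈ riemannRochSpace (Kd (ModFun.transcendental_jBar N))) :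
    ∃ (f : CuspForm (Gamma0 N) 2) (A B : MvPolynomial (DN N) Qb), evF B ≠ 0 ∧
      h * evF B = evF A ∧
      ∀ τ, f τ * (theta e B τ * ModularForm.discriminant τ) = theta e A τ * J2 τ := by
  classical
  have hx := ModFun.transcendental_jBar N
  obtain ⟨n, S, m, c, m', c', hrel, hrel'⟩ := exists_relations hx hh
  set j := jBar N with hj
  have hj0 : j ≠ 0 := ne_zero_of_transcendental hx
  set P : Polynomial Qb := ∏ c ∈ S, (Polynomial.X - Polynomial.C c) with hP
  set W := h ^ (n + 1) * Polynomial.aeval j P ^ n with hW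
  obtain ⟨A, B, hB, hAB⟩ := exists_frac h
  set X1 := A ^ (n + 1) * Polynomial.aeval (Xj : MvPolynomial (DN N) Qb) P ^ n
  set Y1 := B ^ (n + 1) with hY1
  have hXY1 : evF X1 = W * evF Y1 := by
    rw [map_mul, map_pow, map_pow, evF_aeval_Xj, map_pow, ← hAB, hW]; ring
  have hR1 : theta e (X1 ^ m + ∑ i ∈ Finset.range m,
      Polynomial.aeval (Xj : MvPolynomial (DN N) Qb) (c i) * (X1 ^ i * Y1 ^ (m - i))) = 0 := by
    rw [theta_eq_zero_iff, map_add, map_pow, map_sum, hXY1]
    have : ∀ i ∈ Finset.range m, evF (Polynomial.aeval (Xj : MvPolynomial (DN N) Qb) (c i)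
        * (X1 ^ i * Y1 ^ (m - i))) = Polynomial.aeval j (c i) * W ^ i * evF Y1 ^ m := by
      intro i hi
      rw [map_mul, map_mul, map_pow, map_pow, evF_aeval_Xj, hXY1, mul_pow]
      have hm : evF Y1 ^ m = evF Y1 ^ i * evF Y1 ^ (m - i) := by
        rw [← pow_add, Nat.add_sub_cancel' (Finset.mem_range.mp hi).le]
      rw [hm, hj]; ring
    rw [Finset.sum_congr rfl this, ← Finset.sum_mul, mul_pow, ← add_mul, hrel, zero_mul]
  have hΔ : MDiff ModularForm.discriminant := mdiff_discriminant
  have hB0 : theta e B ≠ 0 := fun h0 => hB ((theta_eq_zero_iff e B).mp h0)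
  have hD0 : theta e B * ModularForm.discriminant ≠ 0 := fun h0 => by
    rcases mdiff_mul_eq_zero (mdiff_theta e B) hΔ h0 with h1 | h1
    · exact hB0 h1
    · exact ModularForm.discriminant_ne_zero UpperHalfPlane.I (congrFun h1 _)
  -- holomorphy
  have hord : ∀ τ, ordH (theta e B * ModularForm.discriminant) τ ≤ ordH (theta e A * J2) τ := by
    intro τ
    rw [ordH_mul (mdiff_theta e B) hΔ, ordH_eq_zero (ModularForm.discriminant_ne_zero τ), add_zero,
      ordH_mul (mdiff_theta e A) mdiff_J2]
    have h1 : ordH (theta e Y1) τ ≤ ordH (theta e X1) τ := by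
      refine ord_le_of_relation (m := m)
        (c := fun i => theta e (Polynomial.aeval (Xj : MvPolynomial (DN N) Qb) (c i)) ∘ ofComplex)
        (analyticAt_of_mdiff (mdiff_theta e X1) τ) (analyticAt_of_mdiff (mdiff_theta e Y1) τ)
        (fun i => analyticAt_of_mdiff (mdiff_theta e _) τ) (Eventually.of_forall fun z => ?_)
      have := congrFun hR1 (ofComplex z)
      simpa [map_add, map_sum, Finset.sum_apply] using this
    have hPj : MDiff (theta e (Polynomial.aeval (Xj : MvPolynomial (DN N) Qb) P)) := mdiff_theta e _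
    have hp : ordH (theta e (Polynomial.aeval (Xj : MvPolynomial (DN N) Qb) P)) τ
        ≤ ordH J2 τ + 1 := by
      have key : ∀ T : Finset Qb, (∀ c ∈ T, e c ≠ jFun τ) →
          ordH (theta e (Polynomial.aeval (Xj : MvPolynomial (DN N) Qb)
            (∏ c ∈ T, (Polynomial.X - Polynomial.C c)))) τ = 0 := by
        intro T hT
        refine ordH_eq_zero ?_
        rw [theta_aeval_Xj, Polynomial.eval₂_finsetProd, Finset.prod_ne_zero_iff]
        intro c hc
        simp only [Polynomial.eval₂_sub, Polynomial.eval₂_X, Polynomial.eval₂_C, sub_ne_zero]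
        exact (hT c hc).symm
      by_cases hc : ∃ c ∈ S, e c = jFun τ
      · obtain ⟨c₀, hc₀, hec⟩ := hc
        rw [hP, ← Finset.mul_prod_erase _ _ hc₀, map_mul, map_mul,
          ordH_mul (mdiff_theta e _) (mdiff_theta e _),
          key (S.erase c₀) (fun c hc h => Finset.ne_of_mem_erase hc (e.injective (h.trans hec.symm))),
          add_zero]
        refine le_of_eq_of_le ?_ (ordH_jFun_le τ)
        congr 1
        funext σ
        rw [theta_aeval_Xj]; simp [hec]
      · push Not at hc
        rw [hP, key S hc]; exact zero_le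
    simp only [X1, hY1, map_mul, map_pow] at h1
    rw [ordH_mul ((mdiff_theta e A).pow _) (hPj.pow _), ordH_pow (mdiff_theta e A), ordH_pow hPj,
      ordH_pow (mdiff_theta e B)] at h1
    obtain ⟨b, hb⟩ := ENat.ne_top_iff_exists.mp (ordH_ne_top (mdiff_theta e B) hB0 τ)
    rw [← hb] at h1 ⊢
    generalize ordH (theta e A) τ = a at h1 ⊢
    generalize ordH J2 τ = q at hp ⊢
    generalize ordH (theta e (Polynomial.aeval (Xj : MvPolynomial (DN N) Qb) P)) τ = p at hp h1
    induction a using ENat.recTopCoe with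
    | top => simp
    | coe a =>
      induction q using ENat.recTopCoe with
      | top => simp
      | coe q =>
        induction p using ENat.recTopCoe with
        | top => simp at hp
        | coe p =>
          rw [nsmul_eq_mul, nsmul_eq_mul, nsmul_eq_mul] at h1
          have h1' : (n + 1) * b ≤ (n + 1) * a + n * p := by exact_mod_cast h1
          have hp' : p ≤ q + 1 := by exact_mod_cast hp
          have : b ≤ a + q := by
            by_contra hlt
            rw [not_le] at hlt
            have h3 := Nat.mul_le_mul_left n hp'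
            have h4 := Nat.mul_le_mul_left (n + 1) (Nat.succ_le_of_lt hlt)
            rw [Nat.succ_eq_add_one] at h4
            nlinarith
          exact_mod_cast this
  obtain ⟨f, hf, hfe⟩ := exists_quot_of_order ((mdiff_theta e A).mul mdiff_J2)
    ((mdiff_theta e B).mul hΔ) hD0 hord
  have hfe' : ∀ τ, f τ * (theta e B τ * ModularForm.discriminant τ) = theta e A τ * J2 τ :=
    fun τ => congrFun hfe τ
  -- invariance
  have hinv : ∀ γ : SL(2, ℤ), γ ∈ Gamma0 N → f ∣[(2 : ℤ)] γ = f := by
    intro γ hγ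
    refine mdiff_mul_cancel ((mdiff_theta e B).mul hΔ) hD0 (ModFun.mdiff_slash hf 2 γ) hf ?_
    funext τ
    show (f ∣[(2 : ℤ)] γ) τ * (theta e B τ * ModularForm.discriminant τ)
      = f τ * (theta e B τ * ModularForm.discriminant τ)
    rw [hfe' τ, SL_slash_apply]
    have h1 := hfe' (γ • τ)
    rw [theta_invariant e hγ, theta_invariant e hγ, discriminant_smul, J2_smul] at h1
    have hd : denom (γ : GL (Fin 2) ℝ) τ ≠ 0 := denom_ne_zero _ τ
    simp only [zpow_ofNat] at h1
    simp only [zpow_neg, zpow_ofNat]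
    field_simp
    have h12 : denom (γ : GL (Fin 2) ℝ) τ ^ (12 : ℕ) ≠ 0 := pow_ne_zero _ hd
    apply mul_left_cancel₀ h12
    linear_combination h1
  -- cusps
  set W2 := W * j ^ (n + 2) / j ^ (S.card * n) with hW2
  set D := ∑ i ∈ Finset.range m', (c' i).natDegree with hDdef
  set X2 := X1 * Xj ^ (n + 2) with hX2
  set Y2 := Y1 * Xj ^ (S.card * n) with hY2
  have hXY2 : evF X2 = W2 * evF Y2 := by
    rw [hX2, hY2, map_mul evF X1, map_mul evF Y1, map_pow evF Xj, map_pow evF Xj, evF_Xj, hXY1,
      hW2, ← hj]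
    field_simp
  have hR2 : theta e (Xj ^ D * X2 ^ m' + ∑ i ∈ Finset.range m',
      (∑ k ∈ Finset.range (D + 1), MvPolynomial.C ((c' i).coeff k) * Xj ^ (D - k))
        * (X2 ^ i * Y2 ^ (m' - i))) = 0 := by
    rw [theta_eq_zero_iff, map_add, map_mul, map_pow, map_pow, map_sum, evF_Xj, hXY2, ← hj]
    have : ∀ i ∈ Finset.range m', evF ((∑ k ∈ Finset.range (D + 1),
        MvPolynomial.C ((c' i).coeff k) * (Xj : MvPolynomial (DN N) Qb) ^ (D - k))
        * (X2 ^ i * Y2 ^ (m' - i)))
        = j ^ D * (Polynomial.aeval j⁻¹ (c' i) * W2 ^ i) * evF Y2 ^ m' := by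
      intro i hi
      have hdeg : (c' i).natDegree < D + 1 := by
        have : (c' i).natDegree ≤ D :=
          Finset.single_le_sum (f := fun i => (c' i).natDegree) (fun _ _ => Nat.zero_le _) hi
        omega
      rw [map_mul, map_mul, map_pow, map_pow, map_sum, hXY2,
        Polynomial.aeval_eq_sum_range' hdeg]
      simp only [Finset.sum_mul, Finset.mul_sum]
      refine Finset.sum_congr rfl fun k hk => ?_
      rw [map_mul, map_pow, evF_Xj, ← hj, ← MvPolynomial.algebraMap_eq, AlgHom.commutes,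
        Algebra.smul_def, mul_pow]
      have hk' : k ≤ D := Nat.lt_succ_iff.mp (Finset.mem_range.mp hk)
      have hm : evF Y2 ^ m' = evF Y2 ^ i * evF Y2 ^ (m' - i) := by
        rw [← pow_add, Nat.add_sub_cancel' (Finset.mem_range.mp hi).le]
      have hjD : j ^ D * j⁻¹ ^ k = j ^ (D - k) := by
        rw [inv_pow, ← div_eq_mul_inv, pow_sub₀ _ hj0 hk', div_eq_mul_inv]
      rw [hm, ← hjD]; ring
    rw [Finset.sum_congr rfl this, ← Finset.sum_mul, ← Finset.mul_sum, mul_pow, ← mul_assoc,
      ← add_mul, ← mul_add, hrel', mul_zero, zero_mul]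
  have hzero : ∀ γ : SL(2, ℤ), IsZeroAtImInfty (f ∣[(2 : ℤ)] γ) := by
    intro γ
    show Tendsto (f ∣[(2 : ℤ)] γ) atImInfty (𝓝 0)
    rw [Metric.tendsto_nhds]
    intro ε hε
    set C : ℝ := 1 + ∑ i ∈ Finset.range m', ∑ k ∈ Finset.range (D + 1), ‖e ((c' i).coeff k)‖
    have hC0 : 0 < C := by
      have : 0 ≤ ∑ i ∈ Finset.range m', ∑ k ∈ Finset.range (D + 1), ‖e ((c' i).coeff k)‖ := by
        positivity
      linarith
    -- `P(j)/j^d → 1`
    have hPt : Tendsto (fun τ => ∏ c ∈ S, (1 - e c * (jFun τ)⁻¹)) atImInfty (𝓝 1) := by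
      have : Tendsto (fun τ => ∏ c ∈ S, (1 - e c * (jFun τ)⁻¹)) atImInfty
          (𝓝 (∏ _c ∈ S, (1 : ℂ))) := by
        refine tendsto_finsetProd S fun c _ => ?_
        simpa using (tendsto_jFun_inv.const_mul (e c)).const_sub 1
      simpa using this
    have ev1 : ∀ᶠ τ in atImInfty, (1 / 2 : ℝ) ≤ ‖∏ c ∈ S, (1 - e c * (jFun τ)⁻¹)‖ :=
      hPt.norm.eventually (eventually_ge_nhds (by norm_num))
    have ev2 : ∀ᶠ τ in atImInfty, ‖(E₆ : ℍ → ℂ) τ / (E₄ : ℍ → ℂ) τ‖ ≤ 2 :=
      tendsto_E6_div_E4.norm.eventually (eventually_le_nhds (by norm_num))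
    have ev3 : ∀ᶠ τ in atImInfty, ‖(jFun τ)⁻¹‖ < min 1 ((ε / 4) ^ (n + 1) / (C * 2 ^ n)) := by
      have : (0 : ℝ) < min 1 ((ε / 4) ^ (n + 1) / (C * 2 ^ n)) := lt_min one_pos (by positivity)
      have h0 := tendsto_jFun_inv.norm
      rw [norm_zero] at h0
      exact h0.eventually (eventually_lt_nhds this)
    have ev4 : ∀ᶠ τ in atImInfty, (E₄ : ℍ → ℂ) τ ≠ 0 ∧ jFun τ ≠ 0 := by
      have h4 := tendsto_of_good (ModFun.isMF_levelOne E₄).good
      rw [E_qExpansion_coeff_zero _ ⟨2, rfl⟩] at h4
      filter_upwards [h4.eventually_ne one_ne_zero] with τ hτ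
      exact ⟨hτ, div_ne_zero (pow_ne_zero _ hτ) (ModularForm.discriminant_ne_zero τ)⟩
    obtain ⟨A₀, hA₀⟩ := (atImInfty_mem _).mp (ev1.and (ev2.and (ev3.and ev4)))
    have hgood : ∀ τ : ℍ, A₀ ≤ τ.im → theta e B (γ • τ) ≠ 0 →
        ‖(f ∣[(2 : ℤ)] γ) τ‖ ≤ ε / 2 := by
      intro τ hτ hb
      obtain ⟨h1, h2, h3, hE4, hj'⟩ := hA₀ τ hτ
      set a := theta e A (γ • τ)
      set b := theta e B (γ • τ)
      set J := jFun τ with hJ
      have hJγ : jFun (γ • τ) = J := ModFun.jFun_smul γ τ
      have hval : (f ∣[(2 : ℤ)] γ) τ = a / b * J * ((E₆ : ℍ → ℂ) τ / (E₄ : ℍ → ℂ) τ) := by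
        rw [SL_slash_apply]
        have h0 := hfe' (γ • τ)
        rw [discriminant_smul, J2_smul] at h0
        have hd : denom (γ : GL (Fin 2) ℝ) τ ≠ 0 := denom_ne_zero _ τ
        simp only [zpow_ofNat] at h0
        rw [hJ]
        simp only [jFun, J2, Pi.mul_apply] at h0 ⊢
        have hΔ0 := ModularForm.discriminant_ne_zero τ
        simp only [zpow_neg, zpow_ofNat]
        field_simp
        have h12 : denom (γ : GL (Fin 2) ℝ) τ ^ (12 : ℕ) ≠ 0 := pow_ne_zero _ hd
        apply mul_left_cancel₀ h12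
        linear_combination h0
      set Q := ∏ c ∈ S, (1 - e c * J⁻¹) with hQ
      set y := (a / b) ^ (n + 1) * J ^ (n + 2) * Q ^ n with hy
      have hX2v : theta e X2 (γ • τ) = y * theta e Y2 (γ • τ) := by
        simp only [hX2, hY2, hY1, X1, map_mul, map_pow, Pi.mul_apply, Pi.pow_apply, theta_Xj,
          theta_aeval_Xj, hJγ]
        rw [hP, Polynomial.eval₂_finsetProd, hy, hQ]
        have : (∏ c ∈ S, (Polynomial.X - Polynomial.C c).eval₂ e J)
            = (∏ c ∈ S, (1 - e c * J⁻¹)) * J ^ S.card := by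
          rw [← Finset.prod_const, ← Finset.prod_mul_distrib]
          refine Finset.prod_congr rfl fun c _ => ?_
          simp only [Polynomial.eval₂_sub, Polynomial.eval₂_X, Polynomial.eval₂_C]
          field_simp
        rw [this, mul_pow, ← pow_mul, div_pow]
        simp only [a, b] at hb ⊢
        field_simp
      have hY2v : theta e Y2 (γ • τ) ≠ 0 := by
        simp only [hY2, hY1, map_mul, map_pow, Pi.mul_apply, Pi.pow_apply, theta_Xj, hJγ]
        exact mul_ne_zero (pow_ne_zero _ hb) (pow_ne_zero _ hj')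
      have hy_le : ‖y‖ ≤ C := by
        refine norm_le_of_root (m := m')
          (c := fun i => ∑ k ∈ Finset.range (D + 1), e ((c' i).coeff k) * J⁻¹ ^ k)
          (fun i => ?_) ?_
        · refine (norm_sum_le _ _).trans (Finset.sum_le_sum fun k _ => ?_)
          rw [norm_mul, norm_pow]
          exact mul_le_of_le_one_right (norm_nonneg _)
            (pow_le_one₀ (norm_nonneg _) (h3.le.trans (min_le_left _ _)))
        · have h0 := congrFun hR2 (γ • τ)
          simp only [map_add, map_mul, map_pow, map_sum, Pi.add_apply, Pi.mul_apply, Pi.pow_apply,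
            Finset.sum_apply, theta_Xj, theta_C, hJγ, hX2v, Pi.zero_apply] at h0
          have hne : J ^ D * theta e Y2 (γ • τ) ^ m' ≠ 0 :=
            mul_ne_zero (pow_ne_zero _ hj') (pow_ne_zero _ hY2v)
          apply mul_left_cancel₀ hne
          rw [mul_zero, ← h0, mul_add, Finset.mul_sum]
          congr 1
          · ring
          · refine Finset.sum_congr rfl fun i hi => ?_
            rw [Finset.sum_mul, Finset.mul_sum, Finset.sum_mul]
            refine Finset.sum_congr rfl fun k hk => ?_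
            have hk' : k ≤ D := Nat.lt_succ_iff.mp (Finset.mem_range.mp hk)
            have hm : theta e Y2 (γ • τ) ^ m'
                = theta e Y2 (γ • τ) ^ i * theta e Y2 (γ • τ) ^ (m' - i) := by
              rw [← pow_add, Nat.add_sub_cancel' (Finset.mem_range.mp hi).le]
            have hJD : J ^ D * J⁻¹ ^ k = J ^ (D - k) := by
              rw [inv_pow, ← div_eq_mul_inv, pow_sub₀ _ hj' hk', div_eq_mul_inv]
            rw [hm, ← hJD, mul_pow]; ring
      have hkey : ‖a / b * J‖ ≤ ε / 4 := by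
        refine le_of_pow_le_pow_left₀ (Nat.succ_ne_zero n) (by positivity) ?_
        have hQ0 : Q ≠ 0 := fun h => by rw [h, norm_zero] at h1; norm_num at h1
        have e1 : (a / b * J) ^ (n + 1) = y * J⁻¹ * (Q ^ n)⁻¹ := by
          rw [hy]; field_simp; ring
        have hQn : ‖(Q ^ n)⁻¹‖ ≤ 2 ^ n := by
          rw [norm_inv, norm_pow, ← inv_pow]
          refine pow_le_pow_left₀ (by positivity) ?_ n
          calc ‖Q‖⁻¹ ≤ (1 / 2 : ℝ)⁻¹ := inv_anti₀ (by norm_num) h1
            _ = 2 := by norm_num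
        calc ‖a / b * J‖ ^ (n + 1) = ‖y‖ * ‖J⁻¹‖ * ‖(Q ^ n)⁻¹‖ := by
              rw [← norm_pow, e1, norm_mul, norm_mul]
          _ ≤ C * ((ε / 4) ^ (n + 1) / (C * 2 ^ n)) * 2 ^ n := by
              gcongr
              exact h3.le.trans (min_le_right _ _)
          _ = (ε / 4) ^ (n + 1) := by field_simp
      rw [hval, norm_mul]
      calc ‖a / b * J‖ * ‖(E₆ : ℍ → ℂ) τ / (E₄ : ℍ → ℂ) τ‖ ≤ (ε / 4) * 2 :=
            mul_le_mul hkey h2 (norm_nonneg _) (by positivity)
        _ = ε / 2 := by ring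
    refine (atImInfty_mem _).mpr ⟨A₀ + 1, fun τ hτ => ?_⟩
    show dist ((f ∣[(2 : ℤ)] γ) τ) 0 < ε
    rw [dist_zero_right]
    refine lt_of_le_of_lt ?_ (half_lt_self hε)
    -- by continuity from the points where the denominator is nonzero
    have hg : ContinuousAt ((f ∣[(2 : ℤ)] γ) ∘ ofComplex) (τ : ℂ) :=
      (analyticAt_of_mdiff (ModFun.mdiff_slash hf 2 γ) τ).continuousAt
    have hBγ : MDiff (theta e B ∣[(0 : ℤ)] γ) := ModFun.mdiff_slash (mdiff_theta e B) 0 γ
    have hBγ' : ∀ σ, (theta e B ∣[(0 : ℤ)] γ) σ = theta e B (γ • σ) := fun σ => by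
      rw [SL_slash_apply]; simp
    have hBγ0 : theta e B ∣[(0 : ℤ)] γ ≠ 0 := by
      intro h0
      apply hB0
      funext σ
      have := congrFun h0 (γ⁻¹ • σ)
      rwa [hBγ', smul_inv_smul] at this
    have hne : ∀ᶠ z in 𝓝[≠] (τ : ℂ), ((theta e B ∣[(0 : ℤ)] γ) ∘ ofComplex) z ≠ 0 := by
      rcases (analyticAt_of_mdiff hBγ τ).eventually_eq_zero_or_eventually_ne_zero with h0 | h0
      · exact absurd (eq_zero_of_eventually hBγ h0) hBγ0
      · exact h0
    have hle : ∀ᶠ z in 𝓝[≠] (τ : ℂ), ‖((f ∣[(2 : ℤ)] γ) ∘ ofComplex) z‖ ≤ ε / 2 := by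
      have him : ∀ᶠ z in 𝓝 (τ : ℂ), max A₀ 0 < z.im :=
        Complex.continuous_im.continuousAt.eventually (eventually_gt_nhds (by
          show max A₀ 0 < (τ : ℂ).im
          rw [UpperHalfPlane.coe_im]
          have := τ.im_pos
          exact max_lt (by linarith) this))
      filter_upwards [hne, nhdsWithin_le_nhds him] with z hz hz'
      have hz0 : 0 < z.im := (le_max_right _ _).trans_lt hz'
      simp only [Function.comp_apply, ofComplex_apply_of_im_pos hz0, hBγ'] at hz ⊢
      refine hgood _ ?_ hz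
      show A₀ ≤ z.im
      exact ((le_max_left _ _).trans_lt hz').le
    have := le_of_tendsto (hg.norm.tendsto.mono_left nhdsWithin_le_nhds) hle
    simpa [UpperHalfPlane.ofComplex_apply] using this
  exact ⟨ModFun.IsCF.toForm ⟨hf, hinv, hzero⟩, A, B, hB, hAB, hfe'⟩

set_option maxHeartbeats 1000000 in
set_option synthInstance.maxHeartbeats 200000 in
/-- linear independence over `ℂ` and the lower bound -/
theorem genusFF_le_finrank_cuspForm [FiniteDimensional ℂ (CuspForm (Gamma0 N) 2)] :
    genusFF Qb ↥(modularFunctionFieldBar N) ≤ Module.finrank ℂ (CuspForm (Gamma0 N) 2) := by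
  classical
  haveI : Algebra.IsAlgebraic ℚ Qb := AlgebraicClosure.isAlgebraic ℚ
  let e : Qb →+* ℂ := (IsAlgClosed.lift : Qb →ₐ[ℚ] ℂ).toRingHom
  have hx := ModFun.transcendental_jBar N
  rw [genusFF_eq hx]
  set V := riemannRochSpace (Kd hx)
  have := finiteDimensional_rr (Kd hx)
  let bh := Module.finBasis Qb V
  choose f A B hB hAB hf using fun k => exists_cuspForm e (bh k).2
  have hli : LinearIndependent ℂ f := by
    rw [Fintype.linearIndependent_iff]
    intro l hl
    set C : Fin (Module.finrank Qb V) → MvPolynomial (DN N) Qb :=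
      fun k => A k * ∏ i ∈ Finset.univ.erase k, B i with hC
    -- vanishing as functions
    have hfun : ∀ τ, ∑ k, l k * theta e (C k) τ = 0 := by
      have hmd : MDiff (fun τ => ∑ k, l k * theta e (C k) τ) := by
        rw [show (fun τ => ∑ k, l k * theta e (C k) τ) = ∑ k, (fun _ => l k) * theta e (C k) by
          funext τ; simp]
        exact MDifferentiable.sum fun k _ => mdifferentiable_const.mul (mdiff_theta e _)
      have hJ : (fun τ => ∑ k, l k * theta e (C k) τ) * J2 = 0 := by
        funext τ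
        have hl' : ∑ k, l k * f k τ = 0 := by
          have h := congrFun (congrArg (fun g : CuspForm (Gamma0 N) 2 => (g : ℍ → ℂ)) hl) τ
          simpa [FunLike.coe_sum] using h
        rw [Pi.mul_apply, Pi.zero_apply, Finset.sum_mul]
        calc ∑ k, l k * theta e (C k) τ * J2 τ
            = ∑ k, (l k * f k τ) * (theta e (∏ i, B i) τ * ModularForm.discriminant τ) := by
              refine Finset.sum_congr rfl fun k _ => ?_
              rw [hC, map_mul, Pi.mul_apply, ← Finset.mul_prod_erase Finset.univ B (Finset.mem_univ k),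
                map_mul, Pi.mul_apply]
              linear_combination (-(l k * theta e (∏ i ∈ Finset.univ.erase k, B i) τ)) * hf k τ
          _ = 0 := by rw [← Finset.sum_mul, hl', zero_mul]
      rcases mdiff_mul_eq_zero hmd mdiff_J2 hJ with h0 | h0
      · exact congrFun h0
      · exfalso
        have h4 : MDiff ((E₄ : ℍ → ℂ) * (E₄ : ℍ → ℂ)) := mdiff_E4.mul mdiff_E4
        rcases mdiff_mul_eq_zero h4 mdiff_E6 h0 with h | h
        · rcases mdiff_mul_eq_zero mdiff_E4 mdiff_E4 h with h' | h' <;>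
          · have := tendsto_of_good (ModFun.isMF_levelOne E₄).good
            rw [E_qExpansion_coeff_zero _ ⟨2, rfl⟩, h'] at this
            exact one_ne_zero (tendsto_nhds_unique this tendsto_const_nhds)
        · have := tendsto_of_good (ModFun.isMF_levelOne E₆).good
          rw [E_qExpansion_coeff_zero _ ⟨3, rfl⟩, h] at this
          exact one_ne_zero (tendsto_nhds_unique this tendsto_const_nhds)
    -- as Laurent series
    have hser := (ModFun.transfer (fun d : DN N => (d : ℕ))
      (∑ k, MvPolynomial.C (l k) * MvPolynomial.map e (C k))).mpr (fun τ => by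
        rw [map_sum]
        simp only [map_mul, MvPolynomial.eval_C, MvPolynomial.eval_map]
        exact hfun τ)
    have hcm : ∀ P : MvPolynomial (DN N) Qb,
        MvPolynomial.aeval (fun d : DN N => coeffEmb ℂ (qExpand ℚ (d : ℕ) jq))
          (MvPolynomial.map e P) = coeffMap e (MvPolynomial.aeval genL P) := by
      intro P
      induction P using MvPolynomial.induction_on with
      | C a =>
          simp only [MvPolynomial.map_C, MvPolynomial.aeval_C,
            algebraMap_laurentSeries_eq_single, coeffMap_single]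
      | add p q hp hq => simp only [map_add, hp, hq]
      | mul_X p d hp =>
          simp only [map_mul, hp, MvPolynomial.map_X, MvPolynomial.aeval_X]
          congr 1
          rw [genL, coeffEmb, coeffEmb, coeffMap_coeffMap]
          exact coeffMap_congr (Subsingleton.elim _ _) _
    letI : Algebra Qb ℂ := e.toAlgebra
    intro k
    by_contra hk
    obtain ⟨φ, hφ⟩ : ∃ φ : ℂ →ₗ[Qb] Qb, φ (l k) ≠ 0 := by
      by_contra h
      push Not at h
      exact hk ((Module.forall_dual_apply_eq_zero_iff Qb (l k)).mp h)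
    have hz : ∑ i, φ (l i) • (bh i : ↥(modularFunctionFieldBar N)) = 0 := by
      have hP : ∑ i, φ (l i) • (MvPolynomial.aeval genL (C i) : LaurentSeries Qb) = 0 := by
        ext m
        have h0 := congrArg (fun s : LaurentSeries ℂ => s.coeff m) hser
        simp only [map_sum, map_mul, MvPolynomial.aeval_C, hcm,
          algebraMap_laurentSeries_eq_single, HahnSeries.coeff_sum, HahnSeries.coeff_single_zero_mul,
          coeffMap_coeff, HahnSeries.coeff_zero] at h0
        have h1 := congrArg φ h0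
        simp only [map_sum, map_zero] at h1
        rw [HahnSeries.coeff_sum, HahnSeries.coeff_zero, ← h1]
        refine Finset.sum_congr rfl fun i _ => ?_
        rw [HahnSeries.coeff_smul, smul_eq_mul]
        rw [show l i * e ((MvPolynomial.aeval genL (C i) : LaurentSeries Qb).coeff m)
          = ((MvPolynomial.aeval genL (C i) : LaurentSeries Qb).coeff m) • l i by
            rw [Algebra.smul_def, mul_comm]; rfl]
        rw [map_smul, smul_eq_mul, mul_comm]
      have hP' : (∑ i, φ (l i) • (bh i : ↥(modularFunctionFieldBar N))) * evF (∏ i, B i) = 0 := by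
        refine Subtype.ext ?_
        rw [Finset.sum_mul, AddSubmonoidClass.coe_finset_sum, ZeroMemClass.coe_zero, ← hP]
        refine Finset.sum_congr rfl fun i _ => ?_
        rw [← Finset.mul_prod_erase Finset.univ B (Finset.mem_univ i), map_mul, smul_mul_assoc,
          ← mul_assoc, hAB i, ← map_mul, ← coe_evF]
        simp only [hC, IntermediateField.coe_smul]
        ext m
        rw [Algebra.smul_def, algebraMap_laurentSeries_eq_single, HahnSeries.coeff_single_zero_mul]
        rfl
      refine (mul_eq_zero.mp hP').resolve_right ?_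
      rw [map_prod]
      exact Finset.prod_ne_zero_iff.mpr fun i _ => hB i
    have hz' : ∑ i, φ (l i) • bh i = 0 := Subtype.ext (by simpa using hz)
    exact hφ (Fintype.linearIndependent_iff.mp bh.linearIndependent (fun i => φ (l i)) hz' k)
  have h := hli.fintype_card_le_finrank
  simpa [genusX, ell, V] using h

end FLTAgent.RR
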