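import Fermat.Agent.RR.Kaehler

/-! The repartition `H¹` and `genusFF`. -/

set_option autoImplicit false
set_option linter.unusedSectionVars false

noncomputable section

open AlgebraicCurve WithZero

namespace FLTAgent.RR

variable {K F : Type*} [Field K] [Field F] [Algebra K F] [hF : FnField K F] [IsAlgClosed K]
  [CharZero K]

theorem mem_repartitionsOf' {D : Divisor K F} {α : ↥(repartitions K F)} :
    α ∈ repartitionsOf D ↔ ∀ v : Place K F, Bd v ((α : Place K F → F) v) (D v) := Iff.rfl

theorem exists_bound {α : Place K F → F} (hα : α ∈ repartitions K F) :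
    ∃ D : Divisor K F, ∀ v, Bd v (α v) (D v) := by
  classical
  have key : ∀ β : Place K F → F, {v : Place K F | ¬ Bd v (β v) 0}.Finite →
      ∃ D : Divisor K F, ∀ v, Bd v (β v) (D v) := fun β hβ => by
    refine ⟨Finsupp.onFinset hβ.toFinset (fun v => if Bd v (β v) 0 then 0 else -v.ord (β v))
      (fun v h => ?_), fun v => ?_⟩
    · rw [Set.Finite.mem_toFinset]
      intro hb
      exact h (if_pos hb)
    · show Bd v (β v) (if Bd v (β v) 0 then 0 else -v.ord (β v))
      split
      · assumption
      · exact bd_self
  induction hα using Algebra.adjoin_induction with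
  | mem β hβ =>
      refine key β ?_
      have hβ' : {v : Place K F | ¬ v.adicValuation (β v) ≤ 1}.Finite := hβ
      simpa [Bd, exp_zero] using hβ'
  | algebraMap r =>
      refine key _ ?_
      rcases eq_or_ne r 0 with rfl | hr
      · simp [Bd.zero]
      refine (finite_ord_ne (K := K) hr).subset fun v hv h0 => hv ?_
      show Bd v r 0
      rw [bd_iff_ord hr, h0]; simp
  | add β γ _ _ hb hc =>
      obtain ⟨D, hD⟩ := hb
      obtain ⟨E, hE⟩ := hc
      refine ⟨Finsupp.zipWith max (by simp) D E, fun v => ?_⟩
      rw [Finsupp.zipWith_apply]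
      exact ((hD v).mono (le_max_left _ _)).add ((hE v).mono (le_max_right _ _))
  | mul β γ _ _ hb hc =>
      obtain ⟨D, hD⟩ := hb
      obtain ⟨E, hE⟩ := hc
      exact ⟨D + E, fun v => (hD v).mul (hE v)⟩

open scoped Classical in
/-- the repartition `u` at `v`, `0` elsewhere -/
def pointRep (v : Place K F) (u : F) : ↥(repartitions K F) :=
  ⟨Pi.single v u, mem_repartitions_of_finite ((Set.finite_singleton v).subset fun w hw => by
    by_contra h
    have h' : w ≠ v := h
    simp [Pi.single_eq_of_ne h'] at hw)⟩

theorem pointRep_self (v : Place K F) (u : F) : (pointRep v u : Place K F → F) v = u := by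
  simp [pointRep]

open scoped Classical in
theorem pointRep_ne {v w : Place K F} (h : w ≠ v) (u : F) :
    (pointRep v u : Place K F → F) w = 0 := by
  show Pi.single (M := fun _ => F) v u w = 0
  exact Pi.single_eq_of_ne (M := fun _ => F) h u

/-- `R(D) + F` -/
abbrev WW (D : Divisor K F) : Submodule K ↥(repartitions K F) :=
  repartitionsOf D ⊔ principalRepartitions K F

theorem WW_step (D : Divisor K F) (v : Place K F) :
    (ell (D + Finsupp.single v 1) = ell D + 1 → WW (D + Finsupp.single v 1) = WW D) ∧
    ∃ δ : ↥(repartitions K F), WW (D + Finsupp.single v 1) = WW D ⊔ K ∙ δ ∧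
      (ell (D + Finsupp.single v 1) = ell D → δ ∉ WW D) ∧
      (ell (D + Finsupp.single v 1) = ell D ∨ ell (D + Finsupp.single v 1) = ell D + 1) := by
  classical
  set E := D + Finsupp.single v 1 with hE
  have hEv : E v = D v + 1 := by simp [E]
  have hEw : ∀ w, w ≠ v → E w = D w := fun w hw => by simp [E, Finsupp.single_eq_of_ne hw]
  have hDE : ∀ w, D w ≤ E w := fun w => by
    rcases eq_or_ne w v with rfl | h
    · omega
    · rw [hEw w h]
  obtain ⟨x, hx, -⟩ := hF.exists_transcendental
  obtain ⟨t, ht⟩ : ∃ t : F, v.ord t = 1 := by
    obtain ⟨ϖ, hϖ⟩ := IsDiscreteValuationRing.exists_irreducible v.toValuationSubring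
    exact ⟨ϖ, v.ord_coe_irreducible hϖ⟩
  have ht0 : t ≠ 0 := fun h => by simp [h] at ht
  set u := t ^ (-(D v + 1)) with hu
  have hu0 : u ≠ 0 := zpow_ne_zero _ ht0
  have huord : v.ord u = -(D v + 1) := by rw [hu, v.ord_zpow, ht, mul_one]
  set δ := pointRep v u
  have hδE : δ ∈ repartitionsOf E := mem_repartitionsOf'.mpr fun w => by
    rcases eq_or_ne w v with rfl | h
    · rw [pointRep_self, bd_iff_ord hu0, huord, hEv]
    · rw [pointRep_ne h]; exact Bd.zero
  have hle : repartitionsOf E ≤ repartitionsOf D ⊔ K ∙ δ := by
    intro α hα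
    rw [mem_repartitionsOf'] at hα
    obtain ⟨c, hc⟩ := (hasRes v).exists_sub_smul (hα v) hu0 (by rw [huord, hEv])
    rw [← sub_add_cancel α (c • δ)]
    refine Submodule.add_mem_sup (mem_repartitionsOf'.mpr fun w => ?_)
      (Submodule.smul_mem _ c (Submodule.mem_span_singleton_self δ))
    show Bd w ((α : Place K F → F) w - c • (δ : Place K F → F) w) (D w)
    rcases eq_or_ne w v with rfl | h
    · rw [pointRep_self]; exact hc.mono (by omega)
    · rw [pointRep_ne h, smul_zero, sub_zero, ← hEw w h]; exact hα w
  have hmono : repartitionsOf D ≤ repartitionsOf E := repartitionsOf_mono (Finsupp.le_def.mpr hDE)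
  have hWW : WW E = WW D ⊔ K ∙ δ := by
    refine le_antisymm (sup_le (hle.trans (sup_le (le_sup_of_le_left le_sup_left) le_sup_right))
      (le_sup_of_le_left le_sup_right)) (sup_le (sup_le_sup_right hmono _)
      ((Submodule.span_singleton_le_iff_mem _ _).mpr (Submodule.mem_sup_left hδE)))
  have hLL : riemannRochSpace D ≤ riemannRochSpace E := fun f hf w =>
    (hf w).trans (exp_le_exp.mpr (hDE w))
  have hcase : (riemannRochSpace E = riemannRochSpace D) ∨
      ∃ f, f ∈ riemannRochSpace E ∧ f ∉ riemannRochSpace D := by
    by_cases h : ∀ f, f ∈ riemannRochSpace E → f ∈ riemannRochSpace D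
    · exact Or.inl (le_antisymm h hLL)
    · push Not at h; exact Or.inr h
  have := finiteDimensional_rr E
  have hnew : ∀ f, f ∈ riemannRochSpace E → f ∉ riemannRochSpace D →
      ell E = ell D + 1 ∧ WW E = WW D := by
    intro f hf hf'
    constructor
    · have := finiteDimensional_rr D
      rw [riemannRochSpace_eq_boundedOn] at hf hf'
      have hstep := boundedOn_step (S := fun _ => True) (hasRes v) trivial
        (D := fun w => D w) (E := fun w => E w) hEv (fun w _ hw => hEw w hw) hf hf'
      rw [← riemannRochSpace_eq_boundedOn, ← riemannRochSpace_eq_boundedOn] at hstep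
      rw [← riemannRochSpace_eq_boundedOn] at hf'
      have hf0 : f ≠ 0 := fun h => hf' (h ▸ zero_mem _)
      have hfr := Submodule.finrank_sup_add_finrank_inf_eq (riemannRochSpace D) (K ∙ f)
      rw [← hstep, ((Submodule.disjoint_span_singleton' hf0).mpr hf').eq_bot, finrank_bot,
        finrank_span_singleton hf0] at hfr
      rw [ell, ell]; omega
    · rw [hWW]
      refine le_antisymm (sup_le le_rfl ((Submodule.span_singleton_le_iff_mem _ _).mpr ?_))
        le_sup_left
      have hfv : ¬ Bd v f (E v - 1) := fun h => hf' fun w => by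
        rcases eq_or_ne w v with rfl | hne
        · exact h.mono (by omega)
        · rw [← hEw w hne]; exact hf w
      obtain ⟨hf0, hford⟩ := ord_eq_of_bd (hf v) hfv
      obtain ⟨c, hc⟩ := (hasRes v).exists_sub_smul (f := u) (n := E v)
        (by rw [bd_iff_ord hu0, huord, hEv]) hf0 hford
      set cf : ↥(repartitions K F) := algebraMap F ↥(repartitions K F) (c • f)
      rw [← sub_add_cancel δ cf]
      refine Submodule.add_mem_sup (mem_repartitionsOf'.mpr fun w => ?_)
        ⟨c • f, rfl⟩
      show Bd w ((δ : Place K F → F) w - c • f) (D w)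
      rcases eq_or_ne w v with rfl | hne
      · rw [pointRep_self]; exact hc.mono (by omega)
      · rw [pointRep_ne hne, zero_sub, ← hEw w hne]
        exact ((show Bd w f (E w) from hf w).smul c).neg
  refine ⟨fun h => ?_, δ, hWW, fun h => ?_, ?_⟩
  · rcases hcase with he | ⟨f, hf, hf'⟩
    · rw [ell, ell, he] at h; omega
    · exact (hnew f hf hf').2
  · rcases hcase with he | ⟨f, hf, hf'⟩
    swap
    · have := (hnew f hf hf').1; omega
    intro hδ
    obtain ⟨β, hβ, γ, hγ, hsum⟩ := Submodule.mem_sup.mp hδ
    obtain ⟨g, hg⟩ := mem_principalRepartitions_iff.mp hγ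
    rw [mem_repartitionsOf'] at hβ
    have hval : ∀ w, (β : Place K F → F) w + g = (δ : Place K F → F) w := fun w => by
      rw [← hsum, Subalgebra.coe_add, Pi.add_apply, hg]
    have hgE : g ∈ riemannRochSpace E := fun w => by
      show Bd w g (E w)
      have e : g = (δ : Place K F → F) w - (β : Place K F → F) w := by rw [← hval]; ring
      rw [e]
      exact ((mem_repartitionsOf'.mp hδE) w).sub ((hβ w).mono (hDE w))
    rw [he] at hgE
    have h1 : Bd v ((β : Place K F → F) v + g) (D v) := (hβ v).add (hgE v)
    rw [hval, pointRep_self, bd_iff_ord hu0, huord] at h1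
    omega
  · rcases hcase with he | ⟨f, hf, hf'⟩
    · exact Or.inl (by rw [ell, ell, he])
    · exact Or.inr (hnew f hf hf').1

theorem WW_mono {D E : Divisor K F} (h : D ≤ E) : WW D ≤ WW E :=
  sup_le_sup_right (repartitionsOf_mono h) _

variable {x : F} (hx : Transcendental K x)

theorem WW_top {D : Divisor K F} (hD : 2 * (genusX hx : ℤ) - 2 < Divisor.degree D) :
    WW D = ⊤ := by
  classical
  rw [eq_top_iff]
  intro α _
  obtain ⟨E, hE⟩ := exists_bound α.2
  -- raise `D` one point at a time
  have key : ∀ (n : ℕ) (P : Divisor K F), (∀ w, 0 ≤ P w) → (Divisor.degree P).toNat = n →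
      WW (D + P) = WW D := by
    intro n
    induction n with
    | zero =>
        intro P hP hn
        have hdeg : Divisor.degree P ≤ 0 := by omega
        rw [degree_eq_sum] at hdeg
        have hP0 : P = 0 := by
          ext w
          by_contra hw
          have hw' : w ∈ P.support := Finsupp.mem_support_iff.mpr hw
          have h1 : P w ≤ ∑ v ∈ P.support, P v :=
            Finset.single_le_sum (fun i _ => hP i) hw'
          have h2 := hP w
          simp only [Finsupp.coe_zero, Pi.zero_apply] at hw
          omega
        rw [hP0, add_zero]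
    | succ n ih =>
        intro P hP hn
        obtain ⟨w, hw⟩ : ∃ w, 1 ≤ P w := by
          by_contra h
          push Not at h
          have : Divisor.degree P = 0 := by
            rw [degree_eq_sum]
            exact Finset.sum_eq_zero fun v _ => by have := h v; have := hP v; omega
          omega
        set P' := P - Finsupp.single w 1
        have hP' : ∀ u, 0 ≤ P' u := fun u => by
          rcases eq_or_ne u w with rfl | h
          · simp [P']; omega
          · simp [P', Finsupp.single_eq_of_ne h, hP u]
        have hdeg : Divisor.degree P' = Divisor.degree P - 1 := by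
          simp [P', Divisor.degree_single, deg_place]
        have hd' : 0 ≤ Divisor.degree P' := by
          rw [degree_eq_sum]; exact Finset.sum_nonneg fun u _ => hP' u
        have hih := ih P' hP' (by omega)
        have hPe : D + P = D + P' + Finsupp.single w 1 := by simp [P', add_assoc]
        rw [hPe, (WW_step (D + P') w).1 ?_, hih]
        have h1 := rr hx (D + P')
        have h2 := rr hx (D + P' + Finsupp.single w 1)
        rw [map_add, Divisor.degree_single, deg_place] at h2
        rw [map_add] at h1 h2
        rw [ell_of_degree_neg (D := Kd hx - (D + P')) (by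
          rw [map_sub, map_add, degree_Kd]; omega)] at h1
        rw [ell_of_degree_neg (D := Kd hx - (D + P' + Finsupp.single w 1)) (by
          rw [map_sub, map_add, map_add, degree_Kd, Divisor.degree_single, deg_place]; omega)] at h2
        push_cast at h1 h2
        omega
  set P := Finsupp.zipWith (fun d e => max (e - d) 0) (by simp) D E with hP
  rw [← key _ P (fun w => by simp [P, Finsupp.zipWith_apply]) rfl]
  refine Submodule.mem_sup_left (mem_repartitionsOf'.mpr fun w => (hE w).mono ?_)
  rw [Finsupp.add_apply, hP, Finsupp.zipWith_apply]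
  omega

theorem H1_finrank (D : Divisor K F) :
    FiniteDimensional K (H1 D) ∧
      (Module.finrank K (H1 D) : ℤ) = ell D - Divisor.degree D - 1 + genusX hx := by
  classical
  suffices H : ∀ (n : ℕ) (D : Divisor K F), (2 * (genusX hx : ℤ) - 1 - Divisor.degree D).toNat ≤ n →
      FiniteDimensional K (H1 D) ∧
        (Module.finrank K (H1 D) : ℤ) = ell D - Divisor.degree D - 1 + genusX hx from
    H _ D le_rfl
  intro n
  induction n with
  | zero =>
      intro D hn
      have htop := WW_top hx (D := D) (by omega)
      have : Subsingleton (H1 D) := Submodule.Quotient.subsingleton_iff.mpr htop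
      refine ⟨⟨⟨∅, Subsingleton.elim _ _⟩⟩, ?_⟩
      rw [Module.finrank_zero_of_subsingleton]
      have h1 := rr hx D
      rw [ell_of_degree_neg (D := Kd hx - D) (by rw [map_sub, degree_Kd]; omega)] at h1
      push_cast at h1 ⊢
      omega
  | succ n ih =>
      intro D hn
      obtain ⟨v, -⟩ := exists_zero hx
      obtain ⟨hstep, δ, hsup, hδ, hcases⟩ := WW_step D v
      have hdeg : Divisor.degree (D + Finsupp.single v 1) = Divisor.degree D + 1 := by
        simp [Divisor.degree_single, deg_place]
      obtain ⟨hfin, hfr⟩ := ih (D + Finsupp.single v 1) (by omega)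
      rcases hcases with h0 | h1
      swap
      · -- the space does not change
        let e := Submodule.quotEquivOfEq _ _ (hstep h1)
        refine ⟨Module.Finite.equiv e, ?_⟩
        rw [← e.finrank_eq, hfr, h1, hdeg]; push_cast; ring
      · set W := WW D
        set W' := WW (D + Finsupp.single v 1)
        have hle : W ≤ W' := hsup ▸ le_sup_left
        let π : H1 D →ₗ[K] H1 (D + Finsupp.single v 1) := Submodule.factor hle
        have hπ : Function.Surjective π := Submodule.factor_surjective hle
        have hker : LinearMap.ker π = K ∙ (Submodule.Quotient.mk δ : H1 D) := by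
          show LinearMap.ker (Submodule.mapQ W W' LinearMap.id hle) = _
          rw [Submodule.ker_mapQ, Submodule.comap_id, hsup, Submodule.map_sup,
            Submodule.mkQ_map_self, bot_sup_eq, Submodule.map_span, Set.image_singleton]
          rfl
        have hne : (Submodule.Quotient.mk δ : H1 D) ≠ 0 := fun h =>
          hδ h0 ((Submodule.Quotient.mk_eq_zero _).mp h)
        haveI : FiniteDimensional K (LinearMap.ker π) := by rw [hker]; infer_instance
        haveI : FiniteDimensional K (H1 D ⧸ LinearMap.ker π) :=
          Module.Finite.equiv (LinearMap.quotKerEquivOfSurjective π hπ).symm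
        have hfinD : FiniteDimensional K (H1 D) := Module.Finite.of_submodule_quotient (LinearMap.ker π)
        refine ⟨hfinD, ?_⟩
        have h := LinearMap.finrank_range_add_finrank_ker π
        rw [LinearMap.range_eq_top.mpr hπ, finrank_top, hker, finrank_span_singleton hne] at h
        rw [← h]; push_cast
        rw [hfr, h0, hdeg]; ring

theorem genusFF_eq : genusFF K F = genusX hx := by
  have h := (H1_finrank hx (0 : Divisor K F)).2
  rw [ell_zero, map_zero] at h
  rw [genusFF]
  omega

end FLTAgent.RR
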