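import Fermat.Agent.RR.Main

/-! Kähler differentials of a function field and their orders. -/

set_option autoImplicit false
set_option linter.unusedSectionVars false

noncomputable section

open AlgebraicCurve KaehlerDifferential Polynomial
open scoped TensorProduct

namespace FLTAgent.RR

variable {K F : Type*} [Field K] [Field F] [Algebra K F] [hF : FnField K F] [IsAlgClosed K]
  [CharZero K]

theorem exists_coord_equiv {x : F} (hx : Transcendental K x) :
    ∃ φ : Ω[F⁄K] ≃ₗ[F] F, φ (D K F x) = 1 := by
  refine with_chart hx fun hp _ _ => ?_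
  haveI : CharZero (RatFunc K) :=
    charZero_of_injective_algebraMap (algebraMap K (RatFunc K)).injective
  haveI : Algebra.FormallyEtale (RatFunc K) F := Algebra.FormallyEtale.of_isSeparable _ F
  haveI : Algebra.FormallyEtale K[X] (RatFunc K) :=
    Algebra.FormallyEtale.of_isLocalization (Rₘ := RatFunc K) (nonZeroDivisors K[X])
  haveI : Algebra.FormallyEtale K[X] F := Algebra.FormallyEtale.comp K[X] (RatFunc K) F
  let e := (KaehlerDifferential.tensorKaehlerEquivOfFormallyEtale K K[X] F).symm.trans
    ((TensorProduct.AlgebraTensorModule.congr (LinearEquiv.refl F F)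
      (KaehlerDifferential.polynomialEquiv K)).trans
      (TensorProduct.AlgebraTensorModule.rid K[X] F F))
  refine ⟨e, ?_⟩
  have : D K F x = D K F (algebraMap K[X] F Polynomial.X) := by rw [hp, Polynomial.aeval_X]
  rw [this]
  simp [e, KaehlerDifferential.tensorKaehlerEquivOfFormallyEtale_symm_D_algebraMap]

theorem D_ne_zero' {x : F} (hx : Transcendental K x) : D K F x ≠ 0 := by
  obtain ⟨φ, hφ⟩ := exists_coord_equiv hx
  intro h; rw [h, map_zero] at hφ; exact zero_ne_one hφ

/-- the coordinate of `d f` relative to `d x` -/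
def der {x : F} (hx : Transcendental K x) (f : F) : F :=
  (exists_coord_equiv hx).choose (D K F f)

section der

variable {x : F} (hx : Transcendental K x)

theorem der_smul (f : F) : der hx f • D K F x = D K F f := by
  have h := (exists_coord_equiv hx).choose_spec
  set φ := (exists_coord_equiv hx).choose
  apply φ.injective
  rw [map_smul, h, smul_eq_mul, mul_one]; rfl

theorem der_self : der hx x = 1 := (exists_coord_equiv hx).choose_spec

theorem der_add (f g : F) : der hx (f + g) = der hx f + der hx g := by simp [der]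

theorem der_sub (f g : F) : der hx (f - g) = der hx f - der hx g := by simp [der]

theorem der_mul (f g : F) : der hx (f * g) = f * der hx g + g * der hx f := by simp [der]

theorem der_const (c : K) : der hx (algebraMap K F c) = 0 := by simp [der]

theorem der_sum {ι : Type*} (s : Finset ι) (f : ι → F) :
    der hx (∑ i ∈ s, f i) = ∑ i ∈ s, der hx (f i) := by simp [der]

theorem der_aeval (p : K[X]) (z : F) :
    der hx (Polynomial.aeval z p) = Polynomial.aeval z (derivative p) * der hx z := by
  simp [der, (D K F).map_aeval]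

theorem der_chain {z : F} (hz : Transcendental K z) (f : F) :
    der hx f = der hz f * der hx z := by
  have h := der_smul hz f
  show (exists_coord_equiv hx).choose (D K F f) = _
  rw [← h, map_smul, smul_eq_mul]; rfl

theorem der_div {a s : F} (hs : s ≠ 0) :
    der hx (a / s) = (der hx a - a / s * der hx s) / s := by
  have h := der_mul hx (a / s) s
  rw [div_mul_cancel₀ a hs] at h
  rw [h]; field_simp; ring

end der

/-- the derivative is regular at a place, for a uniformizer -/
theorem der_regular {t : F} (v : Place K F) (ht : v.ord t = 1) :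
    ∀ f : F, Bd v f 0 → Bd v (der (transcendental_of_ord_ne_zero (x := t) (v := v) (by omega)) f) 0 := by
  classical
  set htt := transcendental_of_ord_ne_zero (x := t) (v := v) (by omega)
  have ht0 : t ≠ 0 := fun h => by simp [h] at ht
  obtain ⟨z, hz, hvz⟩ := exists_chart v
  obtain ⟨b, hb⟩ := exists_latBasis hz (0 : Divisor K F)
  have hzv : ∀ i, Bd v (b i) 0 := fun i => by simpa using hb.mem i v hvz
  -- a uniform bound
  obtain ⟨M, hM⟩ : ∃ M : ℕ, ∀ f : F, Bd v f 0 → Bd v (der htt f) M := by
    refine ⟨(-v.ord (der htt z)).toNat + ∑ i, (-v.ord (der htt (b i))).toNat, ?_⟩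
    set M := (-v.ord (der htt z)).toNat + ∑ i, (-v.ord (der htt (b i))).toNat with hMdef
    have hA : ∀ a : F, a ∈ MM z (0 : Divisor K F) → Bd v (der htt a) M := by
      intro a ha
      obtain ⟨p, rfl⟩ := (hb a).mp ha
      rw [der_sum]
      refine Bd.sum _ _ fun i _ => ?_
      rw [der_mul, der_aeval]
      refine Bd.add ?_ ?_
      · refine ((bd_aeval hvz (p i)).mul (bd_self (v := v) (f := der htt (b i)))).mono ?_
        have h1 : (-v.ord (der htt (b i))).toNat ≤ ∑ i, (-v.ord (der htt (b i))).toNat :=
          Finset.single_le_sum (f := fun i => (-v.ord (der htt (b i))).toNat)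
            (fun i _ => Nat.zero_le _) (Finset.mem_univ i)
        have := Int.self_le_toNat (-v.ord (der htt (b i)))
        omega
      · refine ((hzv i).mul ((bd_aeval hvz _).mul (bd_self (v := v) (f := der htt z)))).mono ?_
        have := Int.self_le_toNat (-v.ord (der htt z))
        omega
    intro f hf
    -- write `f` as a fraction
    have hc := ord_res_pos hz hvz
    obtain ⟨q, hq0, hqf, -⟩ := exists_mul_mem hz (0 : Divisor K F) f
    obtain ⟨a, s, hs0, hs1, ha, hs, hfas⟩ : ∃ a s : F, s ≠ 0 ∧ v.ord s = 0 ∧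
        a ∈ MM z (0 : Divisor K F) ∧ s ∈ MM z (0 : Divisor K F) ∧ f = a / s := by
      refine with_chart hz fun hp _ _ => ?_
      have hzv' : Chart.xv K F = z := by show algebraMap K[X] F Polynomial.X = z; simp [hp]
      have hfin : Chart.Fin' v := by show Bd v (Chart.xv K F) 0; rwa [hzv']
      obtain ⟨a, s, hs, hfs⟩ := Chart.exists_frac_of_bd hfin hf
      obtain ⟨hs0, hs1⟩ := Chart.ord_eq_zero_of_not_mem_center hs
      have hmem : ∀ c : Chart.A K F, (c : F) ∈ MM z (0 : Divisor K F) := fun c w hw => by
        show Bd w (c : F) 0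
        exact Chart.A_bd (by show Bd w (Chart.xv K F) 0; rwa [hzv']) c
      exact ⟨a, s, hs0, hs1, hmem a, hmem s, by rw [← hfs, mul_div_cancel_right₀ _ hs0]⟩
    subst hfas
    rw [der_div htt hs0, bd_div_iff hs0, hs1, sub_zero]
    exact (hA a ha).sub (by simpa using hf.mul (hA s hs))
  induction M with
  | zero => simpa using hM
  | succ M ih =>
      refine ih fun f hf => ?_
      obtain ⟨c, hc⟩ := hasRes v f hf
      have hg : Bd v ((f - algebraMap K F c) / t) 0 := (bd_div_iff ht0).mpr (by simpa [ht] using hc)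
      have e : f = algebraMap K F c + t * ((f - algebraMap K F c) / t) := by
        rw [mul_div_cancel₀ _ ht0]; ring
      rw [e, der_add, der_const, zero_add, der_mul, der_self, mul_one]
      refine Bd.add ?_ (hg.mono (by omega))
      refine ((bd_self (v := v) (f := t)).mul (hM _ hg)).mono ?_
      rw [ht]; push_cast; omega

/-- the private uniformizer -/
theorem exists_dCoord (v : Place K F) : ∃ t : F, v.ord t = 1 ∧ v.dCoord = D K F t :=
  ⟨((IsDiscreteValuationRing.exists_irreducible v.toValuationSubring).choose : F),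
    v.ord_coe_irreducible
      (IsDiscreteValuationRing.exists_irreducible v.toValuationSubring).choose_spec, rfl⟩

theorem dCoordGenerates' (v : Place K F) : v.DCoordGenerates := by
  obtain ⟨t, ht, hd⟩ := exists_dCoord v
  have htt := transcendental_of_ord_ne_zero (x := t) (v := v) (by omega)
  obtain ⟨φ, hφ⟩ := exists_coord_equiv htt
  refine ⟨?_⟩
  rw [hd, eq_top_iff]
  intro ω _
  refine Submodule.mem_span_singleton.mpr ⟨φ ω, ?_⟩
  apply φ.injective
  rw [map_smul, hφ, smul_eq_mul, mul_one]

theorem nontrivial_kaehler' : Nontrivial Ω[F⁄K] := by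
  obtain ⟨x, hx, -⟩ := hF.exists_transcendental
  exact nontrivial_of_ne _ _ (D_ne_zero' hx)

/-- the key local computation -/
theorem ord_der {t : F} (v : Place K F) (ht : v.ord t = 1) (htt : Transcendental K t)
    {z : F} (e : ℕ) (he : 1 ≤ e) (hz : z ≠ 0) (hze : v.ord z = e) :
    der htt z ≠ 0 ∧ v.ord (der htt z) = (e : ℤ) - 1 := by
  have ht0 : t ≠ 0 := fun h => by simp [h] at ht
  obtain ⟨u, hu0, hu, rfl⟩ : ∃ u : F, u ≠ 0 ∧ v.ord u = 0 ∧ z = u * t ^ e := by
    refine ⟨z / t ^ e, div_ne_zero hz (pow_ne_zero _ ht0), ?_, (div_mul_cancel₀ _ (pow_ne_zero _ ht0)).symm⟩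
    rw [div_eq_mul_inv, v.ord_mul hz (inv_ne_zero (pow_ne_zero _ ht0)), v.ord_inv, ord_pow, hze, ht]
    omega
  have hu' : Bd v (der htt u) 0 := der_regular v ht u ((bd_iff_ord hu0).mpr (by omega))
  have hpow : der htt (t ^ e) = (e : F) * t ^ (e - 1) := by
    have := der_aeval htt (Polynomial.X ^ e) t
    simpa [der_self, Polynomial.derivative_X_pow, map_natCast] using this
  rw [der_mul, hpow]
  have he0 : (e : F) = algebraMap K F (e : K) := (map_natCast _ e).symm
  have heK : (e : K) ≠ 0 := Nat.cast_ne_zero.mpr (by omega)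
  have hmain : u * ((e : F) * t ^ (e - 1)) ≠ 0 :=
    mul_ne_zero hu0 (mul_ne_zero (by rw [he0]; exact (_root_.map_ne_zero _).mpr heK)
      (pow_ne_zero _ ht0))
  have hord : v.ord (u * ((e : F) * t ^ (e - 1))) = (e : ℤ) - 1 := by
    rw [v.ord_mul hu0 (mul_ne_zero (by rw [he0]; exact (_root_.map_ne_zero _).mpr heK)
      (pow_ne_zero _ ht0)), v.ord_mul (by rw [he0]; exact (_root_.map_ne_zero _).mpr heK)
      (pow_ne_zero _ ht0), hu, he0, ord_algebraMap, ord_pow, ht]
    omega
  have hsmall : Bd v (t ^ e * der htt u) (-(e : ℤ)) := by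
    refine ((bd_self (v := v) (f := t ^ e)).mul hu').mono ?_
    rw [ord_pow, ht]; omega
  rw [bd_iff] at hsmall
  have h := ord_add_eq v hmain (hsmall.imp id fun h => by rw [hord]; omega)
  exact ⟨h.1, by rw [h.2, hord]⟩

theorem differentialCoeff_eq {v : Place K F} {t : F} (hd : v.dCoord = D K F t)
    (htt : Transcendental K t) (f : F) : v.differentialCoeff (D K F f) = der htt f :=
  haveI := dCoordGenerates' v
  haveI := nontrivial_kaehler' (K := K) (F := F)
  v.differentialCoeff_unique (by rw [hd]; exact (der_smul htt f).symm)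

theorem ordDifferential_D_eq {x : F} (hx : Transcendental K x) (v : Place K F) :
    v.differentialCoeff (D K F x) ≠ 0 ∧ v.ordDifferential (D K F x) = kd x v := by
  obtain ⟨t, ht, hd⟩ := exists_dCoord v
  have htt := transcendental_of_ord_ne_zero (x := t) (v := v) (by omega)
  unfold Place.ordDifferential
  rw [differentialCoeff_eq hd htt]
  by_cases hv : Bd v x 0
  · have hc := ord_res_pos hx hv
    obtain ⟨e, he⟩ := Int.eq_ofNat_of_zero_le hc.le
    have h := ord_der v ht htt e (by omega) (sub_const_ne_zero hx _) he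
    rw [der_sub, der_const, sub_zero] at h
    rw [kd_of_zero hc]
    exact ⟨h.1, by rw [h.2, he]⟩
  · have hneg := ord_neg_of_not_bd hv
    have hx0 := ne_zero_of_transcendental hx
    obtain ⟨e, he⟩ := Int.eq_ofNat_of_zero_le (show 0 ≤ -v.ord x by omega)
    obtain ⟨h1, h2⟩ := ord_der v ht htt e (by omega) (inv_ne_zero hx0)
      (show v.ord x⁻¹ = e by rw [v.ord_inv, he])
    have hinv : der htt x = -(x ^ 2 * der htt x⁻¹) := by
      have h := der_mul htt x x⁻¹
      rw [mul_inv_cancel₀ hx0, show (1 : F) = algebraMap K F 1 from (map_one _).symm,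
        der_const] at h
      have h' : x * (x * der htt x⁻¹ + x⁻¹ * der htt x) = 0 := by rw [← h, mul_zero]
      field_simp at h'
      simp only [one_div] at h'
      linear_combination h'
    rw [hinv, ord_neg, kd_of_pole hneg]
    refine ⟨neg_ne_zero.mpr (mul_ne_zero (pow_ne_zero _ hx0) h1), ?_⟩
    rw [v.ord_mul (pow_ne_zero _ hx0) h1, ord_pow, h2]
    omega

theorem ordDifferential_smul_D' {x : F} (hx : Transcendental K x) {h : F} (hh : h ≠ 0)
    (v : Place K F) :
    v.ordDifferential (h • D K F x) = v.ord h + kd x v := by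
  haveI := dCoordGenerates' v
  haveI := nontrivial_kaehler' (K := K) (F := F)
  rw [v.ordDifferential_smul hh (ordDifferential_D_eq hx v).1, (ordDifferential_D_eq hx v).2]

theorem exists_eq_smul_D {x : F} (hx : Transcendental K x) (ω : Ω[F⁄K]) :
    ∃ h : F, ω = h • D K F x := by
  obtain ⟨φ, hφ⟩ := exists_coord_equiv hx
  exact ⟨φ ω, φ.injective (by rw [map_smul, hφ, smul_eq_mul, mul_one])⟩

theorem hasCanonicalDivisor' : HasCanonicalDivisor (K := K) (F := F) := ⟨fun ω hω => by
  obtain ⟨x, hx, -⟩ := hF.exists_transcendental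
  obtain ⟨h, rfl⟩ := exists_eq_smul_D hx ω
  have hh : h ≠ 0 := fun h0 => hω (by simp [h0])
  obtain ⟨E, hE⟩ := exists_divisor (K := K) hh
  exact ⟨E + Kd hx, fun v => by
    rw [Finsupp.add_apply, hE, Kd_apply, ordDifferential_smul_D' hx hh]⟩⟩

theorem isCurveOver' : IsCurveOver K F :=
  { hasPrincipalDivisors (K := K) (F := F) with
    finiteResidue := fun v => (hasRes v).finite
    kaehler_free_rank_one := by
      obtain ⟨x, hx, -⟩ := hF.exists_transcendental
      obtain ⟨φ, -⟩ := exists_coord_equiv hx
      exact ⟨Module.Free.of_equiv φ.symm, by rw [φ.finrank_eq, Module.finrank_self]⟩ }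

/-! ### invariance under linear equivalence -/

theorem ell_add_principal (D : Divisor K F) {h : F} (hh : h ≠ 0) {E : Divisor K F}
    (hE : ∀ v, E v = v.ord h) : ell (D + E) = ell D := by
  let e : F ≃ₗ[K] F := LinearEquiv.ofLinear (LinearMap.mulLeft K h) (LinearMap.mulLeft K h⁻¹)
    (by ext; simp [← mul_assoc, mul_inv_cancel₀ hh])
    (by ext; simp [← mul_assoc, inv_mul_cancel₀ hh])
  have : riemannRochSpace D = (riemannRochSpace (D + E)).map e.toLinearMap := by
    ext f
    simp only [riemannRochSpace_eq_boundedOn, Submodule.mem_map, mem_boundedOn, true_implies]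
    have hiff : ∀ (g : F) v, Bd v (h * g) (D v) ↔ Bd v g ((D + E : Divisor K F) v) := fun g v => by
      rw [mul_comm, bd_mul_iff hh, Finsupp.add_apply, hE]
    constructor
    · intro hf
      exact ⟨h⁻¹ * f, fun v => (hiff _ v).mp (by rw [← mul_assoc, mul_inv_cancel₀ hh, one_mul]; exact hf v),
        by simp [e, ← mul_assoc, mul_inv_cancel₀ hh]⟩
    · rintro ⟨g, hg, rfl⟩ v
      exact (hiff g v).mpr (hg v)
  rw [ell, ell, this, LinearEquiv.finrank_map_eq]

theorem genusX_eq {x y : F} (hx : Transcendental K x) (hy : Transcendental K y) :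
    genusX hx = genusX hy := by
  obtain ⟨h, hh⟩ := exists_eq_smul_D hy (D K F x)
  have h0 : h ≠ 0 := fun h0 => D_ne_zero' hx (by simp [hh, h0])
  obtain ⟨E, hE⟩ := exists_divisor (K := K) h0
  have : Kd hx = Kd hy + E := by
    ext v
    rw [Finsupp.add_apply, Kd_apply, Kd_apply, hE, add_comm,
      ← ordDifferential_smul_D' hy h0, ← hh, (ordDifferential_D_eq hx v).2]
  show ell (Kd hx) = ell (Kd hy)
  rw [this, ell_add_principal _ h0 hE]

end FLTAgent.RR
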