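import Fermat.Agent.RR.Global

/-! Lattices over `K[x]`: bases, reduced bases, trace duality. -/

set_option autoImplicit false
set_option linter.unusedSectionVars false

noncomputable section

open AlgebraicCurve Polynomial

namespace FLTAgent.RR

variable {K F : Type*} [Field K] [Field F] [Algebra K F]

/-- functions bounded by `D` away from the poles of `x` -/
def MM (x : F) (D : Place K F → ℤ) : Submodule K F := boundedOn (fun v => Bd v x 0) D

open scoped Classical in
/-- the value of `x` at `v` (junk `0` at poles) -/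
def res (x : F) (v : Place K F) : K :=
  if h : ∃ c : K, Bd v (x - algebraMap K F c) (-1) then h.choose else 0

variable [hF : FnField K F] [IsAlgClosed K] [CharZero K]

theorem res_spec {x : F} {v : Place K F} (h : Bd v x 0) :
    Bd v (x - algebraMap K F (res x v)) (-1) := by
  have h' := hasRes v x h
  rw [res, dif_pos h']
  exact h'.choose_spec

theorem sub_const_ne_zero {x : F} (hx : Transcendental K x) (c : K) : x - algebraMap K F c ≠ 0 :=
  ne_zero_of_transcendental (transcendental_sub_const hx c)

theorem ord_res_pos {x : F} (hx : Transcendental K x) {v : Place K F} (h : Bd v x 0) :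
    0 < v.ord (x - algebraMap K F (res x v)) := by
  have := (bd_iff_ord (sub_const_ne_zero hx _)).mp (res_spec h)
  omega

theorem bd_zero_of_ord_pos {x : F} {v : Place K F} {c : K}
    (h : 0 < v.ord (x - algebraMap K F c)) : Bd v x 0 := by
  have h1 : Bd v (x - algebraMap K F c) 0 := bd_iff.mpr (Or.inr (by omega))
  simpa using h1.add (Bd.of_algebraMap (v := v) c)

theorem res_eq_of_ord_pos {x : F} {v : Place K F} {c : K}
    (h : 0 < v.ord (x - algebraMap K F c)) : res x v = c :=
  HasRes.res_unique (res_spec (bd_zero_of_ord_pos h)) (bd_iff.mpr (Or.inr (by omega)))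

theorem ord_neg_of_not_bd {x : F} {v : Place K F} (h : ¬ Bd v x 0) : v.ord x < 0 := by
  simpa using (not_bd_iff.mp h).2

theorem not_bd_of_ord_neg {x : F} {v : Place K F} (h : v.ord x < 0) : ¬ Bd v x 0 :=
  not_bd_iff.mpr ⟨fun h0 => by simp [h0] at h, by simpa using h⟩

/-- a polynomial killing given finite places, nonzero at `c₀` -/
theorem exists_killing {x : F} (T : Finset (Place K F)) (hT : ∀ v ∈ T, Bd v x 0) (N : ℕ) :
    ∃ q : K[X], q ≠ 0 ∧ (∀ v ∈ T, Bd v (Polynomial.aeval x q) (-(N : ℤ))) ∧
      ∀ c : K, (∀ v ∈ T, res x v ≠ c) → q.eval c ≠ 0 := by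
  classical
  refine ⟨∏ v ∈ T, (Polynomial.X - Polynomial.C (res x v)) ^ N, ?_, ?_, ?_⟩
  · exact Finset.prod_ne_zero_iff.mpr fun v _ => pow_ne_zero _ (Polynomial.X_sub_C_ne_zero _)
  · intro v hv
    rw [← Finset.mul_prod_erase _ _ hv, map_mul, map_pow, map_sub, Polynomial.aeval_X,
      Polynomial.aeval_C]
    exact (((res_spec (hT v hv)).pow N).mul (bd_aeval (hT v hv) _)).mono (by omega)
  · intro c hc
    rw [Polynomial.eval_prod]
    refine Finset.prod_ne_zero_iff.mpr fun v hv => ?_
    rw [Polynomial.eval_pow]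
    exact pow_ne_zero _ (by simpa [sub_eq_zero] using (hc v hv).symm)

/-- multiply `f` into `MM x D` by a polynomial not vanishing at chosen points -/
theorem exists_mul_mem {x : F} (hx : Transcendental K x) (D : Divisor K F) (f : F) :
    ∃ q : K[X], Polynomial.aeval x q ≠ 0 ∧ Polynomial.aeval x q * f ∈ MM x D ∧
      ∀ c : K, (∀ v : Place K F, 0 < v.ord (x - algebraMap K F c) → Bd v f (D v)) →
        q.eval c ≠ 0 := by
  classical
  rcases eq_or_ne f 0 with rfl | hf
  · exact ⟨1, by simp, by simp, fun c _ => by simp⟩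
  have hfin : {v : Place K F | Bd v x 0 ∧ ¬ Bd v f (D v)}.Finite := by
    refine ((finite_ord_ne (K := K) hf).union D.support.finite_toSet).subset fun v hv => ?_
    by_contra h
    simp only [Set.mem_union, Set.mem_ofPred_eq, Finset.mem_coe, Finsupp.mem_support_iff,
      not_or, not_not] at h
    exact hv.2 ((bd_iff_ord hf).mpr (by omega))
  set T := hfin.toFinset with hT
  obtain ⟨q, hq0, hq1, hq2⟩ := exists_killing T
    (fun v hv => ((Set.Finite.mem_toFinset _).mp hv).1)
    (∑ v ∈ T, (-D v - v.ord f).toNat)
  refine ⟨q, fun h => hq0 (transcendental_iff.mp hx q h), ?_, fun c hc => hq2 c ?_⟩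
  · intro v hv
    by_cases hvT : v ∈ T
    · refine ((hq1 v hvT).mul (bd_self (v := v) (f := f))).mono ?_
      have h1 : (-D v - v.ord f).toNat ≤ ∑ v ∈ T, (-D v - v.ord f).toNat :=
        Finset.single_le_sum (f := fun v => (-D v - v.ord f).toNat)
          (fun i _ => Nat.zero_le _) hvT
      have := Int.self_le_toNat (-D v - v.ord f)
      omega
    · rw [hT, Set.Finite.mem_toFinset] at hvT
      have hb : Bd v f (D v) := by by_contra h; exact hvT ⟨hv, h⟩
      simpa using (bd_aeval hv q).mul hb
  · rintro v hv rfl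
    obtain ⟨h1, h2⟩ := (Set.Finite.mem_toFinset _).mp hv
    exact h2 (hc v (ord_res_pos hx h1))

section Chart

/-- existence of a spanning family of `MM x D` of the right size -/
theorem exists_generators {x : F} (hx : Transcendental K x) (D : Divisor K F) :
    ∃ e : Fin (ndeg K x) → F, ∀ f : F, f ∈ MM x D ↔
      ∃ p : Fin (ndeg K x) → K[X], f = ∑ i, Polynomial.aeval x (p i) * e i := by
  classical
  refine with_chart hx fun hp _ hn => ?_
  let M : Submodule K[X] F :=
    { carrier := MM x D
      zero_mem' := zero_mem (MM x D)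
      add_mem' := fun h h' => (MM x D).add_mem h h'
      smul_mem' := fun p f hf v hv => by
        rw [Algebra.smul_def, hp]
        simpa using (bd_aeval hv p).mul (hf v hv) }
  have hM : ∀ f, f ∈ M ↔ f ∈ MM x D := fun _ => Iff.rfl
  have hxv : Chart.xv K F = x := by show algebraMap K[X] F Polynomial.X = x; simp [hp]
  -- embed `M` in the integral closure
  obtain ⟨s, hs0, hs1, -⟩ := exists_killing (x := x) (D.support.filter fun v => Bd v x 0)
    (fun v hv => (Finset.mem_filter.mp hv).2) (∑ v ∈ D.support, (D v).toNat)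
  have hint : ∀ f ∈ M, IsIntegral K[X] (s • f) := fun f hf => Chart.mem_A_of_bd fun v hv => by
    have hv' : Bd v x 0 := by rw [← hxv]; exact hv
    rw [Algebra.smul_def, hp]
    by_cases hvD : v ∈ D.support
    · refine ((hs1 v (Finset.mem_filter.mpr ⟨hvD, hv'⟩)).mul (hf v hv')).mono ?_
      have h1 : (D v).toNat ≤ ∑ v ∈ D.support, (D v).toNat :=
        Finset.single_le_sum (f := fun v => (D v).toNat) (fun i _ => Nat.zero_le _) hvD
      have := Int.self_le_toNat (D v)
      omega
    · refine ((bd_aeval hv' s).mul (hf v hv')).mono ?_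
      rw [Finsupp.notMem_support_iff.mp hvD]; simp
  let emb : M →ₗ[K[X]] Chart.A K F :=
    { toFun := fun f => ⟨s • (f : F), hint f f.2⟩
      map_add' := fun f g => Subtype.ext (smul_add s (f : F) g)
      map_smul' := fun c f => Subtype.ext (smul_comm s c (f : F)) }
  have hemb : Function.Injective emb := fun f g h => by
    apply Subtype.ext
    exact smul_right_injective F hs0 (congrArg Subtype.val h)
  have : Module.Finite K[X] M := Module.Finite.of_injective emb hemb
  let b := Module.Free.chooseBasis K[X] M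
  set v₀ : Module.Free.ChooseBasisIndex K[X] M → F := fun i => (b i : F)
  have hli : LinearIndependent (RatFunc K) v₀ :=
    (LinearIndependent.iff_fractionRing (R := K[X]) (K := RatFunc K)).mp
      (b.linearIndependent.map' M.subtype (Submodule.ker_subtype M))
  have hsp : ⊤ ≤ Submodule.span (RatFunc K) (Set.range v₀) := by
    intro f _
    obtain ⟨q, hq0, hqm, -⟩ := exists_mul_mem hx D f
    have hmem : algebraMap K[X] F q * f ∈ Submodule.span (RatFunc K) (Set.range v₀) := by
      have := b.sum_repr ⟨algebraMap K[X] F q * f, by rw [hM, hp]; exact hqm⟩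
      have h' := congrArg Subtype.val this
      simp only [AddSubmonoidClass.coe_finset_sum, Submodule.coe_smul] at h'
      rw [← h']
      refine Submodule.sum_mem _ fun i _ => ?_
      rw [← IsScalarTower.algebraMap_smul (RatFunc K)]
      exact Submodule.smul_mem _ _ (Submodule.subset_span ⟨i, rfl⟩)
    rw [IsScalarTower.algebraMap_apply K[X] (RatFunc K) F, ← Algebra.smul_def] at hmem
    exact (Submodule.smul_mem_iff _ (fun h0 => hq0 (by
      rw [← hp, IsScalarTower.algebraMap_apply K[X] (RatFunc K) F, h0, map_zero]))).mp hmem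
  have hcard : Fintype.card (Module.Free.ChooseBasisIndex K[X] M) = ndeg K x := by
    rw [← hn, Module.finrank_eq_card_basis (Module.Basis.mk hli hsp)]
  let σ := Fintype.equivFinOfCardEq hcard
  refine ⟨fun i => v₀ (σ.symm i), fun f => ⟨fun hf => ?_, ?_⟩⟩
  · refine ⟨fun i => b.repr ⟨f, hf⟩ (σ.symm i), ?_⟩
    have h' := congrArg Subtype.val (b.sum_repr ⟨f, hf⟩)
    simp only [AddSubmonoidClass.coe_finset_sum, Submodule.coe_smul] at h'
    conv_lhs => rw [← h', ← Equiv.sum_comp σ.symm]
    exact Finset.sum_congr rfl fun i _ => by rw [Algebra.smul_def, hp]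
  · rintro ⟨p, rfl⟩
    refine Submodule.sum_mem _ fun i _ => ?_
    rw [← hM, ← hp, ← Algebra.smul_def]
    exact M.smul_mem _ (b (σ.symm i)).2

end Chart

/-- a polynomial as an element of `K(x)` -/
def polyKK (x : F) (p : K[X]) : KK K x :=
  ⟨Polynomial.aeval x p, by
    rw [← IntermediateField.AdjoinSimple.coe_gen K x, IntermediateField.aeval_coe]
    exact SetLike.coe_mem _⟩

theorem coe_polyKK (x : F) (p : K[X]) : ((polyKK x p : KK K x) : F) = Polynomial.aeval x p := rfl

theorem KK_smul (x : F) (a : KK K x) (f : F) : a • f = (a : F) * f := rfl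

theorem polyKK_smul (x : F) (p : K[X]) (f : F) : polyKK x p • f = Polynomial.aeval x p * f := rfl

theorem repr_sum {x : F} {n : ℕ} (b : Module.Basis (Fin n) (KK K x) F) (p : Fin n → K[X]) (i) :
    (b.repr (∑ j, Polynomial.aeval x (p j) * b j) i : F) = Polynomial.aeval x (p i) := by
  simp only [← polyKK_smul]
  rw [b.repr_sum_self]
  rfl

theorem poly_indep {x : F} (hx : Transcendental K x) {n : ℕ}
    (b : Module.Basis (Fin n) (KK K x) F) {p q : Fin n → K[X]}
    (h : ∑ j, Polynomial.aeval x (p j) * b j = ∑ j, Polynomial.aeval x (q j) * b j) : p = q := by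
  funext i
  have h' := congrArg (fun f => (b.repr f i : F)) h
  simp only [repr_sum] at h'
  exact transcendental_iff_injective.mp hx h'

/-- `b` is a basis of the lattice `MM x D` -/
def IsLatBasis (x : F) (D : Place K F → ℤ) {n : ℕ} (b : Module.Basis (Fin n) (KK K x) F) : Prop :=
  ∀ f : F, f ∈ MM x D ↔ ∃ p : Fin n → K[X], f = ∑ i, Polynomial.aeval x (p i) * b i

theorem IsLatBasis.mem {x : F} {D : Place K F → ℤ} {n : ℕ}
    {b : Module.Basis (Fin n) (KK K x) F} (hb : IsLatBasis x D b) (i : Fin n) :
    b i ∈ MM x D := by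
  classical
  exact (hb _).mpr ⟨fun j => if j = i then 1 else 0, by
    simp [apply_ite (Polynomial.aeval x), Finset.sum_ite_eq']⟩

theorem exists_basis_of_generators {x : F} (hx : Transcendental K x) (D : Divisor K F)
    (e : Fin (ndeg K x) → F)
    (he : ∀ f : F, f ∈ MM x D ↔
      ∃ p : Fin (ndeg K x) → K[X], f = ∑ i, Polynomial.aeval x (p i) * e i) :
    ∃ b : Module.Basis (Fin (ndeg K x)) (KK K x) F, (∀ i, b i = e i) ∧ IsLatBasis x D b := by
  have := finiteDimensional_KK hx
  have hsp : ⊤ ≤ Submodule.span (KK K x) (Set.range e) := by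
    intro f _
    obtain ⟨q, hq0, hqm, -⟩ := exists_mul_mem hx D f
    obtain ⟨p, hp⟩ := (he _).mp hqm
    rw [← polyKK_smul] at hp
    have : polyKK x q • f ∈ Submodule.span (KK K x) (Set.range e) := by
      rw [hp]
      refine Submodule.sum_mem _ fun i _ => ?_
      rw [← polyKK_smul]
      exact Submodule.smul_mem _ _ (Submodule.subset_span ⟨i, rfl⟩)
    exact (Submodule.smul_mem_iff _ (fun h0 => hq0 (congrArg Subtype.val h0))).mp this
  have hc : Fintype.card (Fin (ndeg K x)) = Module.finrank (KK K x) F := Fintype.card_fin _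
  have hcoe : ⇑(basisOfTopLeSpanOfCardEqFinrank e hsp hc) = e :=
    coe_basisOfTopLeSpanOfCardEqFinrank e hsp hc
  refine ⟨basisOfTopLeSpanOfCardEqFinrank e hsp hc, fun i => congrFun hcoe i, ?_⟩
  intro f
  rw [he f, hcoe]

theorem exists_latBasis {x : F} (hx : Transcendental K x) (D : Divisor K F) :
    ∃ b : Module.Basis (Fin (ndeg K x)) (KK K x) F, IsLatBasis x D b := by
  obtain ⟨e, he⟩ := exists_generators hx D
  obtain ⟨b, -, hb⟩ := exists_basis_of_generators hx D e he
  exact ⟨b, hb⟩

/-! ### the divisor of `dx` -/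

open scoped Classical in
/-- `e - 1` at finite places, `-e - 1` at poles -/
def kd (x : F) (v : Place K F) : ℤ :=
  if Bd v x 0 then v.ord (x - algebraMap K F (res x v)) - 1 else v.ord x - 1

theorem kd_of_zero {x : F} {v : Place K F} {c : K} (h : 0 < v.ord (x - algebraMap K F c)) :
    kd x v = v.ord (x - algebraMap K F c) - 1 := by
  rw [kd, if_pos (bd_zero_of_ord_pos h), res_eq_of_ord_pos h]

theorem kd_of_pole {x : F} {v : Place K F} (h : v.ord x < 0) : kd x v = v.ord x - 1 := by
  rw [kd, if_neg (not_bd_of_ord_neg h)]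

theorem isSeparable_KK (x : F) [FiniteDimensional (KK K x) F] :
    Algebra.IsSeparable (KK K x) F :=
  haveI : CharZero (KK K x) :=
    charZero_of_injective_algebraMap (algebraMap K (KK K x)).injective
  inferInstance

theorem finite_kd {x : F} (hx : Transcendental K x) :
    {v : Place K F | kd x v ≠ 0}.Finite := by
  classical
  have := finiteDimensional_KK hx
  have := isSeparable_KK (K := K) x
  obtain ⟨b, hb⟩ := exists_latBasis hx (0 : Divisor K F)
  have hbd : ∀ i, ∀ v : Place K F, Bd v x 0 → Bd v (b i) 0 := fun i v hv => by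
    simpa using hb.mem i v hv
  have hreg : ∀ (c : K) (f : F),
      (∀ w : Place K F, 0 < w.ord (x - algebraMap K F c) →
        Bd w f (w.ord (x - algebraMap K F c) - 1)) →
      ∀ w : Place K F, 0 < w.ord (x - algebraMap K F c) → Bd w (trF K x f) 0 := by
    intro c f hf w hw
    rw [← trF_congr (KK_sub_const x c)]
    exact trF_regular (transcendental_sub_const hx c) hf w hw
  have hP : ∀ i j, ∃ p : K[X], trF K x (b i * b j) = Polynomial.aeval x p := fun i j =>
    exists_aeval_eq hx (trF_mem _ _) fun c v hv => hreg c _ (fun w hw =>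
      ((hbd i w (bd_zero_of_ord_pos hw)).mul (hbd j w (bd_zero_of_ord_pos hw))).mono
        (by omega)) v hv
  choose P hP using hP
  set G : K[X] := (Matrix.of P).det
  have hG : G ≠ 0 := by
    intro hG
    apply det_traceForm_ne_zero (K := KK K x) b
    apply (algebraMap (KK K x) F).injective
    rw [map_zero, RingHom.map_det]
    have hG' : Polynomial.aeval x (Matrix.of P).det = 0 := by
      show Polynomial.aeval x G = 0
      rw [hG, map_zero]
    rw [AlgHom.map_det] at hG'
    rw [← hG']
    congr 1
    ext i j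
    simp [← hP, trF, BilinForm.toMatrix_apply, Algebra.traceForm_apply]
  refine Set.Finite.subset ((finite_ord_ne (K := K) (ne_zero_of_transcendental hx)).union
    (Set.Finite.biUnion (G.roots.toFinset.finite_toSet)
      (fun c _ => (zeros (K := K) (x - algebraMap K F c)).finite_toSet))) ?_
  intro v hv
  by_cases hvx : Bd v x 0
  swap
  · exact Or.inl (by
      have := ord_neg_of_not_bd hvx
      show v.ord x ≠ 0; omega)
  have hc := ord_res_pos hx hvx
  set c := res x v
  refine Or.inr (Set.mem_biUnion (x := c) ?_ (Finset.mem_coe.mpr (mem_zeros.mpr hc)))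
  have he : 2 ≤ v.ord (x - algebraMap K F c) := by
    have hv' : kd x v ≠ 0 := hv
    rw [kd_of_zero hc] at hv'
    omega
  rw [Finset.mem_coe, Multiset.mem_toFinset, Polynomial.mem_roots hG]
  show G.eval c = 0
  obtain ⟨u, hu0, hu1, hu2⟩ := exists_ord_eq hx hvx
    (Finsupp.onFinset (zeros (K := K) (x - algebraMap K F c))
      (fun w => if 0 < w.ord (x - algebraMap K F c) then (-1 : ℤ) else 0)
      (fun w hw => mem_zeros.mpr (by by_contra h; simp [h] at hw))) 1
  have hub : ∀ w : Place K F, 0 < w.ord (x - algebraMap K F c) → Bd w u (-1) := by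
    intro w hw
    rcases eq_or_ne w v with rfl | hne
    · rw [bd_iff_ord hu0, hu1]; omega
    · simpa [hw] using hu2 w (bd_zero_of_ord_pos hw) hne
  have huM : u ∈ MM x (0 : Divisor K F) := by
    intro w hw
    show Bd w u 0
    by_cases h : 0 < w.ord (x - algebraMap K F c)
    · exact (hub w h).mono (by omega)
    · rcases eq_or_ne w v with rfl | hne
      · exact absurd hc h
      · simpa [h] using hu2 w hw hne
  obtain ⟨p, hp⟩ := (hb u).mp huM
  have hvec : (fun i => (p i).eval c) ≠ 0 := by
    intro h0
    have hd : ∀ i, ∃ r, p i = (Polynomial.X - Polynomial.C c) * r := fun i =>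
      Polynomial.dvd_iff_isRoot.mpr (congrFun h0 i)
    choose r hr using hd
    have hu' : u = (x - algebraMap K F c) * ∑ i, Polynomial.aeval x (r i) * b i := by
      rw [hp, Finset.mul_sum]
      refine Finset.sum_congr rfl fun i _ => ?_
      rw [hr i, map_mul, map_sub, Polynomial.aeval_X, Polynomial.aeval_C, mul_assoc]
    have h1 : Bd v u (-v.ord (x - algebraMap K F c)) := by
      rw [hu']
      refine ((bd_self (v := v) (f := x - algebraMap K F c)).mul (n := _) (m := 0)
        (Bd.sum _ _ fun i _ => ?_)).mono (by omega)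
      simpa using (bd_aeval hvx (r i)).mul (hbd i v hvx)
    rw [bd_iff_ord hu0, hu1] at h1
    omega
  have hmul : Matrix.vecMul (fun i => (p i).eval c) ((Matrix.of P).map (Polynomial.eval c)) = 0 := by
    funext j
    rw [Pi.zero_apply]
    have hkey : trF K x (u * b j) = Polynomial.aeval x (∑ i, p i * P i j) := by
      rw [hp, Finset.sum_mul, trF_sum, map_sum]
      refine Finset.sum_congr rfl fun i _ => ?_
      rw [mul_assoc, ← coe_polyKK x (p i), trF_mul (SetLike.coe_mem _), hP, map_mul, coe_polyKK]
    have hval : (∑ i, p i * P i j).eval c = 0 := by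
      by_contra hne
      obtain ⟨h0, h1⟩ := ord_aeval_eq_zero hc hne
      have hxc := sub_const_ne_zero hx c
      have h2 : Bd v (trF K x (u * b j / (x - algebraMap K F c))) 0 :=
        hreg c _ (fun w hw => (bd_div_iff hxc).mpr
          (((hub w hw).mul (hbd j w (bd_zero_of_ord_pos hw))).mono (by omega))) v hc
      have hmem : (x - algebraMap K F c)⁻¹ ∈ KK K x :=
        inv_mem (sub_mem (self_mem_KK x) (IntermediateField.algebraMap_mem _ c))
      rw [div_eq_inv_mul, trF_mul hmem, hkey, ← div_eq_inv_mul, bd_div_iff hxc,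
        bd_iff_ord h0, h1] at h2
      omega
    simpa [Matrix.vecMul, dotProduct, Polynomial.eval_finsetSum] using hval
  have hdet := Matrix.exists_vecMul_eq_zero_iff.mp ⟨_, hvec, hmul⟩
  rw [← hdet, ← Polynomial.coe_evalRingHom, RingHom.map_det]
  rfl

/-- `div dx`, combinatorially -/
def Kd {x : F} (hx : Transcendental K x) : Divisor K F :=
  Finsupp.onFinset (finite_kd hx).toFinset (kd x) fun _ h => (Set.Finite.mem_toFinset _).mpr h

@[simp]
theorem Kd_apply {x : F} (hx : Transcendental K x) (v : Place K F) : Kd hx v = kd x v := rfl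

/-! ### duality at finite places -/

theorem mem_MM_dual_iff {x : F} (hx : Transcendental K x) (D : Divisor K F)
    {b : Module.Basis (Fin (ndeg K x)) (KK K x) F} (hb : IsLatBasis x D b) (f : F) :
    f ∈ MM x (Kd hx - D : Divisor K F) ↔
      ∀ i, ∃ p : K[X], trF K x (f * b i) = Polynomial.aeval x p := by
  classical
  constructor
  · intro hf i
    refine exists_aeval_eq hx (trF_mem _ _) fun c v hv => ?_
    rw [← trF_congr (KK_sub_const x c)]
    refine trF_regular (transcendental_sub_const hx c) (fun w hw => ?_) v hv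
    refine ((hf w (bd_zero_of_ord_pos hw)).mul (hb.mem i w (bd_zero_of_ord_pos hw))).mono ?_
    simp [Finsupp.sub_apply, kd_of_zero hw]
  · intro h v hv
    by_contra hbad
    obtain ⟨hf0, hford⟩ := not_bd_iff.mp hbad
    set c := res x v with hcdef
    have hc := ord_res_pos hx hv
    rw [Finsupp.sub_apply, Kd_apply, kd_of_zero hc] at hford
    set z := x - algebraMap K F c with hz
    have hzt : Transcendental K z := transcendental_sub_const hx c
    have hz0 : z ≠ 0 := ne_zero_of_transcendental hzt
    obtain ⟨ε, he0, he1, -, he3, he4⟩ := exists_trF_not_regular hzt hc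
      (∑ w ∈ zeros (K := K) z, (w.ord z + w.ord f - D w).toNat)
    set g := ε / (z * f) with hg
    have hzf : z * f ≠ 0 := mul_ne_zero hz0 hf0
    have hgc : ∀ w : Place K F, 0 < w.ord (x - algebraMap K F c) → Bd w g (D w) := by
      intro w hw
      rw [bd_div_iff hzf, bd_iff_ord he0, w.ord_mul hz0 hf0]
      rcases eq_or_ne w v with rfl | hne
      · omega
      · have h1 := (bd_iff_ord he0).mp (he3 w hw hne)
        have h2 : (w.ord z + w.ord f - D w).toNat
            ≤ ∑ w ∈ zeros (K := K) z, (w.ord z + w.ord f - D w).toNat :=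
          Finset.single_le_sum (f := fun w : Place K F => (w.ord z + w.ord f - D w).toNat)
            (fun i _ => Nat.zero_le _) (mem_zeros.mpr hw)
        have h3 := Int.self_le_toNat (w.ord z + w.ord f - D w)
        omega
    obtain ⟨q, -, hqg, hqc⟩ := exists_mul_mem hx D g
    obtain ⟨p, hp⟩ := (hb _).mp hqg
    choose P hP using h
    have key : Polynomial.aeval x q * trF K z (ε / z)
        = Polynomial.aeval x (∑ i, p i * P i) := by
      rw [trF_congr (KK_sub_const x c), ← coe_polyKK x q, ← trF_mul (SetLike.coe_mem _),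
        coe_polyKK]
      have e : Polynomial.aeval x q * (ε / z) = f * (Polynomial.aeval x q * g) := by
        rw [hg]; field_simp
      rw [e, hp, Finset.mul_sum, trF_sum, map_sum]
      refine Finset.sum_congr rfl fun i _ => ?_
      rw [mul_left_comm, ← coe_polyKK x (p i), trF_mul (SetLike.coe_mem _), hP, map_mul, coe_polyKK]
    obtain ⟨hq0, hq1⟩ := ord_aeval_eq_zero hc (hqc c hgc)
    apply he4 v hc
    have h2 := bd_aeval hv (∑ i, p i * P i)
    rw [← key, mul_comm, bd_mul_iff hq0, hq1] at h2
    simpa using h2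

end FLTAgent.RR
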