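import Fermat.Agent.RR.Lattice

/-! Reduced bases and the Riemann-Roch formula. -/

set_option autoImplicit false
set_option linter.unusedSectionVars false

noncomputable section

open AlgebraicCurve Polynomial

namespace FLTAgent.RR

variable {K F : Type*} [Field K] [Field F] [Algebra K F]

/-- bound at the poles of `x`, twisted by `a` times the pole divisor -/
def InfB (x : F) (D : Place K F → ℤ) (f : F) (a : ℤ) : Prop :=
  ∀ v : Place K F, v.ord x < 0 → Bd v f (D v + a * (-v.ord x))

section InfB

variable {x : F} {D : Place K F → ℤ} {f g : F} {a a' : ℤ}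

theorem InfB.mono (h : InfB x D f a) (ha : a ≤ a') : InfB x D f a' := fun v hv =>
  (h v hv).mono (by have := mul_le_mul_of_nonneg_right ha (show (0 : ℤ) ≤ -v.ord x by omega); omega)

theorem InfB.zero : InfB x D (0 : F) a := fun _ _ => Bd.zero

theorem InfB.sub (h : InfB x D f a) (h' : InfB x D g a) : InfB x D (f - g) a :=
  fun v hv => (h v hv).sub (h' v hv)

theorem InfB.sum {ι : Type*} (s : Finset ι) (f : ι → F) (h : ∀ i ∈ s, InfB x D (f i) a) :
    InfB x D (∑ i ∈ s, f i) a := fun v hv => Bd.sum s f fun i hi => h i hi v hv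

theorem InfB.const_mul (h : InfB x D f a) (c : K) : InfB x D (algebraMap K F c * f) a :=
  fun v hv => by simpa using (Bd.of_algebraMap (v := v) c).mul (h v hv)

theorem InfB.zpow_mul (h : InfB x D f a) (k : ℤ) : InfB x D (x ^ k * f) (a + k) := fun v hv => by
  refine ((bd_self (v := v) (f := x ^ k)).mul (h v hv)).mono ?_
  rw [v.ord_zpow]; ring_nf; exact le_refl _

end InfB

variable [hF : FnField K F] [IsAlgClosed K] [CharZero K]

theorem InfB.aeval_mul {x : F} {D : Place K F → ℤ} {f : F} {a : ℤ} (h : InfB x D f a) {p : K[X]}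
    {j : ℤ} (hp : p ≠ 0 → (p.natDegree : ℤ) ≤ j) :
    InfB x D (Polynomial.aeval x p * f) (a + j) := by
  intro v hv
  rcases eq_or_ne p 0 with rfl | hp0
  · simp [Bd.zero]
  obtain ⟨-, h2⟩ := ord_aeval_at_pole hv hp0
  refine ((bd_self (v := v) (f := Polynomial.aeval x p)).mul (h v hv)).mono ?_
  rw [h2]
  nlinarith [hp hp0]

theorem degree_nonneg {D : Divisor K F} {f : F} (hf : f ≠ 0) (h : ∀ v, Bd v f (D v)) :
    0 ≤ Divisor.degree D := by
  classical
  obtain ⟨E, hE⟩ := exists_divisor (K := K) hf
  have h2 : 0 ≤ Divisor.degree (D + E) := by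
    rw [degree_eq_sum]
    refine Finset.sum_nonneg fun v _ => ?_
    have := (bd_iff_ord hf).mp (h v)
    rw [Finsupp.add_apply, hE]; omega
  rw [map_add, degree_divisor hf hE, add_zero] at h2
  exact h2

/-- the pole divisor -/
def Pol (x : F) : Divisor K F :=
  Finsupp.onFinset (zeros x⁻¹) (fun v => max (-v.ord x) 0)
    (fun v h => mem_zeros.mpr (by rw [v.ord_inv]; omega))

theorem Pol_apply (x : F) (v : Place K F) : Pol (K := K) x v = max (-v.ord x) 0 := rfl

theorem degree_Pol {x : F} (hx : Transcendental K x) :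
    Divisor.degree (Pol (K := K) x) = ndeg K x := by
  classical
  have hs : (Pol (K := K) x).support = zeros x⁻¹ := by
    ext v
    rw [Finsupp.mem_support_iff, mem_zeros, Pol_apply, v.ord_inv]; omega
  rw [degree_eq_sum, hs, ← ndeg_congr (KK_inv x), ← sum_zeros (transcendental_inv hx)]
  exact Finset.sum_congr rfl fun v hv => by
    rw [mem_zeros, v.ord_inv] at hv
    rw [Pol_apply, v.ord_inv]; omega

theorem mem_rr_iff {x : F} (hx : Transcendental K x) (D : Divisor K F) (k : ℤ) (f : F) :
    f ∈ riemannRochSpace (D + k • Pol x) ↔ f ∈ MM x D ∧ InfB x D f k := by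
  rw [riemannRochSpace_eq_boundedOn]
  have h1 : ∀ v : Place K F, Bd v x 0 → (D + k • Pol x : Divisor K F) v = D v := fun v hv => by
    have := (bd_iff_ord (ne_zero_of_transcendental hx)).mp hv
    simp [Pol_apply, show max (-v.ord x) 0 = 0 by omega]
  have h2 : ∀ v : Place K F, v.ord x < 0 → (D + k • Pol x : Divisor K F) v = D v + k * (-v.ord x) := fun v hv => by
    simp [Pol_apply, show max (-v.ord x) 0 = -v.ord x by omega]
  constructor
  · intro h
    exact ⟨fun v hv => h1 v hv ▸ h v trivial, fun v hv => h2 v hv ▸ h v trivial⟩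
  · rintro ⟨hM, hI⟩ v -
    show Bd v f ((D + k • Pol x : Divisor K F) v)
    by_cases hv : Bd v x 0
    · rw [h1 v hv]; exact hM v hv
    · rw [h2 v (ord_neg_of_not_bd hv)]; exact hI v (ord_neg_of_not_bd hv)

/-- reducedness -/
structure IsReduced (x : F) (D : Place K F → ℤ) {n : ℕ}
    (b : Module.Basis (Fin n) (KK K x) F) (a : Fin n → ℤ) : Prop where
  isLat : IsLatBasis x D b
  bound : ∀ i, InfB x D (b i) (a i)
  indep : ∀ c : Fin n → K,
    InfB x D (∑ i, algebraMap K F (c i) * x ^ (-a i) * b i) (-1) → c = 0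

theorem exists_InfB_bound {x : F} (hx : Transcendental K x) (D : Divisor K F) (f : F) :
    ∃ a : ℤ, InfB x D f a := by
  classical
  refine ⟨∑ v ∈ zeros (K := K) x⁻¹, |v.ord f + D v|, fun v hv => ?_⟩
  rw [bd_iff]; right
  have hv' : v ∈ zeros (K := K) x⁻¹ := mem_zeros.mpr (by rw [v.ord_inv]; omega)
  have h1 : |v.ord f + D v| ≤ ∑ v ∈ zeros (K := K) x⁻¹, |v.ord f + D v| :=
    Finset.single_le_sum (f := fun v : Place K F => |v.ord f + D v|)
      (fun i _ => abs_nonneg _) hv'
  have h2 := neg_abs_le (v.ord f + D v)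
  have h3 : 0 ≤ ∑ v ∈ zeros (K := K) x⁻¹, |v.ord f + D v| :=
    Finset.sum_nonneg fun i _ => abs_nonneg _
  have : ∑ v ∈ zeros (K := K) x⁻¹, |v.ord f + D v|
      ≤ (∑ v ∈ zeros (K := K) x⁻¹, |v.ord f + D v|) * (-v.ord x) :=
    le_mul_of_one_le_right h3 (by omega)
  omega

theorem lower_bound {x : F} (hx : Transcendental K x) (D : Divisor K F) {f : F} (hf : f ≠ 0)
    (hM : f ∈ MM x D) {a : ℤ} (ha : InfB x D f a) : -|Divisor.degree D| ≤ a := by
  have h := (mem_rr_iff hx D a f).mpr ⟨hM, ha⟩
  rw [riemannRochSpace_eq_boundedOn] at h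
  have h' := degree_nonneg hf fun v => h v trivial
  rw [map_add, map_zsmul, degree_Pol hx, smul_eq_mul] at h'
  have hn : (1 : ℤ) ≤ ndeg K x := by have := ndeg_pos hx; omega
  rcases le_or_gt 0 a with h0 | h0
  · have := abs_nonneg (Divisor.degree D); omega
  · have h1 := le_abs_self (Divisor.degree D)
    nlinarith

theorem exists_reduced {x : F} (hx : Transcendental K x) (D : Divisor K F) :
    ∃ (b : Module.Basis (Fin (ndeg K x)) (KK K x) F) (a : Fin (ndeg K x) → ℤ),
      IsReduced x D b a := by
  classical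
  set L := -|Divisor.degree D| with hL
  suffices H : ∀ m : ℕ, ∀ (b : Module.Basis (Fin (ndeg K x)) (KK K x) F) (a : Fin (ndeg K x) → ℤ),
      IsLatBasis x D b → (∀ i, InfB x D (b i) (a i)) → (∑ i, (a i - L)).toNat ≤ m →
      ∃ b a, IsReduced x (fun v => D v) (n := ndeg K x) b a by
    obtain ⟨b, hb⟩ := exists_latBasis hx D
    choose a ha using fun i => exists_InfB_bound hx D (b i)
    exact H _ b a hb ha le_rfl
  intro m
  induction m with
  | zero =>
      intro b a hb ha hm
      by_cases hr : IsReduced x (fun v => D v) b a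
      · exact ⟨b, a, hr⟩
      exfalso
      obtain ⟨c, hc, hc0⟩ : ∃ c : Fin (ndeg K x) → K,
          InfB x D (∑ i, algebraMap K F (c i) * x ^ (-a i) * b i) (-1) ∧ c ≠ 0 := by
        by_contra h
        push Not at h
        exact hr ⟨hb, ha, h⟩
      have hall : ∀ i, a i = L := by
        intro i
        have h1 : ∀ j ∈ Finset.univ, 0 ≤ a j - L := fun j _ => by
          have := lower_bound hx D (b.ne_zero j) (hb.mem j) (ha j)
          omega
        have h2 : a i - L ≤ ∑ j, (a j - L) := Finset.single_le_sum h1 (Finset.mem_univ i)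
        have := h1 i (Finset.mem_univ i)
        omega
      obtain ⟨i₀, hi₀⟩ : ∃ i, c i ≠ 0 := by
        by_contra h; push Not at h; exact hc0 (funext h)
      -- the combination would have bound `L - 1`
      set e := ∑ i, Polynomial.aeval x (Polynomial.C (c i)) * b i
      have he : e ∈ MM x D := (hb e).mpr ⟨_, rfl⟩
      have he0 : e ≠ 0 := by
        intro h0
        have h1 : (fun i => Polynomial.C (c i)) = (0 : Fin (ndeg K x) → K[X]) := by
          refine poly_indep hx b ?_
          simpa [e] using h0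
        exact hi₀ (by simpa using congrFun h1 i₀)
      have := lower_bound hx D he0 he (a := L - 1) (by
        have h2 := hc.zpow_mul L
        rw [Finset.mul_sum] at h2
        convert h2.mono (show -1 + L ≤ L - 1 by omega) using 1
        refine Finset.sum_congr rfl fun i _ => ?_
        rw [Polynomial.aeval_C, hall i,
          show x ^ L * (algebraMap K F (c i) * x ^ (-L) * b i)
            = algebraMap K F (c i) * b i * (x ^ L * x ^ (-L)) by ring,
          ← zpow_add₀ (ne_zero_of_transcendental hx), add_neg_cancel, zpow_zero, mul_one])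
      omega
  | succ m ih =>
      intro b a hb ha hm
      by_cases hr : IsReduced x (fun v => D v) b a
      · exact ⟨b, a, hr⟩
      obtain ⟨c, hc, hc0⟩ : ∃ c : Fin (ndeg K x) → K,
          InfB x D (∑ i, algebraMap K F (c i) * x ^ (-a i) * b i) (-1) ∧ c ≠ 0 := by
        by_contra h
        push Not at h
        exact hr ⟨hb, ha, h⟩
      obtain ⟨i₀, hi₀m, hmax⟩ := Finset.exists_max_image
        (Finset.univ.filter fun i => c i ≠ 0) a (by
          by_contra h
          rw [Finset.not_nonempty_iff_eq_empty, Finset.filter_eq_empty_iff] at h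
          exact hc0 (funext fun i => not_not.mp (h (Finset.mem_univ i))))
      have hi₀ : c i₀ ≠ 0 := (Finset.mem_filter.mp hi₀m).2
      set p : Fin (ndeg K x) → K[X] := fun i =>
        Polynomial.C (c i) * Polynomial.X ^ (a i₀ - a i).toNat with hpdef
      set e := ∑ i, Polynomial.aeval x (p i) * b i with hedef
      have hx0 := ne_zero_of_transcendental hx
      have heI : InfB x D e (a i₀ - 1) := by
        have h2 := hc.zpow_mul (a i₀)
        rw [Finset.mul_sum] at h2
        convert h2.mono (show -1 + a i₀ ≤ a i₀ - 1 by omega) using 1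
        refine Finset.sum_congr rfl fun i _ => ?_
        by_cases hci : c i = 0
        · simp [p, hci]
        · have hle := hmax i (Finset.mem_filter.mpr ⟨Finset.mem_univ _, hci⟩)
          simp only [p, map_mul, map_pow, Polynomial.aeval_C, Polynomial.aeval_X]
          rw [← zpow_natCast, Int.toNat_of_nonneg (by omega),
            show a i₀ - a i = a i₀ + -a i by ring, zpow_add₀ hx0]
          ring
      set e' : Fin (ndeg K x) → F := Function.update (fun i => b i) i₀ e with he'def
      have hp0 : p i₀ = Polynomial.C (c i₀) := by simp [p]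
      have he' : ∀ f : F, f ∈ MM x D ↔
          ∃ q : Fin (ndeg K x) → K[X], f = ∑ i, Polynomial.aeval x (q i) * e' i := by
        intro f
        constructor
        · intro hf
          obtain ⟨q, rfl⟩ := (hb f).mp hf
          set t : K[X] := Polynomial.C (c i₀)⁻¹ * q i₀ with ht
          refine ⟨fun i => if i = i₀ then t else q i - t * p i, ?_⟩
          rw [← Finset.add_sum_erase _ _ (Finset.mem_univ i₀),
            ← Finset.add_sum_erase _ _ (Finset.mem_univ i₀)]
          simp only [e', Function.update_self, if_pos]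
          rw [hedef, ← Finset.add_sum_erase _ _ (Finset.mem_univ i₀), mul_add, Finset.mul_sum,
            add_assoc, ← Finset.sum_add_distrib]
          congr 1
          · rw [← mul_assoc, ← map_mul, hp0, ht, mul_right_comm, ← map_mul,
              inv_mul_cancel₀ hi₀, map_one, one_mul]
          · refine Finset.sum_congr rfl fun i hi => ?_
            rw [if_neg (Finset.ne_of_mem_erase hi), Function.update_of_ne (Finset.ne_of_mem_erase hi),
              map_sub, ht]
            simp only [map_mul]
            ring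
        · rintro ⟨q, rfl⟩
          refine Submodule.sum_mem _ fun i _ => fun v hv => ?_
          have hM : e' i ∈ MM x D := by
            rcases eq_or_ne i i₀ with rfl | hne
            · simp only [e', Function.update_self]; exact (hb e).mpr ⟨p, rfl⟩
            · simp only [e', Function.update_of_ne hne]; exact hb.mem i
          simpa using (bd_aeval hv (q i)).mul (hM v hv)
      obtain ⟨b', hb'e, hb'⟩ := exists_basis_of_generators hx D e' he'
      refine ih b' (Function.update a i₀ (a i₀ - 1)) hb' (fun i => ?_) ?_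
      · rw [hb'e]
        rcases eq_or_ne i i₀ with rfl | hne
        · simpa [e'] using heI
        · simpa [e', Function.update_of_ne hne] using ha i
      · rw [← Finset.add_sum_erase _ _ (Finset.mem_univ i₀), Function.update_self,
          Finset.sum_congr rfl fun i hi => by
            rw [Function.update_of_ne (Finset.ne_of_mem_erase hi)]]
        rw [← Finset.add_sum_erase _ _ (Finset.mem_univ i₀)] at hm
        omega

/-- the key property of a reduced basis -/
theorem IsReduced.degree_le {x : F} (hx : Transcendental K x) {D : Place K F → ℤ} {n : ℕ}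
    {b : Module.Basis (Fin n) (KK K x) F} {a : Fin n → ℤ} (h : IsReduced x D b a)
    {p : Fin n → K[X]} {k : ℤ} (hk : InfB x D (∑ i, Polynomial.aeval x (p i) * b i) k) :
    ∀ i, p i ≠ 0 → (p i).natDegree + a i ≤ k := by
  classical
  intro i₀ hi₀
  by_contra hlt
  obtain ⟨j, hj, hjmax⟩ := Finset.exists_max_image (Finset.univ.filter fun i => p i ≠ 0)
    (fun i => ((p i).natDegree : ℤ) + a i) ⟨i₀, by simp [hi₀]⟩
  have hA := hjmax i₀ (by simp [hi₀])
  set A : ℤ := ((p j).natDegree : ℤ) + a j with hAdef
  set c : Fin n → K := fun i =>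
    if p i ≠ 0 ∧ ((p i).natDegree : ℤ) + a i = A then (p i).leadingCoeff else 0 with hc
  have hmem : InfB x D (∑ i, algebraMap K F (c i) * x ^ (-a i) * b i) (-1) := by
    have h1 : InfB x D (x ^ (-A) * ∑ i, Polynomial.aeval x (p i) * b i) (-1) :=
      (hk.zpow_mul (-A)).mono (by omega)
    have h2 : InfB x D (x ^ (-A) * ∑ i, Polynomial.aeval x (p i) * b i
        - ∑ i, algebraMap K F (c i) * x ^ (-a i) * b i) (-1) := by
      rw [Finset.mul_sum, ← Finset.sum_sub_distrib]
      refine InfB.sum _ _ fun i _ => ?_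
      have hx0 := ne_zero_of_transcendental hx
      by_cases hp : p i = 0
      · simp [c, hp, InfB.zero]
      have hle := hjmax i (by simp [hp])
      rcases eq_or_lt_of_le hle with heq | hlt'
      · have hcc : c i = (p i).leadingCoeff := by simp [c, hp, A, heq]
        rw [hcc]
        have e : Polynomial.aeval x (p i) = Polynomial.aeval x (p i).eraseLead
            + algebraMap K F (p i).leadingCoeff * x ^ (p i).natDegree := by
          conv_lhs => rw [← (p i).eraseLead_add_C_mul_X_pow]
          rw [map_add, map_mul, map_pow, Polynomial.aeval_C, Polynomial.aeval_X]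
        have e2 : x ^ (-a i) = x ^ (-A) * x ^ (p i).natDegree := by
          rw [← zpow_natCast, ← zpow_add₀ hx0]; congr 1; omega
        rw [e2, e]
        have := ((h.bound i).aeval_mul (p := (p i).eraseLead) (j := (p i).natDegree - 1)
          (fun h0 => by
            have := Polynomial.eraseLead_natDegree_lt_or_eraseLead_eq_zero (p i)
            rcases this with h' | h'
            · omega
            · exact absurd h' h0)).zpow_mul (-A)
        refine InfB.mono ?_ (show a i + ((p i).natDegree - 1 : ℤ) + -A ≤ -1 by omega)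
        convert this using 1
        ring
      · have hcc : c i = 0 := by
          simp only [c]; rw [if_neg]; rintro ⟨-, h'⟩; omega
        rw [hcc, map_zero, zero_mul, zero_mul, sub_zero]
        exact (((h.bound i).aeval_mul (p := p i) (j := (p i).natDegree)
          (fun _ => le_rfl)).zpow_mul (-A)).mono (by omega)
    simpa using h1.sub h2
  have hc0 := congrFun (h.indep c hmem) j
  have hjne : p j ≠ 0 := (Finset.mem_filter.mp hj).2
  simp [c, hjne, A] at hc0

theorem IsReduced.infB_iff {x : F} (hx : Transcendental K x) {D : Place K F → ℤ} {n : ℕ}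
    {b : Module.Basis (Fin n) (KK K x) F} {a : Fin n → ℤ} (h : IsReduced x D b a)
    (p : Fin n → K[X]) (k : ℤ) :
    InfB x D (∑ i, Polynomial.aeval x (p i) * b i) k ↔
      ∀ i, p i ≠ 0 → (p i).natDegree + a i ≤ k := by
  refine ⟨h.degree_le hx, fun hd => InfB.sum _ _ fun i _ => ?_⟩
  exact ((h.bound i).aeval_mul (p := p i) (j := k - a i)
    (fun h0 => by have := hd i h0; omega)).mono (by omega)

theorem degree_lt_toNat_iff {p : K[X]} {d : ℤ} :
    p ∈ Polynomial.degreeLT K d.toNat ↔ (p ≠ 0 → (p.natDegree : ℤ) < d) := by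
  rcases eq_or_ne p 0 with rfl | hp
  · simp
  rw [Polynomial.mem_degreeLT, Polynomial.degree_eq_natDegree hp, Nat.cast_lt]
  exact ⟨fun h _ => by omega, fun h => by have := h hp; omega⟩

/-- linear equivalence of polynomials of bounded degree with a bounded space -/
theorem finrank_of_param {x : F} (hx : Transcendental K x) {n : ℕ}
    (b : Module.Basis (Fin n) (KK K x) F) (d : Fin n → ℤ) (V : Submodule K F)
    (hV : ∀ f : F, f ∈ V ↔ ∃ p : Fin n → K[X],
      f = ∑ i, Polynomial.aeval x (p i) * b i ∧ ∀ i, p i ≠ 0 → ((p i).natDegree : ℤ) < d i) :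
    FiniteDimensional K V ∧ Module.finrank K V = ∑ i, (d i).toNat := by
  have hfin : ∀ k : ℕ, FiniteDimensional K (Polynomial.degreeLT K k) := fun k =>
    Module.Finite.equiv (Polynomial.degreeLTEquiv K k).symm
  let φ : (∀ i, Polynomial.degreeLT K (d i).toNat) →ₗ[K] F :=
    { toFun := fun p => ∑ i, Polynomial.aeval x (p i : K[X]) * b i
      map_add' := fun p q => by simp [add_mul, Finset.sum_add_distrib]
      map_smul' := fun c p => by
        simp only [Pi.smul_apply, Submodule.coe_smul, map_smul, smul_mul_assoc,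
          Finset.smul_sum, RingHom.id_apply] }
  have hφ : Function.Injective φ := by
    intro p q h
    funext i
    exact Subtype.ext (congrFun (poly_indep hx b (p := fun i => (p i : K[X]))
      (q := fun i => (q i : K[X])) h) i)
  have hr : LinearMap.range φ = V := by
    ext f
    rw [hV, LinearMap.mem_range]
    constructor
    · rintro ⟨p, rfl⟩
      exact ⟨fun i => p i, rfl, fun i => degree_lt_toNat_iff.mp (p i).2⟩
    · rintro ⟨p, rfl, hp⟩
      exact ⟨fun i => ⟨p i, degree_lt_toNat_iff.mpr (hp i)⟩, rfl⟩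
  let e := LinearEquiv.ofInjective φ hφ
  subst hr
  refine ⟨Module.Finite.equiv e, ?_⟩
  rw [← e.finrank_eq, Module.finrank_pi_fintype]
  exact Finset.sum_congr rfl fun i _ => by
    rw [(Polynomial.degreeLTEquiv K (d i).toNat).finrank_eq, Module.finrank_fin_fun]

/-- the dimension -/
def ell (D : Divisor K F) : ℕ := Module.finrank K (riemannRochSpace D)

theorem ell_eq {x : F} (hx : Transcendental K x) {D : Divisor K F}
    {b : Module.Basis (Fin (ndeg K x)) (KK K x) F} {a : Fin (ndeg K x) → ℤ}
    (h : IsReduced x D b a) (k : ℤ) :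
    FiniteDimensional K (riemannRochSpace (D + k • Pol x)) ∧
      ell (D + k • Pol x) = ∑ i, (k - a i + 1).toNat := by
  refine finrank_of_param hx b (fun i => k - a i + 1) _ fun f => ?_
  rw [mem_rr_iff hx]
  constructor
  · rintro ⟨hM, hI⟩
    obtain ⟨p, rfl⟩ := (h.isLat f).mp hM
    exact ⟨p, rfl, fun i hi => by have := h.degree_le hx hI i hi; omega⟩
  · rintro ⟨p, rfl, hp⟩
    exact ⟨(h.isLat _).mpr ⟨p, rfl⟩,
      (h.infB_iff hx p k).mpr fun i hi => by have := hp i hi; omega⟩

/-- coordinates of an element bounded at infinity -/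
theorem IsReduced.local_span {x : F} (hx : Transcendental K x) {D : Divisor K F}
    {b : Module.Basis (Fin (ndeg K x)) (KK K x) F} {a : Fin (ndeg K x) → ℤ}
    (h : IsReduced x D b a) {g : F} (hg : InfB x D g 0) :
    ∀ (i : Fin (ndeg K x)) (v : Place K F), v.ord x < 0 →
      Bd v (x ^ a i * (b.repr g i : F)) 0 := by
  obtain ⟨q, hq0, hqg, -⟩ := exists_mul_mem hx D g
  obtain ⟨P, hP⟩ := (h.isLat _).mp hqg
  have hqne : q ≠ 0 := fun h0 => hq0 (by simp [h0])
  intro i v hv
  have hd := h.degree_le hx (p := P) (k := q.natDegree) (by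
    rw [← hP]
    exact (hg.aeval_mul (p := q) (j := q.natDegree) fun _ => le_rfl).mono (by omega)) i
  have hrep : Polynomial.aeval x q * (b.repr g i : F) = Polynomial.aeval x (P i) := by
    have h1 := congrArg (fun f => (b.repr f i : F)) hP
    simp only [repr_sum] at h1
    rw [← h1, ← polyKK_smul x q g, map_smul]; rfl
  rcases eq_or_ne (P i) 0 with h0 | h0
  · rw [h0, map_zero] at hrep
    rw [(mul_eq_zero.mp hrep).resolve_left hq0, mul_zero]
    exact Bd.zero
  obtain ⟨hP0, hP1⟩ := ord_aeval_at_pole hv h0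
  obtain ⟨-, hq1⟩ := ord_aeval_at_pole hv hqne
  have hx0 := ne_zero_of_transcendental hx
  have e : x ^ a i * (b.repr g i : F)
      = x ^ a i * Polynomial.aeval x (P i) / Polynomial.aeval x q := by
    rw [← hrep]; field_simp
  rw [e, bd_div_iff hq0, bd_iff_ord (mul_ne_zero (zpow_ne_zero _ hx0) hP0),
    v.ord_mul (zpow_ne_zero _ hx0) hP0, v.ord_zpow, hP1, hq1]
  have := mul_le_mul_of_nonneg_right (hd h0) (show (0 : ℤ) ≤ -v.ord x by omega)
  nlinarith

theorem ell_dual_eq {x : F} (hx : Transcendental K x) {D : Divisor K F}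
    {b : Module.Basis (Fin (ndeg K x)) (KK K x) F} {a : Fin (ndeg K x) → ℤ}
    (h : IsReduced x D b a) (k : ℤ) :
    FiniteDimensional K (riemannRochSpace (Kd hx - D + k • Pol x)) ∧
      ell (Kd hx - D + k • Pol x) = ∑ i, (k + a i - 1).toNat := by
  classical
  have := finiteDimensional_KK hx
  have := isSeparable_KK (K := K) x
  have hy := transcendental_inv hx
  have hx0 := ne_zero_of_transcendental hx
  set bs := (Algebra.traceForm (KK K x) F).dualBasis (traceForm_nondegenerate _ _) b with hbs
  have hrepr : ∀ f i, (bs.repr f i : F) = trF K x (f * b i) := fun f i => by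
    rw [hbs, LinearMap.BilinForm.dualBasis_repr_apply]; rfl
  -- trace of products with polynomial combinations
  have htr : ∀ (p : Fin (ndeg K x) → K[X]) i,
      trF K x ((∑ j, Polynomial.aeval x (p j) * bs j) * b i) = Polynomial.aeval x (p i) :=
    fun p i => by rw [← hrepr, repr_sum]
  refine finrank_of_param hx bs (fun i => k + a i - 1) _ fun f => ?_
  rw [mem_rr_iff hx]
  constructor
  · rintro ⟨hM, hI⟩
    choose p hp using (mem_MM_dual_iff hx D h.isLat f).mp hM
    have hf : f = ∑ j, Polynomial.aeval x (p j) * bs j := by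
      conv_lhs => rw [← bs.sum_repr f]
      exact Finset.sum_congr rfl fun j _ => by rw [KK_smul, hrepr, hp]
    refine ⟨p, hf, fun i hi => ?_⟩
    obtain ⟨v, hv⟩ := exists_zero hy
    set m := k + a i - 2 with hm
    set g := x ^ (-m) * (f * b i) with hg
    have hgb : ∀ w : Place K F, 0 < w.ord x⁻¹ → Bd w g (w.ord x⁻¹ - 1) := by
      intro w hw
      rw [w.ord_inv] at hw ⊢
      have hw' : w.ord x < 0 := by omega
      refine ((bd_self (v := w) (f := x ^ (-m))).mul
        ((hI w hw').mul (h.bound i w hw'))).mono ?_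
      rw [w.ord_zpow, Finsupp.sub_apply, Kd_apply, kd_of_pole hw', hm]
      ring_nf
      omega
    have h1 := trF_regular hy hgb v hv
    rw [trF_congr (KK_inv x), hg, trF_mul (zpow_mem (self_mem_KK x) _), hp,
      ] at h1
    rw [v.ord_inv] at hv
    obtain ⟨hp0, hp1⟩ := ord_aeval_at_pole (show v.ord x < 0 by omega) hi
    rw [bd_iff_ord (mul_ne_zero (zpow_ne_zero _ hx0) hp0), v.ord_mul (zpow_ne_zero _ hx0) hp0,
      v.ord_zpow, hp1] at h1
    have h2 : ((p i).natDegree - m) * (-v.ord x) ≤ 0 := by nlinarith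
    nlinarith
  · rintro ⟨p, rfl, hp⟩
    set f := ∑ j, Polynomial.aeval x (p j) * bs j with hf
    refine ⟨(mem_MM_dual_iff hx D h.isLat f).mpr fun i => ⟨p i, htr p i⟩, fun v hv => ?_⟩
    by_contra hbad
    obtain ⟨hf0, hord⟩ := not_bd_iff.mp hbad
    rw [Finsupp.sub_apply, Kd_apply, kd_of_pole hv] at hord
    set f' := x ^ (2 - k) * f with hf'
    have hf'0 : f' ≠ 0 := mul_ne_zero (zpow_ne_zero _ hx0) hf0
    have hford : ∀ w : Place K F, w.ord f' = (2 - k) * w.ord x + w.ord f := fun w => by
      rw [hf', w.ord_mul (zpow_ne_zero _ hx0) hf0, w.ord_zpow]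
    have hv' : 0 < v.ord x⁻¹ := by rw [v.ord_inv]; omega
    obtain ⟨ε, he0, he1, -, he3, he4⟩ := exists_trF_not_regular hy hv'
      (∑ w ∈ zeros (K := K) x⁻¹, (-w.ord x + w.ord f' - D w).toNat)
    have hyf : x⁻¹ * f' ≠ 0 := mul_ne_zero (inv_ne_zero hx0) hf'0
    set g := ε / (x⁻¹ * f') with hg
    have hgI : InfB x D g 0 := by
      intro w hw
      rw [zero_mul, add_zero, bd_div_iff hyf, bd_iff_ord he0,
        w.ord_mul (inv_ne_zero hx0) hf'0, w.ord_inv]
      rcases eq_or_ne w v with rfl | hne
      · rw [hford]; nlinarith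
      · have hw' : 0 < w.ord x⁻¹ := by rw [w.ord_inv]; omega
        have h1 := (bd_iff_ord he0).mp (he3 w hw' hne)
        have h2 : (-w.ord x + w.ord f' - D w).toNat
            ≤ ∑ w ∈ zeros (K := K) x⁻¹, (-w.ord x + w.ord f' - D w).toNat :=
          Finset.single_le_sum (f := fun w : Place K F => (-w.ord x + w.ord f' - D w).toNat)
            (fun i _ => Nat.zero_le _) (mem_zeros.mpr hw')
        have h3 := Int.self_le_toNat (-w.ord x + w.ord f' - D w)
        omega
    apply he4 v hv'
    have e : ε / x⁻¹ = ∑ i, (b.repr g i : F) * (x ^ (2 - k) * (f * b i)) := by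
      have e1 : ∀ i, (b.repr g i : F) * (x ^ (2 - k) * (f * b i)) = f' * (b.repr g i • b i) :=
        fun i => by rw [hf', KK_smul]; ring
      rw [Finset.sum_congr rfl fun i _ => e1 i, ← Finset.mul_sum, b.sum_repr, hg]
      field_simp
    rw [trF_congr (KK_inv x), e, trF_sum]
    refine Bd.sum _ _ fun i _ => ?_
    rw [trF_mul (SetLike.coe_mem _), trF_mul (zpow_mem (self_mem_KK x) _), htr]
    rcases eq_or_ne (p i) 0 with h0 | h0
    · simp [h0, Bd.zero]
    obtain ⟨hp0, hp1⟩ := ord_aeval_at_pole hv h0
    have h1 := h.local_span hx hgI i v hv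
    have e3 : (b.repr g i : F) * (x ^ (2 - k) * Polynomial.aeval x (p i))
        = (x ^ a i * (b.repr g i : F)) * (x ^ (2 - k - a i) * Polynomial.aeval x (p i)) := by
      rw [show x ^ (2 - k) = x ^ a i * x ^ (2 - k - a i) by
        rw [← zpow_add₀ hx0]; congr 1; ring]
      ring
    rw [e3]
    refine (h1.mul (bd_self (v := v) (f := x ^ (2 - k - a i) * Polynomial.aeval x (p i)))).mono ?_
    rw [v.ord_mul (zpow_ne_zero _ hx0) hp0, v.ord_zpow, hp1]
    have := hp i h0
    nlinarith

theorem ell_zero : ell (0 : Divisor K F) = 1 := by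
  have h : riemannRochSpace (0 : Divisor K F) = K ∙ (1 : F) := by
    rw [riemannRochSpace_eq_boundedOn]
    refine le_antisymm (fun f hf => ?_) ((Submodule.span_singleton_le_iff_mem _ _).mpr fun v _ => by
      simpa using Bd.of_algebraMap (v := v) (1 : K))
    rcases exists_const_or_transcendental (K := K) f with ⟨a, rfl⟩ | htr
    · exact Submodule.mem_span_singleton.mpr ⟨a, (Algebra.algebraMap_eq_smul_one a).symm⟩
    · obtain ⟨v, hv⟩ := exists_zero (transcendental_inv htr)
      have := (bd_iff_ord (ne_zero_of_transcendental htr)).mp (hf v trivial)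
      rw [v.ord_inv] at hv
      simp at this
      omega
  rw [ell, h, finrank_span_singleton one_ne_zero]

theorem ell_of_degree_neg {D : Divisor K F} (h : Divisor.degree D < 0) : ell D = 0 := by
  have : riemannRochSpace D = ⊥ := by
    rw [riemannRochSpace_eq_boundedOn, eq_bot_iff]
    intro f hf
    rw [Submodule.mem_bot]
    by_contra hf0
    have := degree_nonneg hf0 fun v => hf v trivial
    omega
  rw [ell, this, finrank_bot]

theorem finiteDimensional_rr (D : Divisor K F) : FiniteDimensional K (riemannRochSpace D) := by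
  obtain ⟨x, hx, -⟩ := hF.exists_transcendental
  obtain ⟨b, a, h⟩ := exists_reduced hx D
  have := (ell_eq hx h 0).1
  rwa [zero_smul, add_zero] at this

theorem exists_new {x : F} (hx : Transcendental K x) (D : Divisor K F) (v : Place K F) :
    ∃ k₀ : ℤ, ∀ k, k₀ ≤ k →
      ell (D + Finsupp.single v 1 + k • Pol x) = ell (D + k • Pol x) + 1 := by
  classical
  set E := D + Finsupp.single v 1 with hE
  have hEv : E v = D v + 1 := by simp [E]
  have hEw : ∀ w, w ≠ v → E w = D w := fun w hw => by simp [E, Finsupp.single_eq_of_ne hw]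
  suffices ∃ k₀ : ℤ, ∀ k, k₀ ≤ k → ∃ u : F, u ∈ riemannRochSpace (E + k • Pol x) ∧
      u ∉ riemannRochSpace (D + k • Pol x) by
    obtain ⟨k₀, hk₀⟩ := this
    refine ⟨k₀, fun k hk => ?_⟩
    obtain ⟨u, hu, hu'⟩ := hk₀ k hk
    have := finiteDimensional_rr (D + k • Pol x)
    rw [riemannRochSpace_eq_boundedOn] at hu hu'
    have hstep := boundedOn_step (S := fun _ => True) (hasRes v) trivial
      (D := fun w => (D + k • Pol x : Divisor K F) w) (E := fun w => (E + k • Pol x : Divisor K F) w)
      (by simp only [Finsupp.add_apply, hEv]; ring)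
      (fun w _ hw => by simp only [Finsupp.add_apply, hEw w hw]) hu hu'
    rw [← riemannRochSpace_eq_boundedOn, ← riemannRochSpace_eq_boundedOn] at hstep
    rw [← riemannRochSpace_eq_boundedOn] at hu'
    have hu0 : u ≠ 0 := fun h => hu' (h ▸ zero_mem _)
    have hfr := Submodule.finrank_sup_add_finrank_inf_eq (riemannRochSpace (D + k • Pol x)) (K ∙ u)
    rw [← hstep, ((Submodule.disjoint_span_singleton' hu0).mpr hu').eq_bot, finrank_bot,
      finrank_span_singleton hu0] at hfr
    rw [ell, ell]
    omega
  have hx0 := ne_zero_of_transcendental hx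
  have hkey : ∀ u : F, u ≠ 0 → ∃ k₀ : ℤ, ∀ k, k₀ ≤ k → ∀ w : Place K F, w.ord x < 0 →
      -(E w + k * (-w.ord x)) ≤ w.ord u := by
    intro u hu
    obtain ⟨a, ha⟩ := exists_InfB_bound hx E u
    exact ⟨a, fun k hk w hw => (bd_iff_ord hu).mp (ha.mono hk w hw)⟩
  by_cases hv : Bd v x 0
  · obtain ⟨u, hu0, hu1, hu2⟩ := exists_ord_eq hx hv E (-(D v + 1))
    obtain ⟨k₀, hk₀⟩ := hkey u hu0
    refine ⟨k₀, fun k hk => ⟨u, ?_, ?_⟩⟩
    · rw [mem_rr_iff hx]
      refine ⟨fun w hw => ?_, fun w hw => (bd_iff_ord hu0).mpr (hk₀ k hk w hw)⟩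
      rcases eq_or_ne w v with rfl | hne
      · rw [bd_iff_ord hu0, hu1, hEv]
      · exact hu2 w hw hne
    · rw [mem_rr_iff hx]
      rintro ⟨h, -⟩
      have := (bd_iff_ord hu0).mp (h v hv)
      omega
  · have hvneg := ord_neg_of_not_bd hv
    have hy := transcendental_inv hx
    obtain ⟨u, hu0, hu1, hu2⟩ := exists_ord_eq hy
      ((bd_inv_of_not_bd hv).mono (by omega)) E (-(D v + 1))
    obtain ⟨N, hN⟩ : ∃ N : ℤ, ∀ w : Place K F, 0 < w.ord x → -(E w + N * w.ord x) ≤ w.ord u := by
      obtain ⟨a, ha⟩ := exists_InfB_bound hy E u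
      exact ⟨a, fun w hw => by
        have := (bd_iff_ord hu0).mp (ha w (by rw [w.ord_inv]; omega))
        rw [w.ord_inv, neg_neg] at this
        exact this⟩
    refine ⟨N, fun k hk => ⟨x ^ k * u, ?_, ?_⟩⟩
    · rw [mem_rr_iff hx]
      refine ⟨fun w hw => ?_, fun w hw => ?_⟩
      · rw [bd_iff_ord (mul_ne_zero (zpow_ne_zero _ hx0) hu0),
          w.ord_mul (zpow_ne_zero _ hx0) hu0, w.ord_zpow]
        have h0 := (bd_iff_ord hx0).mp hw
        rcases eq_or_lt_of_le (show 0 ≤ w.ord x by omega) with h | h
        · rw [← h, mul_zero, zero_add]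
          exact (bd_iff_ord hu0).mp (hu2 w
            (by rw [bd_iff_ord (inv_ne_zero hx0), w.ord_inv]; omega)
            (fun e => hv (e ▸ hw)))
        · have := hN w h
          nlinarith
      · rw [bd_iff_ord (mul_ne_zero (zpow_ne_zero _ hx0) hu0),
          w.ord_mul (zpow_ne_zero _ hx0) hu0, w.ord_zpow]
        rcases eq_or_ne w v with rfl | hne
        · rw [hu1, hEv]; nlinarith
        · have := (bd_iff_ord hu0).mp
            (hu2 w ((bd_inv_of_not_bd (not_bd_of_ord_neg hw)).mono (by omega)) hne)
          nlinarith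
    · rw [mem_rr_iff hx]
      rintro ⟨-, h⟩
      have := (bd_iff_ord (mul_ne_zero (zpow_ne_zero _ hx0) hu0)).mp (h v hvneg)
      rw [v.ord_mul (zpow_ne_zero _ hx0) hu0, v.ord_zpow, hu1] at this
      nlinarith

/-- the Euler characteristic -/
def chi {x : F} (hx : Transcendental K x) (D : Divisor K F) : ℤ :=
  ndeg K x - ∑ i, (exists_reduced hx D).choose_spec.choose i

theorem chi_eq {x : F} (hx : Transcendental K x) (D : Divisor K F) :
    (ell D : ℤ) - ell (Kd hx - D) = chi hx D := by
  have h := (exists_reduced hx D).choose_spec.choose_spec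
  set a := (exists_reduced hx D).choose_spec.choose with ha
  have h1 := (ell_eq hx h 0).2
  have h2 := (ell_dual_eq hx h 0).2
  rw [zero_smul, add_zero] at h1 h2
  rw [h1, h2, chi, ← ha, Nat.cast_sum, Nat.cast_sum, ← Finset.sum_sub_distrib]
  have : ∀ i, (((0 - a i + 1).toNat : ℤ) - ((0 + a i - 1).toNat : ℤ)) = 1 - a i := fun i => by
    omega
  rw [Finset.sum_congr rfl fun i _ => this i, Finset.sum_sub_distrib]
  simp

theorem chi_large {x : F} (hx : Transcendental K x) (D : Divisor K F) :
    ∃ k₀ : ℤ, ∀ k, k₀ ≤ k → (ell (D + k • Pol x) : ℤ) = chi hx D + ndeg K x * k := by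
  have h := (exists_reduced hx D).choose_spec.choose_spec
  set a := (exists_reduced hx D).choose_spec.choose with ha
  refine ⟨∑ i, |a i|, fun k hk => ?_⟩
  rw [(ell_eq hx h k).2, chi, ← ha, Nat.cast_sum]
  have : ∀ i, (((k - a i + 1).toNat : ℤ)) = k + 1 - a i := fun i => by
    have h1 : |a i| ≤ ∑ i, |a i| :=
      Finset.single_le_sum (f := fun i => |a i|) (fun i _ => abs_nonneg _) (Finset.mem_univ i)
    have := le_abs_self (a i)
    omega
  rw [Finset.sum_congr rfl fun i _ => this i, Finset.sum_sub_distrib]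
  simp; ring

theorem chi_single {x : F} (hx : Transcendental K x) (D : Divisor K F) (v : Place K F) :
    chi hx (D + Finsupp.single v 1) = chi hx D + 1 := by
  obtain ⟨k₁, h₁⟩ := exists_new hx D v
  obtain ⟨k₂, h₂⟩ := chi_large hx D
  obtain ⟨k₃, h₃⟩ := chi_large hx (D + Finsupp.single v 1)
  set k := max k₁ (max k₂ k₃)
  have e1 := h₁ k (le_max_left _ _)
  have e2 := h₂ k (le_trans (le_max_left _ _) (le_max_right _ _))
  have e3 := h₃ k (le_trans (le_max_right _ _) (le_max_right _ _))
  omega

theorem chi_add_degree {x : F} (hx : Transcendental K x) (D : Divisor K F) :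
    chi hx D = chi hx 0 + Divisor.degree D := by
  classical
  induction D using Finsupp.induction with
  | zero => simp
  | single_add v n D _ _ ih =>
      have hup : ∀ (m : ℕ) (E : Divisor K F),
          chi hx (E + Finsupp.single v (m : ℤ)) = chi hx E + m := by
        intro m
        induction m with
        | zero => simp
        | succ m ihm =>
            intro E
            rw [Nat.cast_succ, Finsupp.single_add, ← add_assoc, chi_single, ihm]; ring
      have : chi hx (D + Finsupp.single v n) = chi hx D + n := by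
        rcases le_or_gt 0 n with hn | hn
        · obtain ⟨m, rfl⟩ := Int.eq_ofNat_of_zero_le hn; exact hup m D
        · obtain ⟨m, hm⟩ := Int.eq_ofNat_of_zero_le (show 0 ≤ -n by omega)
          have h := hup m (D + Finsupp.single v n)
          rw [← hm, add_assoc, ← Finsupp.single_add, add_neg_cancel, Finsupp.single_zero,
            add_zero] at h
          omega
      rw [add_comm, this, ih, map_add, Divisor.degree_single, deg_place]
      simp; ring

/-- the genus, via `dx` -/
def genusX {x : F} (hx : Transcendental K x) : ℕ := ell (Kd hx)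

theorem chi_zero {x : F} (hx : Transcendental K x) : chi hx 0 = 1 - genusX hx := by
  rw [← chi_eq, ell_zero, sub_zero]; rfl

theorem rr {x : F} (hx : Transcendental K x) (D : Divisor K F) :
    (ell D : ℤ) - ell (Kd hx - D) = Divisor.degree D + 1 - genusX hx := by
  rw [chi_eq, chi_add_degree, chi_zero]; ring

theorem degree_Kd {x : F} (hx : Transcendental K x) :
    Divisor.degree (Kd hx) = 2 * (genusX hx : ℤ) - 2 := by
  have h := rr hx (Kd hx)
  rw [sub_self, ell_zero] at h
  have : ell (Kd hx) = genusX hx := rfl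
  omega

end FLTAgent.RR
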